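import Fermat.Agent.LT.Asai.Local
import Mathlib.NumberTheory.EulerProduct.Basic
import Mathlib.NumberTheory.SumPrimeReciprocals
import Mathlib.Analysis.SpecialFunctions.Pow.Real

/-!
# The Asai series is unbounded at `1`

The endgame from an abstract multiplicative series: at every prime the square of the Euler factor
times the local mean square is bounded below by the exponential of a weight whose prime sum has
density more than `1`.
-/

set_option autoImplicit false

namespace FLTAgent.LT.Asai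

open Filter

/-- `1 - x ^ 2 ≥ exp (-2 x ^ 2)` for small `x`. -/
theorem exp_neg_le_one_sub_sq {x : ℝ} (hx : x ^ 2 ≤ 1 / 2) :
    Real.exp (-(2 * x ^ 2)) ≤ 1 - x ^ 2 := by
  rw [Real.exp_neg]
  refine inv_le_of_inv_le₀ (by linarith) (le_trans ?_ (Real.add_one_le_exp _))
  rw [inv_le_iff_one_le_mul₀ (by linarith)]
  nlinarith [sq_nonneg x]

/-- The general endgame: a multiplicative series whose Euler factors, squared and multiplied by
factors with products at most `C / (s - 1)`, have density more than `1` is unbounded at `1`. -/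
theorem false_of_euler (f : ℕ → ℝ) (hf0 : f 0 = 0) (hf1 : f 1 = 1)
    (hmul : ∀ {m n : ℕ}, m.Coprime n → f (m * n) = f m * f n)
    (hsum : ∀ s : ℝ, 1 < s → Summable fun n : ℕ => |f n| * (n : ℝ) ^ (-s))
    (E : ℕ → ℝ → ℝ) (wt : ℕ → ℝ) (hwt : ∃ M, ∀ p, |wt p| ≤ M) (K : ℝ) {c B C : ℝ} (hc : 1 < c)
    (hC : 0 < C)
    (hdens : ∀ s ∈ Set.Ioc (1 : ℝ) 2,
      c * -Real.log (s - 1) - B ≤ ∑' p : Nat.Primes, wt p * ((p : ℕ) : ℝ) ^ (-s))
    (hlocal : ∀ s ∈ Set.Ioc (1 : ℝ) 2, ∀ p : Nat.Primes,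
      Real.exp (wt p * ((p : ℕ) : ℝ) ^ (-s) - K * (((p : ℕ) : ℝ) ^ (-s)) ^ 2) ≤
        (∑' k, f ((p : ℕ) ^ k) * (((p : ℕ) : ℝ) ^ (-s)) ^ k) ^ 2 * E p s)
    (hE : ∀ s ∈ Set.Ioc (1 : ℝ) 2, ∀ T : Finset Nat.Primes, ∏ p ∈ T, E p s ≤ C / (s - 1))
    (hF : ∀ s ∈ Set.Ioc (1 : ℝ) 2, |∑' n : ℕ, f n * (n : ℝ) ^ (-s)| ≤ C) : False := by
  obtain ⟨M, hM⟩ := hwt
  set Z := ∑' p : Nat.Primes, ((p : ℕ) : ℝ) ^ (-2 : ℝ)
  have key : ∀ s ∈ Set.Ioc (1 : ℝ) 2,
      c * -Real.log (s - 1) - B - |K| * Z ≤ 3 * Real.log C + -Real.log (s - 1) := by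
    intro s hs
    have hs0 : 0 < s - 1 := sub_pos.mpr hs.1
    let g : ℕ → ℝ := fun n => f n * (n : ℝ) ^ (-s)
    have hg1 : g 1 = 1 := by simp [g, hf1]
    have hg0 : g 0 = 0 := by simp [g, hf0]
    have hgm : ∀ {m n : ℕ}, m.Coprime n → g (m * n) = g m * g n := fun {m n} h => by
      simp only [g, hmul h]
      push_cast
      rw [Real.mul_rpow (Nat.cast_nonneg m) (Nat.cast_nonneg n)]
      ring
    have hgs : Summable (‖g ·‖) := (hsum s hs.1).congr fun n => by
      simp only [g, norm_mul, Real.norm_eq_abs]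
      rw [abs_of_nonneg (Real.rpow_nonneg (Nat.cast_nonneg n) _)]
    have hprod : Tendsto (fun T : Finset Nat.Primes =>
        ∏ p ∈ T, ∑' k, f ((p : ℕ) ^ k) * (((p : ℕ) : ℝ) ^ (-s)) ^ k) atTop
        (nhds (∑' n : ℕ, g n)) := by
      refine Tendsto.congr (fun T => Finset.prod_congr rfl fun p _ => tsum_congr fun k => ?_)
        (EulerProduct.eulerProduct_hasProd hg1 hgm hgs hg0)
      simp only [g]
      push_cast
      rw [← Real.rpow_natCast ((p : ℕ) : ℝ) k, ← Real.rpow_mul (Nat.cast_nonneg _),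
        ← Real.rpow_natCast (((p : ℕ) : ℝ) ^ (-s)) k, ← Real.rpow_mul (Nat.cast_nonneg _),
        mul_comm (k : ℝ)]
    let x : Nat.Primes → ℝ := fun p => ((p : ℕ) : ℝ) ^ (-s)
    have hx0 : ∀ p, 0 ≤ x p := fun p => Real.rpow_nonneg (Nat.cast_nonneg _) _
    have hxs : Summable x := Nat.Primes.summable_rpow.mpr (by linarith [hs.1])
    have hxsq : ∀ p : Nat.Primes, x p ^ 2 ≤ ((p : ℕ) : ℝ) ^ (-2 : ℝ) := fun p => by
      show (((p : ℕ) : ℝ) ^ (-s)) ^ 2 ≤ _
      rw [← Real.rpow_natCast (((p : ℕ) : ℝ) ^ (-s)) 2, ← Real.rpow_mul (Nat.cast_nonneg _)]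
      exact Real.rpow_le_rpow_of_exponent_le (by exact_mod_cast p.2.one_le)
        (by push_cast; linarith [hs.1])
    have h2 : Summable fun p : Nat.Primes => ((p : ℕ) : ℝ) ^ (-2 : ℝ) :=
      Nat.Primes.summable_rpow.mpr (by norm_num)
    have hx2 : Summable fun p => x p ^ 2 := h2.of_nonneg_of_le (fun p => sq_nonneg _) hxsq
    have hw : Summable fun p : Nat.Primes => wt p * x p :=
      (hxs.mul_left M).of_norm_bounded fun p => by
        rw [norm_mul, Real.norm_eq_abs, Real.norm_eq_abs, abs_of_nonneg (hx0 p)]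
        exact mul_le_mul_of_nonneg_right (hM p) (hx0 p)
    have hv : Summable fun p : Nat.Primes => wt p * x p - K * x p ^ 2 := hw.sub (hx2.mul_left K)
    have hmain : Real.exp (∑' p : Nat.Primes, (wt p * x p - K * x p ^ 2)) ≤
        (∑' n : ℕ, g n) ^ 2 * (C / (s - 1)) := by
      refine le_of_tendsto_of_tendsto' (f := fun T : Finset Nat.Primes =>
          Real.exp (∑ p ∈ T, (wt (p : ℕ) * x p - K * x p ^ 2)))
        (g := fun T => (∏ p ∈ T, ∑' k, f ((p : ℕ) ^ k) * x p ^ k) ^ 2 * (C / (s - 1)))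
        ((Real.continuous_exp.tendsto _).comp hv.hasSum) ((hprod.pow 2).mul_const _) fun T => ?_
      rw [Real.exp_sum]
      calc ∏ p ∈ T, Real.exp (wt p * x p - K * x p ^ 2)
          ≤ ∏ p ∈ T, (∑' k, f ((p : ℕ) ^ k) * x p ^ k) ^ 2 * E p s :=
            Finset.prod_le_prod (fun p _ => (Real.exp_pos _).le) fun p _ => hlocal s hs p
        _ = (∏ p ∈ T, ∑' k, f ((p : ℕ) ^ k) * x p ^ k) ^ 2 * ∏ p ∈ T, E p s := by
            rw [Finset.prod_mul_distrib, Finset.prod_pow]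
        _ ≤ _ := mul_le_mul_of_nonneg_left (hE s hs T) (sq_nonneg _)
    have hbound : Real.exp (∑' p : Nat.Primes, (wt p * x p - K * x p ^ 2)) ≤ C ^ 3 / (s - 1) := by
      refine hmain.trans ?_
      rw [show C ^ 3 / (s - 1) = C ^ 2 * (C / (s - 1)) by ring, ← sq_abs]
      exact mul_le_mul_of_nonneg_right (pow_le_pow_left₀ (abs_nonneg _) (hF s hs) 2)
        (div_nonneg hC.le hs0.le)
    have hlog := Real.log_le_log (Real.exp_pos _) hbound
    rw [Real.log_exp, Real.log_div (by positivity) hs0.ne', Real.log_pow, hw.tsum_sub (hx2.mul_left K),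
      tsum_mul_left] at hlog
    have h3 : (∑' p, x p ^ 2) ≤ Z := hx2.tsum_le_tsum hxsq h2
    have h4 : K * (∑' p, x p ^ 2) ≤ |K| * Z :=
      (mul_le_mul_of_nonneg_right (le_abs_self K) (tsum_nonneg fun p => sq_nonneg _)).trans
        (mul_le_mul_of_nonneg_left h3 (abs_nonneg K))
    push_cast at hlog
    linarith [hdens s hs]
  -- `-log (s - 1)` is unbounded
  set T := (3 * Real.log C + B + |K| * Z) / (c - 1)
  obtain ⟨L, hL, hL0⟩ : ∃ L, T < L ∧ 0 ≤ L :=
    ⟨max T 0 + 1, by linarith [le_max_left T 0], by linarith [le_max_right T 0]⟩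
  have h := key (1 + Real.exp (-L))
    ⟨by linarith [Real.exp_pos (-L)], by linarith [Real.exp_le_one_iff.mpr (neg_nonpos.mpr hL0)]⟩
  rw [add_sub_cancel_left, Real.log_exp, neg_neg] at h
  rw [div_lt_iff₀ (by linarith)] at hL
  linarith

/-- The local bound at a split prime with unknown eigenvalues. -/
theorem exp_le_split {a b x : ℝ} (hx0 : 0 ≤ x) (hx : x ≤ 1 / 2)
    (ha : Summable fun k => cheb a k ^ 2 * x ^ k) (hb : Summable fun k => cheb b k ^ 2 * x ^ k) :
    Real.exp (-(32 * x ^ 2)) ≤ rsReal a b x ^ 2 * (rsReal a a x * rsReal b b x) := by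
  have hx2 : x ^ 2 ≤ 1 / 2 := by nlinarith
  refine le_trans ?_ (one_sub_sq_pow_le hx0 (by linarith) ha hb)
  calc Real.exp (-(32 * x ^ 2)) ≤ Real.exp (-(2 * x ^ 2)) ^ 4 := by
        rw [← Real.exp_nat_mul]
        exact Real.exp_le_exp.mpr (by push_cast; nlinarith [sq_nonneg x])
    _ ≤ _ := pow_le_pow_left₀ (Real.exp_pos _).le (exp_neg_le_one_sub_sq hx2) 4

/-- The local bound at a split prime with equal, bounded eigenvalues. -/
theorem exp_le_split_equal {t x : ℝ} (ht : |t| ≤ 2) (hx0 : 0 ≤ x)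
    (hs : Summable fun k => cheb t k ^ 2 * x ^ k) :
    Real.exp (4 * t ^ 2 * x - 32 * x ^ 2) ≤
      rsReal t t x ^ 2 * (rsReal t t x * rsReal t t x) := by
  have h := pow_le_pow_left₀ (Real.exp_pos _).le (exp_le_rsReal ht hx0 hs) 4
  rw [← Real.exp_nat_mul] at h
  refine le_trans (le_of_eq (congrArg Real.exp ?_)) (h.trans (le_of_eq (by ring)))
  push_cast
  ring

theorem cheb_two (k : ℕ) : cheb 2 k = k + 1 := by
  induction k using Nat.twoStepInduction with
  | zero => simp [cheb]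
  | one => norm_num [cheb]
  | more n h1 h2 => simp only [cheb, h1, h2]; push_cast; ring

theorem cheb_zero (k : ℕ) : cheb 0 (2 * k) = (-1) ^ k ∧ cheb 0 (2 * k + 1) = 0 := by
  induction k with
  | zero => simp [cheb]
  | succ n ih =>
    rw [show 2 * (n + 1) = 2 * n + 2 by ring, show 2 * n + 2 + 1 = 2 * n + 1 + 2 by ring]
    simp only [cheb, ih.1, ih.2]
    constructor <;> ring

/-- The local bound at an inert prime, the eigenvalue being `0` or `2`. -/
theorem exp_le_inert {a x : ℝ} (ha : a = 0 ∨ a = 2) (hx0 : 0 ≤ x) (hx : x ≤ 1 / 2) :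
    Real.exp (2 * a * x - 32 * x ^ 2) ≤ (∑' k, cheb a k * x ^ k) ^ 2 := by
  have hgeo : Summable fun k : ℕ => x ^ k := summable_geometric_of_lt_one hx0 (by linarith)
  rcases ha with rfl | rfl
  · have he : HasSum (fun k => cheb 0 (2 * k) * x ^ (2 * k)) (1 + x ^ 2)⁻¹ := by
      have h := hasSum_geometric_of_abs_lt_one (r := -(x ^ 2))
        (by rw [abs_neg, abs_of_nonneg (sq_nonneg x)]; nlinarith)
      rw [sub_neg_eq_add] at h
      refine h.congr_fun fun k => ?_
      rw [(cheb_zero k).1, pow_mul, neg_pow (x ^ 2)]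
    have ho : HasSum (fun k => cheb 0 (2 * k + 1) * x ^ (2 * k + 1)) 0 := by
      simp [fun k => (cheb_zero k).2]
    have hsum : HasSum (fun k => cheb 0 k * x ^ k) ((1 + x ^ 2)⁻¹ + 0) :=
      HasSum.even_add_odd (f := fun k => cheb 0 k * x ^ k) he ho
    rw [hsum.tsum_eq, add_zero, inv_pow, mul_zero, zero_mul, zero_sub, Real.exp_neg]
    refine inv_anti₀ (by positivity) ?_
    calc (1 + x ^ 2) ^ 2 ≤ Real.exp (x ^ 2) ^ 2 :=
          pow_le_pow_left₀ (by positivity) (by linarith [Real.add_one_le_exp (x ^ 2)]) 2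
      _ ≤ Real.exp (32 * x ^ 2) := by
          rw [← Real.exp_nat_mul]
          exact Real.exp_le_exp.mpr (by push_cast; nlinarith [sq_nonneg x])
  · have hs : Summable fun k => cheb 2 k * x ^ k := by
      refine Summable.congr ((summable_pow_mul_geometric_of_norm_lt_one 1
        (show ‖x‖ < 1 by rw [Real.norm_eq_abs, abs_of_nonneg hx0]; linarith)).add hgeo) fun k => ?_
      rw [cheb_two, pow_one]; ring
    have h1 : 1 + 2 * x ≤ ∑' k, cheb 2 k * x ^ k := by
      refine le_of_eq_of_le ?_ (hs.sum_le_tsum (Finset.range 2) fun k _ => ?_)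
      · simp [Finset.sum_range_succ, cheb]
      · rw [cheb_two]; positivity
    refine le_trans ?_ (pow_le_pow_left₀ (by linarith) h1 2)
    refine le_trans ?_ (pow_le_pow_left₀ (Real.exp_pos _).le (exp_sub_sq_le (u := 2 * x) (by linarith)) 2)
    rw [← Real.exp_nat_mul]
    exact Real.exp_le_exp.mpr (by push_cast; nlinarith [sq_nonneg x])

end FLTAgent.LT.Asai
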