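import Fermat.Agent.LT.Defs

/-!
# Traces of the lift at the primes with known eigenvalues
-/

set_option autoImplicit false

noncomputable section

namespace FLTAgent.LT.Asai

open Matrix

/-- Four times the square of the trace on the quaternion group, twice the trace of the square
outside the special linear group, `0` elsewhere. -/
def wtMat (g : Matrix (Fin 2) (Fin 2) (ZMod 3)) : ℕ :=
  if g = 1 ∨ g = -1 then 16 else if g.det ≠ 1 ∧ g * g = 1 then 4 else 0

theorem wtMat_le (g : Matrix (Fin 2) (Fin 2) (ZMod 3)) : wtMat g ≤ 16 := by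
  unfold wtMat
  split_ifs <;> omega

theorem sum_wtMat :
    ∑ g ∈ (Finset.univ : Finset (Matrix (Fin 2) (Fin 2) (ZMod 3))).filter (fun g => g.det ≠ 0),
        wtMat g = 80 ∧
      ((Finset.univ : Finset (Matrix (Fin 2) (Fin 2) (ZMod 3))).filter
        (fun g => g.det ≠ 0)).card = 48 := by
  unfold wtMat
  decide +kernel

theorem wtMat_conj {g h k : Matrix (Fin 2) (Fin 2) (ZMod 3)} (hk : h * k = 1) :
    wtMat (h * g * k) = wtMat g := by
  have hk' : k * h = 1 := mul_eq_one_comm.mp hk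
  have hd : h.det * k.det = 1 := by rw [← Matrix.det_mul, hk, Matrix.det_one]
  have e : ∀ u : Matrix (Fin 2) (Fin 2) (ZMod 3), h * g * k = u ↔ g = k * u * h := fun u => by
    constructor
    · rintro rfl
      simp only [← mul_assoc, hk', one_mul]
      rw [mul_assoc, hk', mul_one]
    · rintro rfl
      simp only [← mul_assoc, hk, one_mul]
      rw [mul_assoc, hk, mul_one]
  have e1 : h * g * k = 1 ↔ g = 1 := by rw [e, mul_one, hk']
  have e2 : h * g * k = -1 ↔ g = -1 := by rw [e, mul_neg_one, neg_mul, hk']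
  have e3 : (h * g * k).det = g.det := by
    rw [Matrix.det_mul, Matrix.det_mul, mul_right_comm, hd, one_mul]
  have e4 : h * g * k * (h * g * k) = 1 ↔ g * g = 1 := by
    have : h * g * k * (h * g * k) = h * (g * g) * k := by
      simp only [← mul_assoc]
      rw [mul_assoc (h * g) k h, hk', mul_one]
    rw [this]
    constructor
    · intro h'
      have := congrArg (fun u => k * u * h) h'
      simp only [← mul_assoc, hk', one_mul, mul_one] at this
      rw [mul_assoc (g * g), hk', mul_one] at this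
      exact this
    · intro h'
      rw [h', mul_one, hk]
  simp only [wtMat, e1, e2, e3, e4]

private theorem quat_closed : ∀ x y : Matrix (Fin 2) (Fin 2) (ZMod 3),
    (x = 1 ∨ x = -1 ∨ (x.det = 1 ∧ x * x = -1)) →
      (y = 1 ∨ y = -1 ∨ (y.det = 1 ∧ y * y = -1)) →
        (x * y = 1 ∨ x * y = -1 ∨ ((x * y).det = 1 ∧ x * y * (x * y) = -1)) := by
  decide +kernel

theorem det_ne_one_sq : ∀ g : Matrix (Fin 2) (Fin 2) (ZMod 3), g.det ≠ 0 → g.det ≠ 1 →
    g * g = 1 ∨ ((g * g).det = 1 ∧ g * g * (g * g) = -1 ∧ g * g ≠ 1) := by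
  decide +kernel

theorem det_one_not_quat : ∀ g : Matrix (Fin 2) (Fin 2) (ZMod 3), g.det = 1 →
    ¬(g = 1 ∨ g = -1 ∨ (g.det = 1 ∧ g * g = -1)) → wtMat g = 0 := by
  unfold wtMat
  decide +kernel

local notation "GL3" => GL (Fin 2) (ZMod 3)

theorem val_of_mem_quat {g : GL3} (hg : g ∈ Octa.quat) :
    (g : Matrix (Fin 2) (Fin 2) (ZMod 3)) = 1 ∨ (g : Matrix (Fin 2) (Fin 2) (ZMod 3)) = -1 ∨
      ((g : Matrix (Fin 2) (Fin 2) (ZMod 3)).det = 1 ∧
        (g : Matrix (Fin 2) (Fin 2) (ZMod 3)) * (g : Matrix (Fin 2) (Fin 2) (ZMod 3)) = -1) := by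
  unfold Octa.quat at hg
  induction hg using Subgroup.closure_induction with
  | mem x hx =>
    refine Or.inr (Or.inr ⟨?_, ?_⟩)
    · have := congrArg (Units.val) hx.1
      simpa using this
    · have := hx.2
      rwa [sq, Units.val_mul] at this
  | one => exact Or.inl Units.val_one
  | mul x y _ _ hx hy =>
    rw [Units.val_mul]
    exact quat_closed _ _ hx hy
  | inv x _ hx =>
    have h1 : (x : Matrix (Fin 2) (Fin 2) (ZMod 3)) *
        ((x⁻¹ : GL3) : Matrix (Fin 2) (Fin 2) (ZMod 3)) = 1 := by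
      rw [← Units.val_mul, mul_inv_cancel, Units.val_one]
    rcases hx with h | h | ⟨hd, h⟩
    · rw [h, one_mul] at h1; exact Or.inl h1
    · rw [h, neg_one_mul, neg_eq_iff_eq_neg] at h1; exact Or.inr (Or.inl h1)
    · have e : ((x⁻¹ : GL3) : Matrix (Fin 2) (Fin 2) (ZMod 3)) =
          -(x : Matrix (Fin 2) (Fin 2) (ZMod 3)) := by
        have := congrArg (fun u => ((x⁻¹ : GL3) : Matrix (Fin 2) (Fin 2) (ZMod 3)) * u) h
        simp only [← mul_assoc, ← Units.val_mul, inv_mul_cancel, one_mul] at this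
        rw [mul_neg, mul_one] at this
        rw [this, neg_neg]
      refine Or.inr (Or.inr ⟨?_, ?_⟩)
      · rw [e, Matrix.det_neg, hd]
        decide
      · rw [e, neg_mul_neg, h]

theorem mem_quat_one_or {g : GL3} (h : (g : Matrix (Fin 2) (Fin 2) (ZMod 3)).det = 1)
    (hsq : (g : Matrix (Fin 2) (Fin 2) (ZMod 3)) * (g : Matrix (Fin 2) (Fin 2) (ZMod 3)) = -1) :
    g ∈ Octa.quat :=
  Subgroup.subset_closure ⟨Units.ext (by simpa using h), by rw [sq, Units.val_mul, hsq]⟩

/-! ### The lift -/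

variable (d : Octa)

theorem zsqrt_mul_eq_zero {a b : ℤ√(-2)} (h : a * b = 0) : a = 0 ∨ b = 0 := by
  have := congrArg Zsqrtd.norm h
  rw [Zsqrtd.norm_mul, Zsqrtd.norm_zero, mul_eq_zero] at this
  exact this.imp (Zsqrtd.norm_eq_zero_iff (by norm_num) a).mp
    (Zsqrtd.norm_eq_zero_iff (by norm_num) b).mp

/-- The matrix of the lift. -/
def liftMat (g : GL3) : Matrix (Fin 2) (Fin 2) (ℤ√(-2)) := (d.lift g).val

theorem liftMat_red (g : GL3) :
    (liftMat d g).map FLT.ExplicitLift.red = (g : Matrix (Fin 2) (Fin 2) (ZMod 3)) :=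
  congrArg Units.val (d.lift_red g)

theorem liftMat_mul (g h : GL3) : liftMat d (g * h) = liftMat d g * liftMat d h := by
  simp [liftMat]

theorem liftMat_one : liftMat d 1 = 1 := by simp [liftMat]

theorem liftMat_neg_one {g : GL3} (hg : (g : Matrix (Fin 2) (Fin 2) (ZMod 3)) = -1) :
    liftMat d g = -1 := by
  have hsq : liftMat d g * liftMat d g = 1 := by
    rw [← liftMat_mul, ← liftMat_one d]
    congr 1
    exact Units.ext (by rw [Units.val_mul, hg, neg_mul_neg, one_mul, Units.val_one])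
  have hr := liftMat_red d g
  rw [hg] at hr
  set M := liftMat d g
  have e := fun i j => congrFun (congrFun hsq i) j
  have r := fun i j => congrFun (congrFun hr i) j
  have e00 := e 0 0; have e01 := e 0 1; have e10 := e 1 0; have e11 := e 1 1
  have r00 := r 0 0; have r11 := r 1 1
  simp [Matrix.mul_apply, Fin.sum_univ_two] at e00 e01 e10 e11
  simp at r00 r11
  have hne : M 0 0 + M 1 1 ≠ 0 := fun h => by
    have := congrArg FLT.ExplicitLift.red h
    rw [map_add, r00, r11, map_zero] at this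
    exact absurd this (by decide)
  have hb : M 0 1 = 0 := (zsqrt_mul_eq_zero (show M 0 1 * (M 0 0 + M 1 1) = 0 by
    linear_combination e01)).resolve_right hne
  have hc : M 1 0 = 0 := (zsqrt_mul_eq_zero (show M 1 0 * (M 0 0 + M 1 1) = 0 by
    linear_combination e10)).resolve_right hne
  have key : ∀ z : ℤ√(-2), z * z = 1 → FLT.ExplicitLift.red z = -1 → z = -1 := fun z hz hrz => by
    rcases zsqrt_mul_eq_zero (show (z - 1) * (z + 1) = 0 by linear_combination hz) with h | h
    · rw [sub_eq_zero] at h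
      rw [h, map_one] at hrz
      exact absurd hrz (by decide)
    · exact eq_neg_of_add_eq_zero_left h
  have ha : M 0 0 = -1 := key _ (by rw [hb, zero_mul, add_zero] at e00; exact e00) r00
  have hd : M 1 1 = -1 := key _ (by rw [hc, zero_mul, zero_add] at e11; exact e11) r11
  ext i j : 1
  fin_cases i <;> fin_cases j <;> simp [ha, hb, hc, hd]

theorem trace_liftMat_of_sq {g : GL3}
    (hg : (g : Matrix (Fin 2) (Fin 2) (ZMod 3)) * (g : Matrix (Fin 2) (Fin 2) (ZMod 3)) = -1) :
    (liftMat d g).trace = 0 := by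
  have hsq : liftMat d g * liftMat d g = -1 := by
    rw [← liftMat_mul]
    exact liftMat_neg_one d (by rw [Units.val_mul]; exact hg)
  set M := liftMat d g
  have e := fun i j => congrFun (congrFun hsq i) j
  have e00 := e 0 0; have e01 := e 0 1; have e10 := e 1 0
  simp [Matrix.mul_apply, Fin.sum_univ_two] at e00 e01 e10
  rw [Matrix.trace_fin_two]
  by_contra hne
  have hb : M 0 1 = 0 := (zsqrt_mul_eq_zero (show M 0 1 * (M 0 0 + M 1 1) = 0 by
    linear_combination e01)).resolve_right hne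
  rw [hb, zero_mul, add_zero] at e00
  have h1 := congrArg Zsqrtd.re e00
  have h2 := congrArg Zsqrtd.im e00
  simp at h1 h2
  rcases mul_eq_zero.mp (show (M 0 0).re * (M 0 0).im = 0 by linarith) with h | h
  · rw [h] at h1
    have : (M 0 0).im * (M 0 0).im * 2 = 1 := by linarith
    omega
  · rw [h] at h1
    nlinarith [mul_self_nonneg (M 0 0).re]

theorem tr0_eq (σ : Gam) : d.tr0 σ = iotaC (liftMat d (d.rbar σ)).trace := rfl

/-- At Frobenius elements in `G_M` of `G_K`: the trace squared gives the weight. -/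
theorem tr0_of_mem_quat {σ : Gam} (hσ : d.rbar σ ∈ Octa.quat) :
    ∃ t : ℝ, d.tr0 σ = (t : ℂ) ∧ |t| ≤ 2 ∧
      4 * t ^ 2 = (wtMat (d.rbar σ : Matrix (Fin 2) (Fin 2) (ZMod 3)) : ℝ) := by
  rcases val_of_mem_quat hσ with h | h | ⟨hd, h⟩
  · refine ⟨2, ?_, by norm_num, by rw [h]; norm_num [wtMat]⟩
    rw [tr0_eq, show d.rbar σ = 1 from Units.ext h, liftMat_one, Matrix.trace_fin_two]
    simp
    norm_num
  · refine ⟨-2, ?_, by norm_num, by rw [h]; norm_num [wtMat]⟩
    rw [tr0_eq, liftMat_neg_one d h, Matrix.trace_fin_two]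
    simp
    norm_num
  · refine ⟨0, by rw [tr0_eq, trace_liftMat_of_sq d h, map_zero, Complex.ofReal_zero],
      by norm_num, ?_⟩
    have h0 : ∀ g : Matrix (Fin 2) (Fin 2) (ZMod 3), g.det = 1 → g * g = -1 → wtMat g = 0 := by
      unfold wtMat
      decide +kernel
    rw [h0 _ hd h]
    norm_num

/-- At Frobenius elements outside `G_K`: the trace of the square gives the weight. -/
theorem tr0_sq_of_det_ne {σ : Gam}
    (hσ : (d.rbar σ : Matrix (Fin 2) (Fin 2) (ZMod 3)).det ≠ 1) :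
    σ ^ 2 ∈ d.GM ∧ ∃ a : ℝ, (a = 0 ∨ a = 2) ∧ d.tr0 (σ ^ 2) = (a : ℂ) ∧
      2 * a = (wtMat (d.rbar σ : Matrix (Fin 2) (Fin 2) (ZMod 3)) : ℝ) := by
  set g := d.rbar σ with hg
  have hd0 : (g : Matrix (Fin 2) (Fin 2) (ZMod 3)).det ≠ 0 :=
    (Matrix.GeneralLinearGroup.det g).ne_zero
  have hsq : ((g * g : GL3) : Matrix (Fin 2) (Fin 2) (ZMod 3)) =
      (g : Matrix (Fin 2) (Fin 2) (ZMod 3)) * (g : Matrix (Fin 2) (Fin 2) (ZMod 3)) :=
    Units.val_mul g g
  have hr : d.rbar (σ ^ 2) = g * g := by rw [sq, map_mul]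
  have hne : (g : Matrix (Fin 2) (Fin 2) (ZMod 3)) ≠ 1 ∧
      (g : Matrix (Fin 2) (Fin 2) (ZMod 3)) ≠ -1 :=
    ⟨fun h => hσ (by rw [h, Matrix.det_one]), fun h => hσ (by rw [h]; decide)⟩
  rcases det_ne_one_sq _ hd0 hσ with h | ⟨hd, h, h1⟩
  · have h' : g * g = 1 := Units.ext (by rw [hsq, h, Units.val_one])
    refine ⟨?_, 2, Or.inr rfl, ?_, ?_⟩
    · show d.rbar (σ ^ 2) ∈ Octa.quat
      rw [hr, h']
      exact one_mem _
    · rw [tr0_eq, hr, h', liftMat_one, Matrix.trace_fin_two]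
      simp
      norm_num
    · rw [wtMat, if_neg (not_or.mpr hne), if_pos ⟨hσ, h⟩]
      norm_num
  · refine ⟨?_, 0, Or.inl rfl, ?_, ?_⟩
    · show d.rbar (σ ^ 2) ∈ Octa.quat
      rw [hr]
      exact mem_quat_one_or (by rw [hsq]; exact hd) (by rw [hsq]; exact h)
    · rw [tr0_eq, hr, trace_liftMat_of_sq d (by rw [hsq]; exact h), map_zero, Complex.ofReal_zero]
    · rw [wtMat, if_neg (not_or.mpr hne), if_neg fun h' => h1 h'.2]
      norm_num

end FLTAgent.LT.Asai
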