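import Fermat.Agent.LT.Asai.PrimeDiverge
import Fermat.Agent.LT.Asai.TraceValues

/-!
# The weight of a prime and its density
-/

set_option autoImplicit false
set_option maxSynthPendingDepth 3

noncomputable section

namespace FLTAgent.LT.Asai

/-- The weight of `σ`. -/
def wtGam (d : Octa) (σ : Gam) : ℕ :=
  wtMat (d.rbar σ : Matrix (Fin 2) (Fin 2) (ZMod 3))

theorem wtGam_conj (d : Octa) (σ τ : Gam) : wtGam d (τ * σ * τ⁻¹) = wtGam d σ := by
  rw [wtGam, wtGam, map_mul, map_mul, Units.val_mul, Units.val_mul, map_inv]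
  exact wtMat_conj (by rw [← Units.val_mul, mul_inv_cancel, Units.val_one])

theorem sum_wt_GL : ∑ g : GL (Fin 2) (ZMod 3), wtMat (g : Matrix (Fin 2) (Fin 2) (ZMod 3)) = 80 ∧
    Nat.card (GL (Fin 2) (ZMod 3)) = 48 := by
  classical
  set S := (Finset.univ : Finset (Matrix (Fin 2) (Fin 2) (ZMod 3))).filter (fun g => g.det ≠ 0)
  have himg : (Finset.univ : Finset (GL (Fin 2) (ZMod 3))).map ⟨Units.val, Units.val_injective⟩ = S := by
    ext g
    simp only [Finset.mem_map, Finset.mem_univ, true_and, Function.Embedding.coeFn_mk,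
      Finset.mem_filter, S]
    exact ⟨fun ⟨u, hu⟩ => hu ▸ (Matrix.GeneralLinearGroup.det u).ne_zero,
      fun h => ⟨Matrix.GeneralLinearGroup.mkOfDetNeZero g h, rfl⟩⟩
  constructor
  · rw [← sum_wtMat.1]
    show _ = ∑ g ∈ S, wtMat g
    rw [← himg, Finset.sum_map]
    rfl
  · rw [Nat.card_eq_fintype_card, ← sum_wtMat.2, ← Finset.card_univ]
    show _ = S.card
    rw [← himg, Finset.card_map]

/-- A function on primes dominating the weight of Frobenius has prime sum at least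
`(5 / 3 - ε) log (1 / (s - 1))`. -/
theorem exists_wt_density (d : Octa) (S : Finset ℕ) (c : ℕ → ℝ) (hc0 : ∀ p, 0 ≤ c p)
    (hcb : ∃ C, ∀ p : ℕ, p.Prime → c p ≤ C)
    (hc : ∀ p : ℕ, p.Prime → p ∉ S → ∀ A : ValuationSubring Qb, A.LiesOverPrime p →
      ∀ σ : Gam, A.IsFrobeniusAt σ p → (wtGam d σ : ℝ) ≤ c p) :
    ∃ B : ℝ, ∀ s ∈ Set.Ioc (1 : ℝ) 2,
      (4 / 3 : ℝ) * -Real.log (s - 1) - B ≤ ∑' p : Nat.Primes, c p * ((p : ℕ) : ℝ) ^ (-s) := by
  classical
  have : Normal ℚ Qb := Chebotarev.normal_qbar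
  set H : Subgroup Gam := d.rbar.ker
  have hH : IsOpen (H : Set Gam) :=
    (isOpen_discrete ({1} : Set (GL (Fin 2) (ZMod 3)))).preimage d.cont
  obtain ⟨hfix, hfd⟩ := Octa.fixing_of_open hH
  set L := IntermediateField.fixedField H
  let F := IntermediateField.normalClosure ℚ L Qb
  have : Normal ℚ F := normalClosure.normal ℚ L Qb
  have : FiniteDimensional ℚ F := normalClosure.is_finiteDimensional ℚ L Qb
  let r := AlgEquiv.restrictNormalHom (F := ℚ) (K₁ := Qb) F
  have hr : Function.Surjective r := AlgEquiv.restrictNormalHom_surjective (F := ℚ) (E := Qb)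
  have hker : r.ker ≤ d.rbar.ker := by
    intro σ hσ
    have h1 : σ ∈ F.fixingSubgroup :=
      (SetLike.ext_iff.mp
        (@IntermediateField.restrictNormalHom_ker ℚ Qb _ _ _ F ‹Normal ℚ F›) σ).mp hσ
    show σ ∈ H
    rw [← hfix, IntermediateField.mem_fixingSubgroup_iff]
    exact fun x hx => (IntermediateField.mem_fixingSubgroup_iff F σ).mp h1 x (L.le_normalClosure hx)
  let ψ : (F ≃ₐ[ℚ] F) →* GL (Fin 2) (ZMod 3) := MonoidHom.liftOfSurjective r hr ⟨d.rbar, hker⟩
  have hψ : ∀ σ, ψ (r σ) = d.rbar σ := MonoidHom.liftOfRightInverse_comp_apply _ _ _ _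
  have hψs : Function.Surjective ψ := fun h => by
    obtain ⟨σ, rfl⟩ := d.surj h
    exact ⟨r σ, hψ σ⟩
  let w : (F ≃ₐ[ℚ] F) → ℝ := fun g => (wtMat (ψ g : Matrix (Fin 2) (Fin 2) (ZMod 3)) : ℝ)
  have hconj : ∀ g h, w (h * g * h⁻¹) = w g := fun g h => by
    simp only [w, map_mul, map_inv, Units.val_mul]
    rw [wtMat_conj (by rw [← Units.val_mul, mul_inv_cancel, Units.val_one])]
  obtain ⟨B, hB⟩ := exists_weighted_density F w (fun g => Nat.cast_nonneg _) hconj S c hc0 hcb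
    (fun p hp hpS A hA _ φ hφ => by
      show (wtMat (ψ (r φ) : Matrix (Fin 2) (Fin 2) (ZMod 3)) : ℝ) ≤ c p
      rw [hψ]
      exact hc p hp hpS A hA φ hφ) (ε := 1 / 3) (by norm_num)
  refine ⟨B, fun s hs => le_trans (le_of_eq ?_) (hB s hs)⟩
  congr 2
  have hfib : ∀ g₀ : GL (Fin 2) (ZMod 3),
      ((Finset.univ : Finset (F ≃ₐ[ℚ] F)).filter fun g => ψ g = g₀).card = Nat.card ψ.ker := by
    intro g₀
    obtain ⟨a, rfl⟩ := hψs g₀
    rw [← Fintype.card_subtype, ← Nat.card_eq_fintype_card]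
    refine Nat.card_congr
      { toFun := fun g => ⟨a⁻¹ * g.1, by simp [MonoidHom.mem_ker, g.2]⟩
        invFun := fun k => ⟨a * k.1, by simp [MonoidHom.mem_ker.mp k.2]⟩
        left_inv := fun g => Subtype.ext (by simp)
        right_inv := fun k => Subtype.ext (by simp) }
  have hsum : ∑ g, w g = (Nat.card ψ.ker : ℝ) * 80 := by
    rw [← Finset.sum_fiberwise_of_maps_to (g := fun g => ψ g) (t := Finset.univ) fun g _ => Finset.mem_univ _,
      ← Nat.cast_ofNat (n := 80), ← sum_wt_GL.1, Nat.cast_sum, Finset.mul_sum]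
    refine Finset.sum_congr rfl fun g₀ _ => ?_
    rw [Finset.sum_congr rfl (g := fun _ => (wtMat (g₀ : Matrix (Fin 2) (Fin 2) (ZMod 3)) : ℝ))
      fun g hg => by simp [w, (Finset.mem_filter.mp hg).2], Finset.sum_const, hfib, nsmul_eq_mul]
  have hcard : Nat.card (F ≃ₐ[ℚ] F) = Nat.card ψ.ker * 48 := by
    rw [← sum_wt_GL.2, ← Subgroup.index_mul_card ψ.ker, Subgroup.index_ker,
      MonoidHom.range_eq_top_of_surjective ψ hψs, Subgroup.card_top, mul_comm]
  rw [hsum, hcard, Nat.cast_mul, mul_div_mul_left _ _ (by exact_mod_cast Nat.card_pos.ne')]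
  norm_num

end FLTAgent.LT.Asai
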