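import Fermat.Agent.LT.Asai.Kfield
import Fermat.Agent.LT.Asai.Euler
import Fermat.Agent.LT.Asai.Weights
import Fermat.Agent.LT.Red.Approx

/-!
# Eigenvalues at the places over the good rational primes
-/

set_option autoImplicit false

noncomputable section

namespace FLTAgent.LT.Asai

open NumberField IsDedekindDomain
open scoped Pointwise

variable {d : Octa}

local notation "HS" => HeightOneSpectrum (𝓞 d.Kf)

/-- The cardinality of a residue field. -/
abbrev qv (v : HS) : ℕ := Nat.card (𝓞 d.Kf ⧸ v.asIdeal)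

open scoped Classical in
/-- The eigenvalue of `T_v`. -/
def cV (ψ : Form d.Kf) (v : HS) : ℝ :=
  if h : ∃ c : ℝ, ∀ x g, hecke v ψ x g = (c : ℂ) * ψ x g then h.choose else 0

/-- The normalised eigenvalue. -/
def aN (ψ : Form d.Kf) (v : HS) : ℝ := cV ψ v / Real.sqrt (qv v)

variable {ψ : Form d.Kf} {N : ℕ}

theorem hecke_cV (hfe : FullEigen N ψ) {v : HS} (hv : (N : 𝓞 d.Kf) ∉ v.asIdeal) :
    ∀ x g, hecke v ψ x g = (cV ψ v : ℂ) * ψ x g := by
  rw [cV, dif_pos (hfe v hv)]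
  exact (hfe v hv).choose_spec

theorem cV_eq (hne : ψ ≠ 0) {v : HS} {c : ℝ} (h : ∀ x g, hecke v ψ x g = (c : ℂ) * ψ x g) :
    cV ψ v = c := by
  obtain ⟨x, hx⟩ := Function.ne_iff.1 hne
  obtain ⟨g, hg⟩ := Function.ne_iff.1 hx
  have h' : ∃ c : ℝ, ∀ x g, hecke v ψ x g = (c : ℂ) * ψ x g := ⟨c, h⟩
  rw [cV, dif_pos h']
  have e := (h'.choose_spec x g).symm.trans (h x g)
  exact_mod_cast mul_right_cancel₀ hg e

variable (d) in
/-- The places over a number. -/
def above (p : ℕ) : Finset HS :=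
  if h : 0 < p then (Red.finite_natCast_mem h).toFinset else ∅

theorem mem_above {p : ℕ} (hp : 0 < p) {v : HS} :
    v ∈ above d p ↔ (p : 𝓞 d.Kf) ∈ v.asIdeal := by
  rw [above, dif_pos hp, Set.Finite.mem_toFinset]
  rfl

theorem natCast_notMem_of_coprime {p M : ℕ} (h : p.Coprime M) {v : HS}
    (hv : (p : 𝓞 d.Kf) ∈ v.asIdeal) : (M : 𝓞 d.Kf) ∉ v.asIdeal := fun hM => by
  obtain ⟨a, b, hab⟩ := Int.isCoprime_iff_nat_coprime.2 (by simpa using h : (p : ℤ).natAbs.Coprime (M : ℤ).natAbs)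
  refine v.isPrime.ne_top ((Ideal.eq_top_iff_one _).mpr ?_)
  have h1 := v.asIdeal.add_mem (v.asIdeal.mul_mem_left (a : 𝓞 d.Kf) hv)
    (v.asIdeal.mul_mem_left (b : 𝓞 d.Kf) hM)
  have h2 := congrArg (fun z : ℤ => (z : 𝓞 d.Kf)) hab
  push_cast at h2
  rwa [h2] at h1

theorem conjO_conjO (x : 𝓞 d.Kf) : conjO d (conjO d x) = x := by
  obtain ⟨a, b, hx, hc⟩ := conjO_spec d x
  obtain ⟨a', b', hx', hc'⟩ := conjO_spec d (conjO d x)
  have e : (a' : 𝓞 d.Kf) + b' * zO d = ((a - b : ℤ) : 𝓞 d.Kf) + ((-b : ℤ) : 𝓞 d.Kf) * zO d := by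
    rw [← hx', hc]
    push_cast
    linear_combination (b : 𝓞 d.Kf) * zO_eq d
  obtain ⟨rfl, rfl⟩ := coe_coords_inj d e
  rw [hc', hx]
  push_cast
  linear_combination -(b : 𝓞 d.Kf) * zO_eq d

theorem mem_placeOf {p : ℕ} (hp : p.Prime) {A : ValuationSubring Qb} (hA : A.LiesOverPrime p)
    (x : 𝓞 d.Kf) : x ∈ (placeOf d hp hA).asIdeal ↔ ((x : d.Kf) : Qb) ∈ A.nonunits :=
  mem_idealOf d A x

theorem mem_placeOf_smul {p : ℕ} (hp : p.Prime) {A : ValuationSubring Qb} (hA : A.LiesOverPrime p)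
    {τ : Gam} (hτ : τ ∉ d.GK) (x : 𝓞 d.Kf) :
    x ∈ (placeOf d hp (Frobenius.liesOverPrime_smul hA τ)).asIdeal ↔
      conjO d x ∈ (placeOf d hp hA).asIdeal := by
  rw [mem_placeOf, mem_placeOf, ← smul_eq_conjO d (τ := τ⁻¹) fun h => hτ (by simpa using inv_mem h),
    ValuationSubring.mem_nonunits_iff_or, ValuationSubring.mem_nonunits_iff_or,
    ValuationSubring.mem_pointwise_smul_iff_inv_smul_mem, smul_inv'', AlgEquiv.smul_def,
    map_eq_zero]

/-- The places over an inert prime. -/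
theorem above_inert {p : ℕ} (hp : p.Prime) (hp2 : p % 3 = 2) {A : ValuationSubring Qb}
    (hA : A.LiesOverPrime p) : above d p = {placeOf d hp hA} := by
  refine Finset.eq_singleton_iff_unique_mem.2
    ⟨(mem_above hp.pos).2 (natCast_mem_idealOf d hA), fun v hv => HeightOneSpectrum.ext ?_⟩
  rw [eq_span_of_mod_two d hp hp2 v ((mem_above hp.pos).1 hv),
    eq_span_of_mod_two d hp hp2 (placeOf d hp hA) (natCast_mem_idealOf d hA)]

theorem exists_notMem_GK : ∃ τ : Gam, τ ∉ d.GK := by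
  obtain ⟨τ, hτ⟩ := cycMod_surjective (M := 3) (-1)
  refine ⟨τ, fun h => ?_⟩
  rw [mem_GK_iff] at h
  have h1 : cycMod 3 τ = 1 := (cycMod_eq_one_iff τ).mpr fun z hz => by
    obtain ⟨i, -, rfl⟩ := zQ_spec.eq_pow_of_pow_eq_one (ξ := z) hz
    rw [map_pow, h]
  rw [h1] at hτ
  exact absurd hτ (by decide)

open scoped Classical in
/-- The places over a split prime. -/
theorem above_split {p : ℕ} (hp : p.Prime) (hp1 : p % 3 = 1) {A : ValuationSubring Qb}
    (hA : A.LiesOverPrime p) {τ : Gam} (hτ : τ ∉ d.GK) :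
    placeOf d hp hA ≠ placeOf d hp (Frobenius.liesOverPrime_smul hA τ) ∧
    above d p = {placeOf d hp hA, placeOf d hp (Frobenius.liesOverPrime_smul hA τ)} := by
  classical
  set v := placeOf d hp hA
  set w := placeOf d hp (Frobenius.liesOverPrime_smul hA τ)
  have hv : (p : 𝓞 d.Kf) ∈ v.asIdeal := natCast_mem_idealOf d hA
  obtain ⟨π, hπ, -, hnc⟩ := (split_data d hp hp1 v hv).2
  have hne : v ≠ w := fun h => by
    refine hnc ((mem_placeOf_smul hp hA hτ π).1 ?_)
    rw [show (placeOf d hp (Frobenius.liesOverPrime_smul hA τ)) = v from h.symm, hπ]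
    exact Ideal.mem_span_singleton_self π
  refine ⟨hne, (Finset.eq_of_subset_of_card_le ?_ ?_).symm⟩
  · intro u hu
    simp only [Finset.mem_insert, Finset.mem_singleton] at hu
    rcases hu with rfl | rfl
    · exact (mem_above hp.pos).2 hv
    · exact (mem_above hp.pos).2 (natCast_mem_idealOf d (Frobenius.liesOverPrime_smul hA τ))
  · rw [Finset.card_pair hne]
    set S := (above d p).image HeightOneSpectrum.asIdeal
    have hS : S.card = (above d p).card :=
      Finset.card_image_of_injective _ fun a b h => HeightOneSpectrum.ext h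
    have hdvd : ∏ I ∈ S, I ∣ Ideal.span {(p : 𝓞 d.Kf)} := by
      refine Finset.prod_primes_dvd _ (fun I hI => ?_) fun I hI => ?_ <;>
        obtain ⟨u, hu, rfl⟩ := Finset.mem_image.1 hI
      · exact u.prime
      · exact Ideal.dvd_span_singleton.2 ((mem_above hp.pos).1 hu)
    have h1 := map_dvd Ideal.absNorm hdvd
    have e : Ideal.absNorm (Ideal.span {(p : 𝓞 d.Kf)}) = p ^ 2 := card_quotient_natCast d p
    rw [e, map_prod, Finset.prod_congr rfl (g := fun _ => p) fun I hI => by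
      obtain ⟨u, hu, rfl⟩ := Finset.mem_image.1 hI
      exact (split_data d hp hp1 u ((mem_above hp.pos).1 hu)).1, Finset.prod_const] at h1
    rw [← hS]
    exact (Nat.pow_dvd_pow_iff_le_right hp.one_lt).1 h1

theorem quat_conj {g : GL (Fin 2) (ZMod 3)} (hg : g ∈ Octa.quat) (h : GL (Fin 2) (ZMod 3)) :
    h * g * h⁻¹ ∈ Octa.quat := by
  unfold Octa.quat at hg ⊢
  induction hg using Subgroup.closure_induction with
  | mem x hx =>
    refine Subgroup.subset_closure ⟨?_, ?_⟩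
    · rw [map_mul, map_mul, map_inv, mul_inv_cancel_comm, hx.1]
    · rw [show (h * x * h⁻¹) ^ 2 = h * x ^ 2 * h⁻¹ by rw [sq, sq]; group, Units.val_mul, Units.val_mul, hx.2,
        mul_neg, mul_one, neg_mul, ← Units.val_mul, mul_inv_cancel, Units.val_one]
  | one => simp
  | mul x y _ _ hx hy =>
    rw [show h * (x * y) * h⁻¹ = h * x * h⁻¹ * (h * y * h⁻¹) by group]
    exact mul_mem hx hy
  | inv x _ hx =>
    rw [show h * x⁻¹ * h⁻¹ = (h * x * h⁻¹)⁻¹ by group]
    exact inv_mem hx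

/-- The factor of the series at a rational prime. -/
def eulerF (ψ : Form d.Kf) (p k : ℕ) : ℝ := ∏ v ∈ above d p, cheb (aN ψ v) k

/-- The mean square factor at a rational prime. -/
def eulerE (ψ : Form d.Kf) (p : ℕ) (s : ℝ) : ℝ :=
  ∏ v ∈ above d p, rsReal (aN ψ v) (aN ψ v) ((qv v : ℝ) ^ (-s))

variable (d) in
/-- The bound on the mean squares of the eigenvalues at the good places. -/
def SelfBound (N : ℕ) (ψ : Form d.Kf) : Prop :=
  (∀ s ∈ Set.Ioc (1 : ℝ) 2, ∀ v : HS, (N : 𝓞 d.Kf) ∉ v.asIdeal →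
      Summable fun k => cheb (aN ψ v) k ^ 2 * ((qv v : ℝ) ^ (-s)) ^ k) ∧
    ∃ C : ℝ, 0 < C ∧ ∀ s ∈ Set.Ioc (1 : ℝ) 2, ∀ T : Finset HS,
      (∀ v ∈ T, (N : 𝓞 d.Kf) ∉ v.asIdeal) →
        ∏ v ∈ T, rsReal (aN ψ v) (aN ψ v) ((qv v : ℝ) ^ (-s)) ≤ C / (s - 1)

theorem qv_pos (v : HS) : 0 < qv v := by
  have h : qv v = Ideal.absNorm v.asIdeal := rfl
  rw [h]
  exact Nat.pos_of_ne_zero (Ideal.absNorm_eq_zero_iff.not.2 v.ne_bot)

theorem aN_eq_of_frobenius (hne : ψ ≠ 0) (her : EigenRho d d.Kf N ψ) {p : ℕ} (hp : p.Prime)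
    (hpN : ¬ p ∣ N) {A : ValuationSubring Qb} (hA : A.LiesOverPrime p) {σ : Gam}
    (hσ : A.IsFrobeniusAt σ p) {f : ℕ} (hq : qv (placeOf d hp hA) = p ^ f) (hGM : σ ^ f ∈ d.GM)
    {t : ℝ} (ht : d.tr0 (σ ^ f) = (t : ℂ)) : aN ψ (placeOf d hp hA) = t := by
  have h := her p hp hpN A hA (placeOf d hp hA) (mem_placeOf hp hA) σ hσ f hq hGM
  rw [ht] at h
  rw [aN, cV_eq hne (c := Real.sqrt (p ^ f : ℝ) * t) fun x g => by rw [h]; push_cast; ring, hq,
    Nat.cast_pow]
  have : (0 : ℝ) < Real.sqrt ((p : ℝ) ^ f) := Real.sqrt_pos.2 (pow_pos (by exact_mod_cast hp.pos) f)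
  field_simp

theorem det_frobenius {p : ℕ} (hp3 : ¬ 3 ∣ p) {A : ValuationSubring Qb} (hA : A.LiesOverPrime p)
    {σ : Gam} (hσ : A.IsFrobeniusAt σ p) :
    (d.rbar σ : Matrix (Fin 2) (Fin 2) (ZMod 3)).det = (p : ZMod 3) := by
  have h := congrArg Units.val (d.det_eq σ)
  rw [Matrix.GeneralLinearGroup.val_det_apply] at h
  rw [h, ← cycMod_frobenius hA hσ ((Nat.prime_three.coprime_iff_not_dvd).2 hp3)]
  rfl

theorem cast_rpow_le_half {p : ℕ} (hp : p.Prime) {s : ℝ} (hs : 1 < s) :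
    (p : ℝ) ^ (-s) ≤ 1 / 2 := by
  have h2 : (2 : ℝ) ≤ p := by exact_mod_cast hp.two_le
  calc (p : ℝ) ^ (-s) ≤ (p : ℝ) ^ (-1 : ℝ) :=
        Real.rpow_le_rpow_of_exponent_le (by linarith) (by linarith)
    _ ≤ 1 / 2 := by rw [Real.rpow_neg_one, one_div]; exact inv_anti₀ two_pos h2

theorem notMem_of_above {p : ℕ} (hpN : ¬ (p : ℕ) ∣ N) (hp : p.Prime) {v : HS} (hv : v ∈ above d p) :
    (N : 𝓞 d.Kf) ∉ v.asIdeal :=
  natCast_notMem_of_coprime (hp.coprime_iff_not_dvd.2 hpN) ((mem_above hp.pos).1 hv)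

theorem mod_three_cases {p : ℕ} (hp : p.Prime) (hpN : ¬ p ∣ N) (hN : d.Good N) :
    ¬ 3 ∣ p ∧ (p % 3 = 1 ∨ p % 3 = 2) := by
  have h : ¬ 3 ∣ p := fun h => hpN (((Nat.prime_dvd_prime_iff_eq Nat.prime_three hp).1 h) ▸ hN.2.1)
  exact ⟨h, by omega⟩

variable {p : ℕ} {s : ℝ}

/-- At a good inert prime the eigenvalue is `0` or `2`. -/
theorem inert_data (hne : ψ ≠ 0) (her : EigenRho d d.Kf N ψ) (hN : d.Good N) (hp : p.Prime)
    (hpN : ¬ p ∣ N) (hp2 : p % 3 = 2) {A : ValuationSubring Qb} (hA : A.LiesOverPrime p) {σ : Gam}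
    (hσ : A.IsFrobeniusAt σ p) :
    ∃ (v : HS) (a : ℝ), above d p = {v} ∧ qv v = p ^ 2 ∧ aN ψ v = a ∧ (a = 0 ∨ a = 2) ∧
      2 * a = (wtGam d σ : ℝ) := by
  have hdet : (d.rbar σ : Matrix (Fin 2) (Fin 2) (ZMod 3)).det ≠ 1 := by
    rw [det_frobenius (mod_three_cases hp hpN hN).1 hA hσ, ← ZMod.natCast_mod, hp2]
    decide
  obtain ⟨hGM, a, ha, htr, hwt⟩ := tr0_sq_of_det_ne d hdet
  have hq := card_quotient_of_mod_two d hp hp2 (placeOf d hp hA) (natCast_mem_idealOf d hA)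
  exact ⟨_, a, above_inert hp hp2 hA, hq,
    aN_eq_of_frobenius hne her hp hpN hA hσ hq hGM htr, ha, hwt⟩

open scoped Classical in
/-- The series at a good prime. -/
theorem local_data (hne : ψ ≠ 0) (her : EigenRho d d.Kf N ψ) (hN : d.Good N)
    (hself : SelfBound d N ψ) (hp : p.Prime) (hpN : ¬ p ∣ N) (hs : s ∈ Set.Ioc (1 : ℝ) 2) :
    Summable (fun k => |eulerF (d := d) ψ p k| * ((p : ℝ) ^ (-s)) ^ k) ∧
      ∑' k, |eulerF (d := d) ψ p k| * ((p : ℝ) ^ (-s)) ^ k ≤
        eulerE (d := d) ψ p s * Real.exp (4 * (p : ℝ) ^ (-s)) ∧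
      ∀ (A : ValuationSubring Qb) (σ : Gam), A.LiesOverPrime p → A.IsFrobeniusAt σ p →
        Real.exp ((wtGam d σ : ℝ) * (p : ℝ) ^ (-s) - 32 * ((p : ℝ) ^ (-s)) ^ 2) ≤
          (∑' k, eulerF (d := d) ψ p k * ((p : ℝ) ^ (-s)) ^ k) ^ 2 * eulerE (d := d) ψ p s := by
  set x := (p : ℝ) ^ (-s)
  have hx0 : 0 ≤ x := Real.rpow_nonneg (Nat.cast_nonneg p) _
  have hx : x ≤ 1 / 2 := cast_rpow_le_half hp hs.1
  have hsv : ∀ v ∈ above d p, Summable fun k => cheb (aN ψ v) k ^ 2 * ((qv v : ℝ) ^ (-s)) ^ k :=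
    fun v hv => hself.1 s hs v (notMem_of_above hpN hp hv)
  have hone : ∀ v ∈ above d p, 1 ≤ rsReal (aN ψ v) (aN ψ v) ((qv v : ℝ) ^ (-s)) := fun v hv =>
    one_le_rsReal_self (Real.rpow_nonneg (Nat.cast_nonneg _) _) (hsv v hv)
  have hexp : (1 : ℝ) ≤ Real.exp (4 * x) := Real.one_le_exp (by positivity)
  obtain ⟨A₀, σ₀, hA₀, hσ₀⟩ := Frobenius.exists_liesOverPrime_isFrobeniusAt hp
  rcases (mod_three_cases hp hpN hN).2 with hp1 | hp2
  · -- split
    obtain ⟨τ, hτ⟩ := exists_notMem_GK (d := d)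
    have hq : ∀ (A : ValuationSubring Qb) (hA : A.LiesOverPrime p),
        qv (placeOf d hp hA) = p := fun A hA =>
      (split_data d hp hp1 (placeOf d hp hA) (natCast_mem_idealOf d hA)).1
    have key : ∀ (A : ValuationSubring Qb) (hA : A.LiesOverPrime p),
        let a := aN ψ (placeOf d hp hA)
        let b := aN ψ (placeOf d hp (Frobenius.liesOverPrime_smul hA τ))
        (∀ k, eulerF (d := d) ψ p k = cheb a k * cheb b k) ∧
          eulerE (d := d) ψ p s = rsReal a a x * rsReal b b x ∧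
          (Summable fun k => cheb a k ^ 2 * x ^ k) ∧ (Summable fun k => cheb b k ^ 2 * x ^ k) := by
      intro A hA
      obtain ⟨hne', hab⟩ := above_split hp hp1 hA hτ
      refine ⟨fun k => ?_, ?_, ?_, ?_⟩
      · rw [eulerF, hab, Finset.prod_pair hne']
      · rw [eulerE, hab, Finset.prod_pair hne', hq A hA, hq _ (Frobenius.liesOverPrime_smul hA τ)]
      · have := hsv (placeOf d hp hA) (by rw [hab]; simp)
        rwa [hq A hA] at this
      · have := hsv (placeOf d hp (Frobenius.liesOverPrime_smul hA τ)) (by rw [hab]; simp)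
        rwa [hq _ (Frobenius.liesOverPrime_smul hA τ)] at this
    obtain ⟨hF, hE, ha, hb⟩ := key A₀ hA₀
    set a := aN ψ (placeOf d hp hA₀)
    set b := aN ψ (placeOf d hp (Frobenius.liesOverPrime_smul hA₀ τ))
    have hle : ∀ k, |eulerF (d := d) ψ p k| * x ^ k ≤
        (1 / 2) * (cheb a k ^ 2 * x ^ k + cheb b k ^ 2 * x ^ k) := fun k => by
      rw [hF, ← add_mul, ← mul_assoc]
      refine mul_le_mul_of_nonneg_right ?_ (pow_nonneg hx0 k)
      rw [abs_mul]
      nlinarith [sq_nonneg (|cheb a k| - |cheb b k|), sq_abs (cheb a k), sq_abs (cheb b k)]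
    have hsum : Summable fun k => |eulerF (d := d) ψ p k| * x ^ k :=
      ((ha.add hb).mul_left (1 / 2)).of_nonneg_of_le
        (fun k => mul_nonneg (abs_nonneg _) (pow_nonneg hx0 k)) hle
    refine ⟨hsum, ?_, fun A σ hA hσ => ?_⟩
    · refine (hsum.tsum_le_tsum hle ((ha.add hb).mul_left _)).trans ?_
      rw [tsum_mul_left, ha.tsum_add hb, hE]
      have e : ∀ a : ℝ, ∑' k, cheb a k ^ 2 * x ^ k = rsReal a a x := fun a =>
        tsum_congr fun k => by ring
      rw [e, e]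
      have h1 := one_le_rsReal_self hx0 ha
      have h2 := one_le_rsReal_self hx0 hb
      refine le_trans ?_ (le_mul_of_one_le_right (by positivity) hexp)
      nlinarith
    · obtain ⟨hF', hE', ha', hb'⟩ := key A hA
      have et : ∑' k, eulerF (d := d) ψ p k * x ^ k =
          rsReal (aN ψ (placeOf d hp hA)) (aN ψ (placeOf d hp (Frobenius.liesOverPrime_smul hA τ))) x :=
        tsum_congr fun k => by rw [hF']
      rw [et, hE']
      by_cases hq' : d.rbar σ ∈ Octa.quat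
      · obtain ⟨t, htr, ht2, hwt⟩ := tr0_of_mem_quat d hq'
        have h1 : aN ψ (placeOf d hp hA) = t :=
          aN_eq_of_frobenius hne her hp hpN hA hσ (f := 1) (by rw [pow_one]; exact hq A hA)
            (by rw [pow_one]; exact hq') (by rw [pow_one]; exact htr)
        have hconj : d.rbar (τ * σ * τ⁻¹) ∈ Octa.quat := by
          rw [map_mul, map_mul, map_inv]
          exact quat_conj hq' _
        have htr' : d.tr0 (τ * σ * τ⁻¹) = (t : ℂ) := by
          rw [← htr, tr0_eq, tr0_eq]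
          congr 1
          simp only [liftMat, map_mul, map_inv, Units.val_mul]
          rw [Matrix.trace_mul_comm, ← mul_assoc, ← Units.val_mul, inv_mul_cancel, Units.val_one,
            one_mul]
        have h2 : aN ψ (placeOf d hp (Frobenius.liesOverPrime_smul hA τ)) = t :=
          aN_eq_of_frobenius hne her hp hpN _ (Frobenius.isFrobeniusAt_conj hp.pos hσ τ) (f := 1)
            (by rw [pow_one]; exact hq _ _) (by rw [pow_one]; exact hconj)
            (by rw [pow_one]; exact htr')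
        rw [h1, h2]
        rw [h1] at ha'
        rw [wtGam, ← hwt]
        exact exp_le_split_equal ht2 hx0 ha'
      · have hd1 : (d.rbar σ : Matrix (Fin 2) (Fin 2) (ZMod 3)).det = 1 := by
          rw [det_frobenius (mod_three_cases hp hpN hN).1 hA hσ, ← ZMod.natCast_mod, hp1]
          simp
        have h0 : wtGam d σ = 0 := by
          refine det_one_not_quat _ hd1 ?_
          rintro (h | h | ⟨h, h'⟩)
          · exact hq' (by rw [show d.rbar σ = 1 from Units.ext h]; exact one_mem _)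
          · obtain ⟨g, hg, hsq⟩ : ∃ g : GL (Fin 2) (ZMod 3),
                (g : Matrix (Fin 2) (Fin 2) (ZMod 3)).det = 1 ∧
                  (g : Matrix (Fin 2) (Fin 2) (ZMod 3)) * g = -1 :=
              ⟨⟨!![0, -1; 1, 0], !![0, 1; -1, 0], by decide, by decide⟩, by decide, by decide⟩
            have := mul_mem (mem_quat_one_or hg hsq) (mem_quat_one_or hg hsq)
            exact hq' (by rwa [show d.rbar σ = g * g from Units.ext (by rw [Units.val_mul, hsq, h])])
          · exact hq' (mem_quat_one_or h h')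
        rw [h0, Nat.cast_zero, zero_mul, zero_sub]
        exact exp_le_split hx0 hx ha' hb'
  · -- inert
    obtain ⟨v, a, hab, hqv, hav, ha, -⟩ := inert_data hne her hN hp hpN hp2 hA₀ hσ₀
    have hF : ∀ k, eulerF (d := d) ψ p k = cheb a k := fun k => by
      rw [eulerF, hab, Finset.prod_singleton, hav]
    have hE : 1 ≤ eulerE (d := d) ψ p s := by
      rw [eulerE, hab, Finset.prod_singleton]
      exact hone v (by rw [hab]; simp)
    have hk : ∀ k, |cheb a k| ≤ (k : ℝ) + 1 := fun k => by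
      rcases ha with rfl | rfl
      · obtain ⟨j, rfl | rfl⟩ := Nat.even_or_odd' k
        · rw [(cheb_zero j).1, abs_pow, abs_neg, abs_one, one_pow]
          linarith [Nat.cast_nonneg (α := ℝ) (2 * j)]
        · rw [(cheb_zero j).2, abs_zero]
          positivity
      · rw [cheb_two, abs_of_nonneg (by positivity)]
    have hle : ∀ k, |eulerF (d := d) ψ p k| * x ^ k ≤ ((k : ℝ) + 1) * x ^ k := fun k => by
      rw [hF]; exact mul_le_mul_of_nonneg_right (hk k) (pow_nonneg hx0 k)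
    have hx1 : ‖x‖ < 1 := by rw [Real.norm_eq_abs, abs_of_nonneg hx0]; linarith
    have hg : HasSum (fun k : ℕ => ((k : ℝ) + 1) * x ^ k) (1 / (1 - x) ^ 2) := by
      simpa using hasSum_choose_mul_geometric_of_norm_lt_one 1 hx1
    have hsum : Summable fun k => |eulerF (d := d) ψ p k| * x ^ k :=
      hg.summable.of_nonneg_of_le (fun k => mul_nonneg (abs_nonneg _) (pow_nonneg hx0 k)) hle
    refine ⟨hsum, ?_, fun A σ hA hσ => ?_⟩
    · refine (hsum.tsum_le_tsum hle hg.summable).trans ?_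
      rw [hg.tsum_eq]
      refine le_trans ?_ (le_mul_of_one_le_left (Real.exp_pos _).le hE)
      rw [div_le_iff₀ (pow_pos (by linarith) 2)]
      rw [show 4 * x = 2 * x + 2 * x by ring, Real.exp_add, ← sq, ← mul_pow]
      refine one_le_pow₀ ?_
      nlinarith [mul_le_mul_of_nonneg_right (Real.add_one_le_exp (2 * x))
        (show 0 ≤ 1 - x by linarith), mul_nonneg hx0 (sub_nonneg.2 hx)]
    · obtain ⟨v', a', hab', -, hav', ha', hwt⟩ := inert_data hne her hN hp hpN hp2 hA hσ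
      have hF' : ∀ k, eulerF (d := d) ψ p k = cheb a' k := fun k => by
        rw [eulerF, hab', Finset.prod_singleton, hav']
      simp only [hF']
      rw [← hwt]
      exact (exp_le_inert ha' hx0 hx).trans (le_mul_of_one_le_right (sq_nonneg _) hE)

end FLTAgent.LT.Asai
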