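import Mathlib.Analysis.SpecialFunctions.Complex.LogBounds
import Mathlib.Analysis.SpecialFunctions.Log.Deriv
import Mathlib.Analysis.Complex.Polynomial.Basic
import Mathlib.Tactic.LinearCombination

/-!
# Local factors of Rankin-Selberg series

For real `a`, `b` the series `Σ U_k(a) U_k(b) x^k` are compared: that of `(a, b)` squared times
those of `(a, a)` and `(b, b)` is at least `(1 - x^2)^4`.
-/

set_option autoImplicit false

namespace FLTAgent.LT.Asai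

/-- `U_k(a)`: the Hecke eigenvalue at `P^k` when the normalised eigenvalue at `P` is `a`. -/
def cheb (a : ℝ) : ℕ → ℝ
  | 0 => 1
  | 1 => a
  | k + 2 => a * cheb a (k + 1) - cheb a k

/-- The series `Σ U_k(a) U_k(b) w^k`. -/
noncomputable def rsSeries (a b : ℝ) (w : ℂ) : ℂ :=
  ∑' k, ((cheb a k * cheb b k : ℝ) : ℂ) * w ^ k

theorem exists_root (a : ℝ) : ∃ α : ℂ, α ≠ 0 ∧ α + α⁻¹ = a := by
  obtain ⟨d, hd⟩ := IsAlgClosed.exists_pow_nat_eq (((a : ℂ)) ^ 2 - 4) (show 0 < 2 by norm_num)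
  have h : ((a : ℂ) + d) / 2 * (((a : ℂ) - d) / 2) = 1 := by linear_combination (-1 / 4 : ℂ) * hd
  refine ⟨((a : ℂ) + d) / 2, left_ne_zero_of_mul_eq_one h, ?_⟩
  rw [inv_eq_of_mul_eq_one_right h]
  ring

theorem cheb_mul {a : ℝ} {α : ℂ} (h0 : α ≠ 0) (h : α + α⁻¹ = a) (k : ℕ) :
    (α - α⁻¹) * (cheb a k : ℂ) = α ^ (k + 1) - α⁻¹ ^ (k + 1) := by
  induction k using Nat.twoStepInduction with
  | zero => simp [cheb]
  | one => simp only [cheb, ← h]; ring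
  | more k h1 h2 =>
    simp only [cheb, Complex.ofReal_sub, Complex.ofReal_mul, ← h]
    linear_combination (α + α⁻¹) * h2 - h1 +
      (α ^ (k + 1) - α⁻¹ ^ (k + 1)) * (mul_inv_cancel₀ h0)

theorem exists_real_powerSum {a : ℝ} {α : ℂ} (h0 : α ≠ 0) (h : α + α⁻¹ = a) (m : ℕ) :
    ∃ v : ℝ, α ^ m + α⁻¹ ^ m = v := by
  induction m using Nat.twoStepInduction with
  | zero => exact ⟨2, by norm_num⟩
  | one => exact ⟨a, by simpa using h⟩
  | more k h1 h2 =>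
    obtain ⟨u, hu⟩ := h1
    obtain ⟨v, hv⟩ := h2
    refine ⟨a * v - u, ?_⟩
    push_cast
    rw [← h, ← hu, ← hv]
    linear_combination (-(α ^ k + α⁻¹ ^ k)) * (mul_inv_cancel₀ h0)

theorem norm_sq_mul_lt_one {a : ℝ} {α : ℂ} (h0 : α ≠ 0) (h : α + α⁻¹ = a) {x : ℝ} (hx0 : 0 ≤ x)
    (hx1 : x < 1) (hs : Summable fun k => cheb a k ^ 2 * x ^ k) : ‖α‖ ^ 2 * x < 1 := by
  rcases le_or_gt ‖α‖ 1 with hle | hgt
  · exact (mul_le_of_le_one_left hx0 (pow_le_one₀ (norm_nonneg α) hle)).trans_lt hx1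
  · by_contra hge
    rw [not_lt] at hge
    have hlim : Filter.Tendsto (fun k => ‖α - α⁻¹‖ ^ 2 * (cheb a k ^ 2 * x ^ k)) Filter.atTop
        (nhds 0) := by
      simpa using hs.tendsto_atTop_zero.const_mul (‖α - α⁻¹‖ ^ 2)
    have hle : (‖α‖ - 1) ^ 2 ≤ (0 : ℝ) := by
      refine ge_of_tendsto hlim (Filter.Eventually.of_forall fun k => ?_)
      have h1 : (‖α‖ - 1) * ‖α‖ ^ k ≤ ‖α - α⁻¹‖ * |cheb a k| := by
        rw [← Real.norm_eq_abs, ← Complex.norm_real, ← norm_mul, cheb_mul h0 h k]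
        refine le_trans ?_ (norm_sub_norm_le _ _)
        have h2 : ‖α⁻¹ ^ (k + 1)‖ ≤ 1 := by
          rw [norm_pow, norm_inv]
          exact pow_le_one₀ (inv_nonneg.mpr (norm_nonneg α)) (inv_le_one_of_one_le₀ hgt.le)
        have h3 : (1 : ℝ) ≤ ‖α‖ ^ k := one_le_pow₀ hgt.le
        rw [norm_pow α, pow_succ]
        linarith [sub_mul ‖α‖ 1 (‖α‖ ^ k)]
      have h2 := pow_le_pow_left₀ (mul_nonneg (sub_nonneg.mpr hgt.le) (by positivity)) h1 2
      calc (‖α‖ - 1) ^ 2 ≤ (‖α‖ - 1) ^ 2 * (‖α‖ ^ 2 * x) ^ k :=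
            le_mul_of_one_le_right (sq_nonneg _) (one_le_pow₀ hge)
        _ = ((‖α‖ - 1) * ‖α‖ ^ k) ^ 2 * x ^ k := by rw [mul_pow, mul_pow, ← pow_mul, ← pow_mul, mul_comm 2 k]; ring
        _ ≤ (‖α - α⁻¹‖ * |cheb a k|) ^ 2 * x ^ k :=
            mul_le_mul_of_nonneg_right h2 (pow_nonneg hx0 k)
        _ = ‖α - α⁻¹‖ ^ 2 * (cheb a k ^ 2 * x ^ k) := by rw [mul_pow, sq_abs]; ring
    nlinarith [pow_pos (sub_pos.mpr hgt) 2]

theorem summable_twist {a b : ℝ} {x : ℝ} (hx0 : 0 ≤ x)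
    (ha : Summable fun k => cheb a k ^ 2 * x ^ k) (hb : Summable fun k => cheb b k ^ 2 * x ^ k)
    {w : ℂ} (hw : ‖w‖ = x) : Summable fun k => ((cheb a k * cheb b k : ℝ) : ℂ) * w ^ k := by
  refine Summable.of_norm_bounded (ha.add hb) fun k => ?_
  rw [norm_mul, norm_pow, hw, Complex.norm_real, Real.norm_eq_abs, ← add_mul]
  exact mul_le_mul_of_nonneg_right
    (abs_le.mpr ⟨by nlinarith [sq_nonneg (cheb a k + cheb b k)],
      by nlinarith [sq_nonneg (cheb a k - cheb b k)]⟩) (pow_nonneg hx0 k)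

theorem rsSeries_mul_quartic {a b : ℝ} {w : ℂ}
    (hs : Summable fun k => ((cheb a k * cheb b k : ℝ) : ℂ) * w ^ k) :
    rsSeries a b w * (1 - a * b * w + (a ^ 2 + b ^ 2 - 2) * w ^ 2 - a * b * w ^ 3 + w ^ 4) =
      1 - w ^ 2 := by
  set f : ℕ → ℂ := fun k => ((cheb a k * cheb b k : ℝ) : ℂ) * w ^ k with hf
  have h1 := hs.sum_add_tsum_nat_add 1
  have h2 := hs.sum_add_tsum_nat_add 2
  have h3 := hs.sum_add_tsum_nat_add 3
  have h4 := hs.sum_add_tsum_nat_add 4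
  simp only [Finset.sum_range_succ, Finset.sum_range_zero, zero_add] at h1 h2 h3 h4
  have hn : ∀ m, Summable fun k => f (k + m) := fun m => (summable_nat_add_iff m).mpr hs
  have hrec : ∀ k, f (k + 4) - a * b * w * f (k + 3) + (a ^ 2 + b ^ 2 - 2) * w ^ 2 * f (k + 2) -
      a * b * w ^ 3 * f (k + 1) + w ^ 4 * f k = 0 := fun k => by
    simp only [hf, cheb]
    push_cast
    ring
  have e : (∑' k, (f (k + 4) - a * b * w * f (k + 3) +
      (a ^ 2 + b ^ 2 - 2) * w ^ 2 * f (k + 2) - a * b * w ^ 3 * f (k + 1) + w ^ 4 * f k)) = 0 := by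
    simp [hrec]
  rw [((((hn 4).sub ((hn 3).mul_left _)).add ((hn 2).mul_left _)).sub
      ((hn 1).mul_left _)).tsum_add (hs.mul_left _),
    (((hn 4).sub ((hn 3).mul_left _)).add ((hn 2).mul_left _)).tsum_sub ((hn 1).mul_left _),
    ((hn 4).sub ((hn 3).mul_left _)).tsum_add ((hn 2).mul_left _),
    (hn 4).tsum_sub ((hn 3).mul_left _), tsum_mul_left, tsum_mul_left, tsum_mul_left,
    tsum_mul_left] at e
  have hd : rsSeries a b w = ∑' k, f k := rfl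
  rw [hd]
  simp only [hf, cheb] at h1 h2 h3 h4 e ⊢
  push_cast at h1 h2 h3 h4 e ⊢
  linear_combination e - h4 + a * b * w * h3 - (a ^ 2 + b ^ 2 - 2) * w ^ 2 * h2 +
    a * b * w ^ 3 * h1

theorem quartic_eq {a b : ℝ} {α β : ℂ} (hα0 : α ≠ 0) (hα : α + α⁻¹ = a) (hβ0 : β ≠ 0)
    (hβ : β + β⁻¹ = b) (w : ℂ) :
    (1 - a * b * w + (a ^ 2 + b ^ 2 - 2) * w ^ 2 - a * b * w ^ 3 + w ^ 4 : ℂ) =
      (1 - α * β * w) * (1 - α * β⁻¹ * w) * ((1 - α⁻¹ * β * w) * (1 - α⁻¹ * β⁻¹ * w)) := by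
  rw [← hα, ← hβ]
  field_simp
  ring

/-- A product over all pairs of a conjugation-stable family is at most `1`. -/
theorem norm_prod_one_sub_le_one {n : ℕ} (r : Fin n → ℂ) {x : ℝ} (hx0 : 0 ≤ x)
    (hlt : ∀ i l, ‖r i * r l * x‖ < 1) (hre : ∀ m : ℕ, ∃ v : ℝ, ∑ i, r i ^ m = v) :
    ‖∏ i, ∏ l, (1 - r i * r l * (x : ℂ))‖ ≤ 1 := by
  have hs : HasSum (fun m : ℕ => ∑ i, ∑ l, ((r i * r l * x) ^ m / m).re)
      (∑ i, ∑ l, (-Complex.log (1 - r i * r l * x)).re) :=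
    hasSum_sum fun i _ => hasSum_sum fun l _ =>
      Complex.hasSum_re (Complex.hasSum_taylorSeries_neg_log (hlt i l))
  have hterm : ∀ m : ℕ, 0 ≤ ∑ i, ∑ l, ((r i * r l * x) ^ m / m).re := fun m => by
    obtain ⟨v, hv⟩ := hre m
    have h : ∑ i, ∑ l, (r i * r l * x) ^ m / m = ((v ^ 2 * x ^ m / m : ℝ) : ℂ) := by
      push_cast
      rw [← hv, sq, Finset.sum_mul_sum, Finset.sum_mul, Finset.sum_div]
      refine Finset.sum_congr rfl fun i _ => ?_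
      rw [Finset.sum_mul, Finset.sum_div]
      exact Finset.sum_congr rfl fun l _ => by rw [mul_pow, mul_pow]
    simp_rw [← Complex.re_sum]
    rw [h, Complex.ofReal_re]
    positivity
  have hnn := hs.nonneg hterm
  simp only [Complex.neg_re, Complex.log_re, Finset.sum_neg_distrib] at hnn
  have hne : ∀ i l, 0 < ‖1 - r i * r l * (x : ℂ)‖ := fun i l => norm_pos_iff.mpr fun h => by
    have := hlt i l
    rw [sub_eq_zero] at h
    rw [← h, norm_one] at this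
    exact lt_irrefl 1 this
  rw [norm_prod]
  simp_rw [norm_prod]
  have h2 : ∏ i, ∏ l, ‖1 - r i * r l * (x : ℂ)‖ =
      Real.exp (∑ i, ∑ l, Real.log ‖1 - r i * r l * (x : ℂ)‖) := by
    rw [Real.exp_sum]
    refine Finset.prod_congr rfl fun i _ => ?_
    rw [Real.exp_sum]
    exact Finset.prod_congr rfl fun l _ => (Real.exp_log (hne i l)).symm
  rw [h2]
  exact Real.exp_le_one_iff.mpr (by linarith)

/-- The real series `Σ U_k(a) U_k(b) x^k`. -/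
noncomputable def rsReal (a b x : ℝ) : ℝ := ∑' k, cheb a k * cheb b k * x ^ k

theorem rsSeries_ofReal (a b x : ℝ) : rsSeries a b x = (rsReal a b x : ℂ) := by
  rw [rsSeries, rsReal, Complex.ofReal_tsum]
  exact tsum_congr fun k => by push_cast; ring

theorem summable_rsReal {a b x : ℝ} (hx0 : 0 ≤ x) (ha : Summable fun k => cheb a k ^ 2 * x ^ k)
    (hb : Summable fun k => cheb b k ^ 2 * x ^ k) :
    Summable fun k => cheb a k * cheb b k * x ^ k := by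
  refine Complex.summable_ofReal.mp ((summable_twist hx0 ha hb
    (w := (x : ℂ)) (by rw [Complex.norm_real, Real.norm_eq_abs, abs_of_nonneg hx0])).congr
      fun k => by push_cast; ring)

theorem one_le_rsReal_self {a x : ℝ} (hx0 : 0 ≤ x)
    (ha : Summable fun k => cheb a k ^ 2 * x ^ k) : 1 ≤ rsReal a a x := by
  have h : rsReal a a x = ∑' k, cheb a k ^ 2 * x ^ k :=
    tsum_congr fun k => by rw [sq]
  rw [h]
  exact le_of_eq_of_le (by simp [cheb]) (ha.le_tsum 0 fun k _ => by positivity)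

/-- The comparison at a prime with unknown eigenvalues. -/
theorem one_sub_sq_pow_le {a b : ℝ} {x : ℝ} (hx0 : 0 ≤ x)
    (hx1 : x < 1) (ha : Summable fun k => cheb a k ^ 2 * x ^ k)
    (hb : Summable fun k => cheb b k ^ 2 * x ^ k) :
    (1 - x ^ 2) ^ 4 ≤ rsReal a b x ^ 2 * (rsReal a a x * rsReal b b x) := by
  obtain ⟨α, hα0, hα⟩ := exists_root a
  obtain ⟨β, hβ0, hβ⟩ := exists_root b
  have hα' : α⁻¹ + α⁻¹⁻¹ = a := by rw [inv_inv, add_comm]; exact hα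
  have hβ' : β⁻¹ + β⁻¹⁻¹ = b := by rw [inv_inv, add_comm]; exact hβ
  set r : Fin 4 → ℂ := ![α, α⁻¹, β, β⁻¹] with hr
  have hbd : ∀ i : Fin 4, ‖r i‖ ^ 2 * x < 1 := by
    intro i
    fin_cases i
    · exact norm_sq_mul_lt_one hα0 hα hx0 hx1 ha
    · exact norm_sq_mul_lt_one (inv_ne_zero hα0) hα' hx0 hx1 ha
    · exact norm_sq_mul_lt_one hβ0 hβ hx0 hx1 hb
    · exact norm_sq_mul_lt_one (inv_ne_zero hβ0) hβ' hx0 hx1 hb
  have hlt : ∀ i l : Fin 4, ‖r i * r l * (x : ℂ)‖ < 1 := fun i l => by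
    rw [norm_mul, norm_mul, Complex.norm_real, Real.norm_eq_abs, abs_of_nonneg hx0]
    refine (pow_lt_one_iff_of_nonneg (by positivity) two_ne_zero).mp ?_
    calc (‖r i‖ * ‖r l‖ * x) ^ 2 = (‖r i‖ ^ 2 * x) * (‖r l‖ ^ 2 * x) := by ring
      _ < 1 := mul_lt_one_of_nonneg_of_lt_one_left (by positivity) (hbd i) (hbd l).le
  have hre : ∀ m : ℕ, ∃ v : ℝ, ∑ i, r i ^ m = v := fun m => by
    obtain ⟨u, hu⟩ := exists_real_powerSum hα0 hα m
    obtain ⟨v, hv⟩ := exists_real_powerSum hβ0 hβ m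
    refine ⟨u + v, ?_⟩
    push_cast
    rw [← hu, ← hv, Fin.sum_univ_four]
    simp only [hr, Matrix.cons_val]
    ring
  have hP := norm_prod_one_sub_le_one r hx0 hlt hre
  have hx : ‖(x : ℂ)‖ = x := by rw [Complex.norm_real, Real.norm_eq_abs, abs_of_nonneg hx0]
  have eab := rsSeries_mul_quartic (summable_twist hx0 ha hb hx)
  have eaa := rsSeries_mul_quartic (summable_twist hx0 ha ha hx)
  have ebb := rsSeries_mul_quartic (summable_twist hx0 hb hb hx)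
  rw [quartic_eq hα0 hα hβ0 hβ, rsSeries_ofReal] at eab
  rw [quartic_eq hα0 hα hα0 hα, rsSeries_ofReal] at eaa
  rw [quartic_eq hβ0 hβ hβ0 hβ, rsSeries_ofReal] at ebb
  have h2 : ‖(1 : ℂ) - (x : ℂ) ^ 2‖ = 1 - x ^ 2 := by
    rw [← Complex.ofReal_pow, ← Complex.ofReal_one, ← Complex.ofReal_sub, Complex.norm_real,
      Real.norm_eq_abs, abs_of_nonneg (sub_nonneg.mpr (pow_le_one₀ hx0 hx1.le))]
  have hpos : 0 ≤ rsReal a b x ^ 2 * (rsReal a a x * rsReal b b x) := mul_nonneg (sq_nonneg _)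
    (mul_nonneg (zero_le_one.trans (one_le_rsReal_self hx0 ha))
      (zero_le_one.trans (one_le_rsReal_self hx0 hb)))
  have key : ((rsReal a b x ^ 2 * (rsReal a a x * rsReal b b x) : ℝ) : ℂ) *
      ∏ i, ∏ l, (1 - r i * r l * (x : ℂ)) = (1 - (x : ℂ) ^ 2) ^ 4 := by
    rw [show (1 - (x : ℂ) ^ 2) ^ 4 =
      (1 - (x : ℂ) ^ 2) ^ 2 * ((1 - (x : ℂ) ^ 2) * (1 - (x : ℂ) ^ 2)) by ring]
    nth_rewrite 1 [← eab]
    nth_rewrite 1 [← eaa]
    nth_rewrite 1 [← ebb]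
    simp only [Fin.prod_univ_four, hr, Matrix.cons_val]
    rw [mul_comm β α, mul_comm β⁻¹ α, mul_comm β α⁻¹, mul_comm β⁻¹ α⁻¹]
    push_cast
    generalize 1 - α * α * (x : ℂ) = p₀₀
    generalize 1 - α * α⁻¹ * (x : ℂ) = p₀₁
    generalize 1 - α⁻¹ * α * (x : ℂ) = p₁₀
    generalize 1 - α⁻¹ * α⁻¹ * (x : ℂ) = p₁₁
    generalize 1 - β * β * (x : ℂ) = p₂₂
    generalize 1 - β * β⁻¹ * (x : ℂ) = p₂₃
    generalize 1 - β⁻¹ * β * (x : ℂ) = p₃₂
    generalize 1 - β⁻¹ * β⁻¹ * (x : ℂ) = p₃₃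
    generalize 1 - α * β * (x : ℂ) = p₀₂
    generalize 1 - α * β⁻¹ * (x : ℂ) = p₀₃
    generalize 1 - α⁻¹ * β * (x : ℂ) = p₁₂
    generalize 1 - α⁻¹ * β⁻¹ * (x : ℂ) = p₁₃
    ring
  have := congrArg norm key
  rw [norm_mul, norm_pow, h2, Complex.norm_real, Real.norm_eq_abs, abs_of_nonneg hpos] at this
  rw [← this]
  exact mul_le_of_le_one_right hpos hP

/-- `exp (u - u ^ 2 / 2) ≤ 1 + u`. -/
theorem exp_sub_sq_le {u : ℝ} (hu : 0 ≤ u) : Real.exp (u - u ^ 2 / 2) ≤ 1 + u := by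
  rw [← Real.le_log_iff_exp_le (by linarith)]
  refine le_trans ?_ (Real.le_log_one_add_of_nonneg hu)
  rw [le_div_iff₀ (by linarith)]
  nlinarith [pow_nonneg hu 3]

/-- The lower bound at a prime with known, bounded eigenvalue. -/
theorem exp_le_rsReal {t : ℝ} (ht : |t| ≤ 2) {x : ℝ} (hx0 : 0 ≤ x)
    (hs : Summable fun k => cheb t k ^ 2 * x ^ k) :
    Real.exp (t ^ 2 * x - 8 * x ^ 2) ≤ rsReal t t x := by
  have h : rsReal t t x = ∑' k, cheb t k ^ 2 * x ^ k := tsum_congr fun k => by rw [sq]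
  have hsum : 1 + t ^ 2 * x ≤ rsReal t t x := by
    rw [h]
    refine le_of_eq_of_le ?_ (hs.sum_le_tsum (Finset.range 2) fun k _ => by positivity)
    simp [Finset.sum_range_succ, cheb]
  refine le_trans (Real.exp_le_exp.mpr ?_) ((exp_sub_sq_le (u := t ^ 2 * x) (by positivity)).trans hsum)
  have ht2 : t ^ 2 ≤ 4 := by nlinarith [abs_le.mp ht]
  have : (t ^ 2 * x) ^ 2 ≤ 16 * x ^ 2 := by
    rw [mul_pow]
    exact mul_le_mul_of_nonneg_right (by nlinarith [sq_nonneg t]) (sq_nonneg x)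
  linarith

end FLTAgent.LT.Asai
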