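import Fermat.Agent.LT.Asai.Expand
import Fermat.Agent.LT.Asai.Places
import Fermat.Agent.LT.RS.Hecke

/-!
# The coefficients of the translates at rational multiples of `1 / √-3`
-/

set_option autoImplicit false

noncomputable section

namespace FLTAgent.LT.Asai

open NumberField IsDedekindDomain RS

variable {d : Octa} {ψ : Form d.Kf} {N : ℕ}

local notation "HS" => HeightOneSpectrum (𝓞 d.Kf)

variable (d) in
/-- `1 / √-3`. -/
def delK : d.Kf := (dK d)⁻¹

theorem delK_ne_zero : delK d ≠ 0 := inv_ne_zero (dK_ne_zero d)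

theorem cA_congr (hψ : CuspZero N ψ) {g h : GF d.Kf} (e : ∀ x, ψ x g = ψ x h) (ξ : d.Kf) :
    cA ψ g ξ = cA ψ h ξ := by
  unfold cA coefA
  split_ifs
  · rw [wh_congr e ξ _ (hψ.cont g)]
  · rfl

theorem cA_mul_level (hψ : CuspZero N ψ) (g : GF d.Kf) {k : GF d.Kf} (hk : InLevel N k)
    (ξ : d.Kf) : cA ψ (g * k) ξ = cA ψ g ξ :=
  cA_congr hψ (fun x => hψ.aut.right_inv k hk x g) ξ

/-- Replacing the good components by the identity. -/
theorem exists_trivAt_mul (g : GF d.Kf) (hN : 0 < N) :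
    ∃ (k : GF d.Kf) (M : ℕ), InLevel N k ∧ 0 < M ∧ N ∣ M ∧
      ∀ v : HS, (M : 𝓞 d.Kf) ∉ v.asIdeal → TrivAt v (g * k) := by
  classical
  obtain ⟨n, hn, hden⟩ := Red.exists_den (Set.finite_singleton g)
  have hden := hden g rfl
  set M := N * n
  have hint : ∀ v : HS, (M : 𝓞 d.Kf) ∉ v.asIdeal → ∀ i j,
      Valued.v ((g : Matrix (Fin 2) (Fin 2) (Af d.Kf)) i j v) ≤ 1 ∧
      Valued.v (((g⁻¹ : GF d.Kf) : Matrix (Fin 2) (Fin 2) (Af d.Kf)) i j v) ≤ 1 := fun v hv i j => by
    have hn' : (n : 𝓞 d.Kf) ∉ v.asIdeal := fun h => hv (by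
      simp only [M, Nat.cast_mul]; exact v.asIdeal.mul_mem_left _ h)
    obtain ⟨h1, h2⟩ := hden i j
    have e1 := h1 v
    have e2 := h2 v
    rw [af_mul_apply, map_mul, Red.valued_natCast_eq_one hn', one_mul] at e1 e2
    exact ⟨e1, e2⟩
  let cut : Matrix (Fin 2) (Fin 2) (Af d.Kf) → Matrix (Fin 2) (Fin 2) (Af d.Kf) := fun A i j =>
    ⟨fun v => if (M : 𝓞 d.Kf) ∈ v.asIdeal then (1 : Matrix (Fin 2) (Fin 2) (v.adicCompletion d.Kf)) i j
      else A i j v, by
      filter_upwards [(A i j).2] with v hv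
      split_ifs
      · fin_cases i <;> fin_cases j <;> simp [one_mem, zero_mem]
      · exact hv⟩
  have hloc : ∀ (A : Matrix (Fin 2) (Fin 2) (Af d.Kf)) (v : HS), Red.loc v (cut A) =
      if (M : 𝓞 d.Kf) ∈ v.asIdeal then 1 else Red.loc v A := fun A v => by
    refine Matrix.ext fun i j => ?_
    show (if (M : 𝓞 d.Kf) ∈ v.asIdeal then _ else _) = _
    split_ifs <;> rfl
  have hmul : ∀ A B : Matrix (Fin 2) (Fin 2) (Af d.Kf), A * B = 1 → cut A * cut B = 1 :=
    fun A B h => Red.loc_ext fun v => by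
      rw [Red.loc_mul, hloc, hloc, Red.loc_one]
      split_ifs
      · rw [one_mul]
      · rw [← Red.loc_mul, h, Red.loc_one]
  let k : GF d.Kf := ⟨cut ((g⁻¹ : GF d.Kf) : Matrix (Fin 2) (Fin 2) (Af d.Kf)),
    cut (g : Matrix (Fin 2) (Fin 2) (Af d.Kf)), hmul _ _ g.inv_mul, hmul _ _ g.mul_inv⟩
  refine ⟨k, M, Red.inLevel_iff.2 fun v => ?_, Nat.mul_pos hN hn, Dvd.intro n rfl, fun v hv => ?_⟩
  · show Red.EntLe v _ (Red.loc v (cut _) - 1) ∧ Red.EntLe v _ (Red.loc v (cut _) - 1)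
    rw [hloc, hloc]
    by_cases hv : (M : 𝓞 d.Kf) ∈ v.asIdeal
    · simp only [if_pos hv, sub_self]
      exact ⟨fun i j => by simp, fun i j => by simp⟩
    · have hN' : (N : 𝓞 d.Kf) ∉ v.asIdeal := fun h => hv (by
        simp only [M, Nat.cast_mul]; exact v.asIdeal.mul_mem_right _ h)
      simp only [if_neg hv, Red.valued_natCast_eq_one hN', sub_eq_add_neg]
      exact ⟨Red.EntLe.add (fun i j => (hint v hv i j).2) (Red.entLe_one v).neg,
        Red.EntLe.add (fun i j => (hint v hv i j).1) (Red.entLe_one v).neg⟩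
  · show Red.loc v ((g * k : GF d.Kf) : Matrix (Fin 2) (Fin 2) (Af d.Kf)) = 1
    rw [Units.val_mul, Red.loc_mul]
    show Red.loc v (g : Matrix (Fin 2) (Fin 2) (Af d.Kf)) * Red.loc v (cut _) = 1
    rw [hloc, if_neg hv, ← Red.loc_mul, ← Units.val_mul, mul_inv_cancel, Units.val_one, Red.loc_one]

/-- A nonvanishing coefficient at `1 / √-3`. -/
theorem exists_cA_ne_zero (hN : 0 < N) (hψ : CuspZero N ψ) (hne : ψ ≠ 0) :
    ∃ (g : GF d.Kf) (M : ℕ), 0 < M ∧ N ∣ M ∧ cA ψ g (delK d) ≠ 0 ∧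
      ∀ v : HS, (M : 𝓞 d.Kf) ∉ v.asIdeal → TrivAt v g := by
  obtain ⟨x, hx⟩ := Function.ne_iff.1 hne
  obtain ⟨g0, hg⟩ := Function.ne_iff.1 hx
  obtain ⟨m, hm⟩ := exists_hasPeriod hN hψ.aut g0
  obtain ⟨k, hk⟩ := exists_wh_ne_zero (hψ.cont g0) hm hg
  set ξ := xiOf (F := d.Kf) m k
  have hξ : ξ ≠ 0 := fun h => hk (by rw [h]; exact wh_zero (hψ.cont g0) hψ.cusp _)
  rw [wh_eq_coefA_mul (hψ.cont g0) hψ.bdd hψ.eigen refMode_kC hξ] at hk
  have hA : cA ψ g0 ξ ≠ 0 := left_ne_zero_of_mul hk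
  set η : (d.Kf)ˣ := Units.mk0 (ξ / delK d) (div_ne_zero hξ delK_ne_zero)
  have h1 : cA ψ (toFin (diagF η) * g0) (delK d) = cA ψ g0 ξ := by
    rw [cA, coefA_diag_mul hN hψ refMode_kC η g0 delK_ne_zero]
    simp [η, mul_div_cancel₀ _ delK_ne_zero]
  obtain ⟨k', M, hk', hM, hNM, htriv⟩ := exists_trivAt_mul (N := N) (toFin (diagF η) * g0) hN
  exact ⟨_, M, hM, hNM, by rwa [cA_mul_level hψ _ hk', h1], htriv⟩

theorem valuation_le_one_of_isDual {ξ : d.Kf} (h : IsDual 1 ξ) {v : HS}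
    (h3 : (3 : 𝓞 d.Kf) ∉ v.asIdeal) : v.valuation d.Kf ξ ≤ 1 := by
  obtain ⟨a, b, rfl⟩ := exists_rat_coords d ξ
  rw [isDual_one_iff] at h
  obtain ⟨k0, hk0⟩ := h 1
  obtain ⟨k1, hk1⟩ := h (zO d)
  have e0 := congrArg (fun q : ℚ => (q : ℝ)) hk0
  have e1 := congrArg (fun q : ℚ => (q : ℝ)) hk1
  simp only [trace_eq_re, Rat.cast_intCast, map_one, mul_one, zO_coe] at e0 e1
  have hz2 : ((wInf d).embedding (zK d * zK d)).re = -1 / 2 := by
    rw [show zK d * zK d = -zK d - 1 by linear_combination zK_eq d]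
    simp [embedding_zK]; norm_num
  simp [embedding_zK, add_mul, mul_assoc, map_add, Complex.mul_re, Complex.ratCast_re,
    Complex.ratCast_im, -map_mul, map_mul (wInf d).embedding (a : d.Kf),
    map_mul (wInf d).embedding (b : d.Kf)] at e0 e1
  rw [hz2] at e1
  have ha : 3 * a = ((k0 - k1 : ℤ) : ℚ) := by
    have : (3 : ℝ) * a = ((k0 - k1 : ℤ) : ℝ) := by push_cast; linarith
    exact_mod_cast this
  have hb : 3 * b = ((-(k0 + 2 * k1) : ℤ) : ℚ) := by
    have : (3 : ℝ) * b = ((-(k0 + 2 * k1) : ℤ) : ℝ) := by push_cast; linarith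
    exact_mod_cast this
  have e : (3 : d.Kf) * ((a : d.Kf) + (b : d.Kf) * zK d) =
      ((((k0 - k1 : ℤ) : 𝓞 d.Kf) + ((-(k0 + 2 * k1) : ℤ) : 𝓞 d.Kf) * zO d : 𝓞 d.Kf) : d.Kf) := by
    have ha' : (3 : d.Kf) * a = (k0 : d.Kf) - k1 := by
      simpa using congrArg (Rat.castHom d.Kf) ha
    have hb' : (3 : d.Kf) * b = -((k0 : d.Kf) + 2 * k1) := by
      simpa [neg_add, mul_comm] using congrArg (Rat.castHom d.Kf) hb
    simp only [Int.cast_sub, Int.cast_neg, Int.cast_add, Int.cast_mul, Int.cast_ofNat, map_add,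
      map_mul, map_sub, map_neg, map_intCast, map_ofNat, zO_coe]
    linear_combination ha' + zK d * hb'
  have hv := congrArg (v.valuation d.Kf) e
  rw [map_mul, show (3 : d.Kf) = algebraMap (𝓞 d.Kf) d.Kf 3 by rw [map_ofNat],
    HeightOneSpectrum.valuation_of_algebraMap, v.intValuation_eq_one_iff.2 h3, one_mul] at hv
  rw [hv]
  exact v.valuation_le_one _

theorem valuation_delK {v : HS} (h3 : (3 : 𝓞 d.Kf) ∉ v.asIdeal) :
    v.valuation d.Kf (delK d) = dualSup d.Kf v := by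
  have h1 : dualSup d.Kf v = 1 := by
    refine le_antisymm ?_ ?_
    · obtain ⟨i, hi⟩ := exists_dualSup_eq (F := d.Kf) v
      rw [hi]
      exact valuation_le_one_of_isDual (isDual_dualVec i) h3
    · have := valuation_le_dualSup (isDual_one_coe (1 : 𝓞 d.Kf)) v
      simpa using this
  have e : v.valuation d.Kf (dK d) ^ 2 = 1 := by
    rw [← map_pow, dK_sq, Valuation.map_neg, show (3 : d.Kf) = algebraMap (𝓞 d.Kf) d.Kf 3 by
      rw [map_ofNat], HeightOneSpectrum.valuation_of_algebraMap,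
      v.intValuation_eq_one_iff.2 h3]
  have e1 : v.valuation d.Kf (dK d) = 1 :=
    le_antisymm (not_lt.1 fun h => (one_lt_pow₀ h two_ne_zero).ne' e)
      (not_lt.1 fun h => (pow_lt_one₀ zero_le h two_ne_zero).ne e)
  rw [h1, delK, map_inv₀, inv_eq_one, e1]

theorem three_notMem_of_dvd {M : ℕ} (h : 3 ∣ M) {v : HS} (hv : (M : 𝓞 d.Kf) ∉ v.asIdeal) :
    (3 : 𝓞 d.Kf) ∉ v.asIdeal := fun h3 => hv (by
  obtain ⟨k, rfl⟩ := h
  push_cast
  exact v.asIdeal.mul_mem_right _ h3)

/-! ### Ideles of rational numbers -/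

theorem af_unit_prod {ι : Type*} (s : Finset ι) (f : ι → (Af d.Kf)ˣ) (v : HS) :
    Valued.v (((∏ i ∈ s, f i : (Af d.Kf)ˣ) : Af d.Kf) v) =
      ∏ i ∈ s, Valued.v ((f i : Af d.Kf) v) := by
  classical
  induction s using Finset.induction_on with
  | empty => simp only [Finset.prod_empty, Units.val_one]; exact map_one _
  | insert i s hi ih =>
    rw [Finset.prod_insert hi, Finset.prod_insert hi, Units.val_mul, af_mul_apply, map_mul, ih]

theorem af_unit_pow (a : (Af d.Kf)ˣ) (k : ℕ) (v : HS) :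
    Valued.v (((a ^ k : (Af d.Kf)ˣ) : Af d.Kf) v) = Valued.v ((a : Af d.Kf) v) ^ k := by
  have h := af_unit_prod (Finset.range k) (fun _ => a) v
  simpa using h

variable (d) in
/-- The exponents of a number at the places. -/
def expo (n : ℕ) : HS →₀ ℕ :=
  ∑ p ∈ n.primeFactors, ∑ w ∈ above d p, Finsupp.single w (n.factorization p)

theorem above_disjoint {p q : ℕ} (hp : p.Prime) (hq : q.Prime) (hpq : p ≠ q) {v : HS}
    (hv : v ∈ above d p) : v ∉ above d q := fun h =>
  natCast_notMem_of_coprime ((Nat.coprime_primes hp hq).2 hpq) ((mem_above hp.pos).1 hv)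
    ((mem_above hq.pos).1 h)

open scoped Classical in
theorem expo_apply {n p : ℕ} (hp : p ∈ n.primeFactors) {v : HS} (hv : v ∈ above d p) :
    expo d n v = n.factorization p := by
  simp only [expo, Finsupp.coe_finsetSum, Finset.sum_apply, Finsupp.single_apply,
    Finset.sum_ite_eq']
  rw [Finset.sum_eq_single p (fun q hq hqp => if_neg (fun h => above_disjoint
    (Nat.prime_of_mem_primeFactors hq) (Nat.prime_of_mem_primeFactors hp) hqp h hv))
    (fun h => absurd hp h), if_pos hv]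

open scoped Classical in
theorem expo_support (n : ℕ) : (expo d n).support ⊆ n.primeFactors.biUnion (above d) := by
  refine (Finsupp.support_finsetSum).trans fun v hv => ?_
  simp only [Finset.mem_biUnion] at hv ⊢
  obtain ⟨p, hp, hv⟩ := hv
  refine ⟨p, hp, ?_⟩
  obtain ⟨w, hw, hvw⟩ := Finset.mem_biUnion.1 (Finsupp.support_finsetSum hv)
  rw [Finset.mem_singleton.1 (Finsupp.support_single_subset hvw)]
  exact hw

theorem idelePow_expo (n : ℕ) :
    idelePow (expo d n) = ∏ p ∈ n.primeFactors, (∏ w ∈ above d p, unifIdele w) ^ n.factorization p := by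
  classical
  have h0 : ∀ w : HS, unifIdele w ^ (0 : ℕ) = 1 := fun w => pow_zero _
  rw [idelePow, expo, ← Finsupp.prod_finsetSum_index h0 fun w a b => pow_add _ _ _]
  refine Finset.prod_congr rfl fun p _ => ?_
  rw [← Finsupp.prod_finsetSum_index h0 fun w a b => pow_add _ _ _, ← Finset.prod_pow]
  exact Finset.prod_congr rfl fun w _ => Finsupp.prod_single_index (h0 w)

theorem valued_prime {p : ℕ} (hp : p.Prime) (hp3 : p % 3 = 1 ∨ p % 3 = 2) (v : HS) :
    Valued.v ((p : Af d.Kf) v) =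
      Valued.v (((∏ w ∈ above d p, unifIdele w : (Af d.Kf)ˣ) : Af d.Kf) v) := by
  classical
  rw [af_unit_prod]
  by_cases hv : v ∈ above d p
  · rw [Finset.prod_eq_single v (fun w _ hw => by
        rw [RS.unifIdele_apply_ne (Ne.symm hw), map_one]) (fun h => absurd hv h),
      valued_unifIdele, Red.valued_natCast]
    have hp0 : (p : 𝓞 d.Kf) ≠ 0 := Nat.cast_ne_zero.2 hp.ne_zero
    have hpv := (mem_above hp.pos).1 hv
    rcases hp3 with h1 | h2
    · obtain ⟨π, hπ, hmul, hnc⟩ := (split_data d hp h1 v hpv).2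
      have hπ0 : π ≠ 0 := fun h => hp0 (by rw [← hmul, h, zero_mul])
      rw [← hmul, map_mul, v.intValuation_singleton hπ0 hπ,
        v.intValuation_eq_one_iff.2 hnc, mul_one]
    · exact v.intValuation_singleton hp0 (eq_span_of_mod_two d hp h2 v hpv)
  · rw [Finset.prod_eq_one fun w hw => by
        rw [RS.unifIdele_apply_ne (fun h : v = w => hv (h ▸ hw)), map_one],
      Red.valued_natCast_eq_one fun h => hv ((mem_above hp.pos).2 h)]

theorem prime_cases_of_coprime {n M p : ℕ} (h3 : 3 ∣ M) (hn : n.Coprime M)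
    (hp : p ∈ n.primeFactors) : ¬ p ∣ M ∧ (p % 3 = 1 ∨ p % 3 = 2) := by
  have hpp := Nat.prime_of_mem_primeFactors hp
  have h : ¬ p ∣ M := fun h =>
    hpp.ne_one ((hn.coprime_dvd_left (Nat.dvd_of_mem_primeFactors hp)).eq_one_of_dvd h)
  have hp3 : p ≠ 3 := fun e => h (e ▸ h3)
  have : ¬ 3 ∣ p := fun h' => hp3 ((Nat.prime_dvd_prime_iff_eq Nat.prime_three hpp).1 h').symm
  exact ⟨h, by omega⟩

theorem valued_natCast_expo {n M : ℕ} (hn0 : 0 < n) (h3 : 3 ∣ M) (hn : n.Coprime M) (v : HS) :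
    Valued.v ((n : Af d.Kf) v) = Valued.v ((idelePow (expo d n) : Af d.Kf) v) := by
  rw [idelePow_expo, af_unit_prod]
  conv_lhs => rw [← Nat.prod_factorization_pow_eq_self hn0.ne']
  rw [Finsupp.prod, Nat.support_factorization, Red.valued_natCast]
  simp only [Nat.cast_prod, Nat.cast_pow, map_prod, map_pow]
  refine Finset.prod_congr rfl fun p hp => ?_
  rw [af_unit_pow, ← valued_prime (Nat.prime_of_mem_primeFactors hp)
    (prime_cases_of_coprime h3 hn hp).2, Red.valued_natCast]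

open scoped Classical in
/-- The idele equal to `e` at the places over `M` and to `1` elsewhere. -/
def cutIdele (d : Octa) (M e : ℕ) : (Af d.Kf)ˣ :=
  if he : 0 < e then
    { val := ⟨fun v => if (M : 𝓞 d.Kf) ∈ v.asIdeal then algebraMap d.Kf (Af d.Kf) e v else 1, by
        filter_upwards [(algebraMap d.Kf (Af d.Kf) e).2] with v hv
        split_ifs
        · exact hv
        · exact one_mem _⟩
      inv := ⟨fun v => if (M : 𝓞 d.Kf) ∈ v.asIdeal then algebraMap d.Kf (Af d.Kf) (e : d.Kf)⁻¹ v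
          else 1, by
        filter_upwards [(algebraMap d.Kf (Af d.Kf) (e : d.Kf)⁻¹).2] with v hv
        split_ifs
        · exact hv
        · exact one_mem _⟩
      val_inv := FiniteAdeleRing.ext _ fun v => by
        show (if _ then _ else _) * (if _ then _ else _) = (1 : v.adicCompletion d.Kf)
        split_ifs
        · rw [← af_mul_apply, ← map_mul, mul_inv_cancel₀ (Nat.cast_ne_zero.2 he.ne'), map_one]
          rfl
        · rw [one_mul]
      inv_val := FiniteAdeleRing.ext _ fun v => by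
        show (if _ then _ else _) * (if _ then _ else _) = (1 : v.adicCompletion d.Kf)
        split_ifs
        · rw [← af_mul_apply, ← map_mul, inv_mul_cancel₀ (Nat.cast_ne_zero.2 he.ne'), map_one]
          rfl
        · rw [one_mul] }
  else 1

theorem cutIdele_apply {M e : ℕ} (he : 0 < e) (v : HS) :
    ((cutIdele d M e : (Af d.Kf)ˣ) : Af d.Kf) v =
      open scoped Classical in
      if (M : 𝓞 d.Kf) ∈ v.asIdeal then algebraMap d.Kf (Af d.Kf) e v else 1 := by
  rw [cutIdele, dif_pos he]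
  rfl

/-- The translate attached to a residue class. -/
def transE (d : Octa) (M : ℕ) (g : GF d.Kf) (e : ℕ) : GF d.Kf :=
  upperGF (cutIdele d M e)⁻¹ 0 * g

/-- The series' coefficients. -/
def fSer (ψ : Form d.Kf) (n : ℕ) : ℝ :=
  if n = 0 then 0 else n.factorization.prod (eulerF ψ)

theorem prod_qv {p : ℕ} (hp : p.Prime) (hp3 : p % 3 = 1 ∨ p % 3 = 2) :
    ∏ v ∈ above d p, (qv v : ℝ) = (p : ℝ) ^ 2 := by
  classical
  obtain ⟨A, σ, hA, -⟩ := Frobenius.exists_liesOverPrime_isFrobeniusAt hp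
  rcases hp3 with h1 | h2
  · obtain ⟨τ, hτ⟩ := exists_notMem_GK (d := d)
    obtain ⟨hne, hab⟩ := above_split hp h1 hA hτ
    have hq : ∀ v : HS, v ∈ above d p → qv v = p := fun v hv =>
      (split_data d hp h1 v ((mem_above hp.pos).1 hv)).1
    rw [hab, Finset.prod_pair hne, hq _ (by rw [hab]; simp), hq _ (by rw [hab]; simp), sq]
  · rw [above_inert hp h2 hA, Finset.prod_singleton,
      show qv (placeOf d hp hA) = p ^ 2 from
        card_quotient_of_mod_two d hp h2 _ (natCast_mem_idealOf d hA), Nat.cast_pow]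

theorem prod_lamLoc {p : ℕ} (hp : p.Prime) (hp3 : p % 3 = 1 ∨ p % 3 = 2) (k : ℕ) :
    ∏ v ∈ above d p, lamLoc v (cV ψ v) k = eulerF ψ p k / (p : ℝ) ^ k := by
  have hs : ∏ v ∈ above d p, Real.sqrt (qv v) = p := by
    rw [← Real.sqrt_sq (Nat.cast_nonneg (α := ℝ) p), ← prod_qv (d := d) hp hp3,
      Real.sqrt_eq_rpow, ← Real.finsetProd_rpow _ _ fun v _ => Nat.cast_nonneg _]
    simp [Real.sqrt_eq_rpow]
  simp only [lamLoc, Finset.prod_mul_distrib, Finset.prod_pow, Finset.prod_inv_distrib]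
  rw [eulerF, hs, inv_pow, inv_mul_eq_div]
  rfl

/-- **The coefficients of the translates.** -/
theorem cA_translate (hN : 0 < N) (hψ : CuspZero N ψ) (hfe : FullEigen N ψ) {g : GF d.Kf}
    {M : ℕ} (h3 : 3 ∣ M) (hNM : N ∣ M)
    (htriv : ∀ v : HS, (M : 𝓞 d.Kf) ∉ v.asIdeal → TrivAt v g) {nd : ℕ} (hnd : 0 < nd)
    (hden : Red.Den nd g) (hlev : N * nd ^ 2 ∣ M) {e : ℕ} (he : 0 < e) {n : ℤ}
    (hcop : n.natAbs.Coprime M) (hn : n ≠ 0) (hdvd : (M : ℤ) ∣ n - e) :
    cA ψ (transE d M g e) ((n : d.Kf) * delK d) =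
      ((fSer ψ n.natAbs / n.natAbs : ℝ) : ℂ) * cA ψ g (delK d) := by
  classical
  set m := n.natAbs
  have hm : 0 < m := Int.natAbs_pos.2 hn
  set x := expo d m
  set η : (d.Kf)ˣ := Units.mk0 (n : d.Kf) (Int.cast_ne_zero.2 hn)
  set nI : (Af d.Kf)ˣ := Units.map (algebraMap d.Kf (Af d.Kf)).toMonoidHom η
  set u : (Af d.Kf)ˣ := nI * (cutIdele d M e)⁻¹ * (idelePow x)⁻¹
  have hxsupp : ∀ v ∈ x.support, (M : 𝓞 d.Kf) ∉ v.asIdeal := fun v hv => by
    obtain ⟨p, hp, hvp⟩ := Finset.mem_biUnion.1 (expo_support m hv)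
    have hpp := Nat.prime_of_mem_primeFactors hp
    exact natCast_notMem_of_coprime ((hpp.coprime_iff_not_dvd).2
      (prime_cases_of_coprime h3 hcop hp).1) ((mem_above hpp.pos).1 hvp)
  have hnI : ∀ v : HS, Valued.v ((nI : Af d.Kf) v) = Valued.v ((m : Af d.Kf) v) := fun v => by
    show Valued.v (algebraMap d.Kf (Af d.Kf) (n : d.Kf) v) = _
    rw [Red.valued_algebraMap, ← map_natCast (algebraMap d.Kf (Af d.Kf)), Red.valued_algebraMap]
    rcases Int.natAbs_eq n with h | h <;> simp only [m] <;>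
      conv_lhs => rw [h]
    · rw [Int.cast_natCast]
    · rw [Int.cast_neg, Int.cast_natCast, Valuation.map_neg]
  have hgood : ∀ v : HS, (M : 𝓞 d.Kf) ∈ v.asIdeal → ∀ k : ℕ, k.Coprime M →
      Valued.v ((k : Af d.Kf) v) = 1 := fun v hv k hk =>
    Red.valued_natCast_eq_one fun h => natCast_notMem_of_coprime hk h hv
  have hecop : e.Coprime M := by
    have h1 : IsCoprime n (M : ℤ) := Int.isCoprime_iff_nat_coprime.2 (by simpa using hcop)
    obtain ⟨c, hc⟩ := hdvd
    have h2 : IsCoprime (e : ℤ) (M : ℤ) := by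
      rw [show (e : ℤ) = n + (-c) * M by linarith]
      exact h1.add_mul_right_left _
    simpa using Int.isCoprime_iff_nat_coprime.1 h2
  -- the idele `u` is a unit congruent to one
  have hu : ∀ v : HS, Valued.v ((u : Af d.Kf) v) = 1 ∧
      Valued.v ((u : Af d.Kf) v - 1) ≤ Valued.v ((M : Af d.Kf) v) ∧
      Valued.v (((u⁻¹ : (Af d.Kf)ˣ) : Af d.Kf) v - 1) ≤ Valued.v ((M : Af d.Kf) v) := by
    intro v
    have hval : Valued.v ((u : Af d.Kf) v) = Valued.v ((m : Af d.Kf) v) *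
        (Valued.v (((cutIdele d M e : (Af d.Kf)ˣ) : Af d.Kf) v))⁻¹ *
        (Valued.v ((idelePow x : Af d.Kf) v))⁻¹ := by
      rw [Units.val_mul, Units.val_mul, af_mul_apply, af_mul_apply, map_mul, map_mul,
        Red.valued_inv, Red.valued_inv, hnI]
    have h1 : Valued.v ((u : Af d.Kf) v) = 1 := by
      rw [hval, ← valued_natCast_expo hm h3 hcop, cutIdele_apply he]
      by_cases hv : (M : 𝓞 d.Kf) ∈ v.asIdeal
      · rw [if_pos hv, map_natCast, hgood v hv m hcop, hgood v hv e hecop, inv_one, one_mul, one_mul]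
      · rw [if_neg hv, map_one, inv_one, mul_one,
          mul_inv_cancel₀ (Red.valued_natCast_ne_zero hm v)]
    have hu0 : (u : Af d.Kf) v ≠ 0 := fun h => by rw [h, map_zero] at h1; exact zero_ne_one h1
    have hinv : ((u⁻¹ : (Af d.Kf)ˣ) : Af d.Kf) v * (u : Af d.Kf) v = 1 := by
      rw [← af_mul_apply, ← Units.val_mul, inv_mul_cancel, Units.val_one]; rfl
    have h2 : Valued.v ((u : Af d.Kf) v - 1) ≤ Valued.v ((M : Af d.Kf) v) := by
      by_cases hv : (M : 𝓞 d.Kf) ∈ v.asIdeal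
      · have hx1 : (idelePow x : Af d.Kf) v = 1 :=
          idelePow_apply_of_notMem fun h => hxsupp v h hv
        have hb := congrArg (fun a : Af d.Kf => a v)
          (Units.inv_mul (idelePow x : (Af d.Kf)ˣ))
        simp only [af_mul_apply, hx1, mul_one] at hb
        have hc := congrArg (fun a : Af d.Kf => a v) (Units.mul_inv (cutIdele d M e : (Af d.Kf)ˣ))
        simp only [af_mul_apply, cutIdele_apply he, if_pos hv] at hc
        rw [show ((1 : Af d.Kf) v) = 1 from rfl] at hb hc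
        have he0 : algebraMap d.Kf (Af d.Kf) (e : d.Kf) v ≠ 0 := left_ne_zero_of_mul_eq_one hc
        have huv : (u : Af d.Kf) v - 1 =
            algebraMap d.Kf (Af d.Kf) ((n - e : ℤ) : d.Kf) v *
              ((cutIdele d M e)⁻¹ : (Af d.Kf)ˣ).val v := by
          rw [Units.val_mul, Units.val_mul, af_mul_apply, af_mul_apply, hb, mul_one,
            show ((n - e : ℤ) : d.Kf) = (n : d.Kf) - (e : d.Kf) by push_cast; rfl, map_sub,
            show (algebraMap d.Kf (Af d.Kf) (n : d.Kf) - algebraMap d.Kf (Af d.Kf) (e : d.Kf)) v =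
              algebraMap d.Kf (Af d.Kf) (n : d.Kf) v - algebraMap d.Kf (Af d.Kf) (e : d.Kf) v
              from rfl, sub_mul, hc]
          rfl
        rw [huv, map_mul, Red.valued_inv, cutIdele_apply he, if_pos hv, map_natCast,
          hgood v hv e hecop, inv_one, mul_one]
        obtain ⟨c, hc'⟩ := hdvd
        rw [hc', Red.valued_algebraMap, Int.cast_mul, Int.cast_natCast, map_mul,
          ← map_natCast (algebraMap d.Kf (Af d.Kf)), Red.valued_algebraMap]
        refine mul_le_of_le_one_right' ?_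
        have := v.valuation_le_one (K := d.Kf) ((c : ℤ) : 𝓞 d.Kf)
        simpa using this
      · rw [Red.valued_natCast_eq_one hv]
        exact (Valued.v.map_sub _ _).trans (max_le h1.le (map_one _).le)
    refine ⟨h1, h2, ?_⟩
    have h3' : ((u⁻¹ : (Af d.Kf)ˣ) : Af d.Kf) v - 1 =
        -(((u⁻¹ : (Af d.Kf)ˣ) : Af d.Kf) v * ((u : Af d.Kf) v - 1)) := by
      rw [mul_sub, hinv, mul_one, neg_sub]
    rw [h3', Valuation.map_neg, map_mul]
    have : Valued.v (((u⁻¹ : (Af d.Kf)ˣ) : Af d.Kf) v) = 1 := by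
      have := congrArg Valued.v hinv
      rwa [map_mul, h1, mul_one, map_one] at this
    rw [this, one_mul]
    exact h2
  have hlevU : InLevel (N * nd ^ 2) (upperGF u 0) := by
    refine Red.inLevel_upperGF (fun v => ⟨(hu v).1, ?_, ?_⟩) fun v => ?_
    · exact (hu v).2.1.trans (valued_natCast_mono hlev v)
    · exact (hu v).2.2.trans (valued_natCast_mono hlev v)
    · rw [show (0 : Af d.Kf) v = 0 from rfl, map_zero]; exact zero_le
  have hk : InLevel N (g⁻¹ * upperGF u 0 * g) := Red.inLevel_conj_den hnd hden hlevU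
  have hup : toFin (diagF η) * transE d M g e =
      upperGF (idelePow x) 0 * g * (g⁻¹ * upperGF u 0 * g) := by
    rw [transE, ← mul_assoc, toFin_diagF, Red.upperGF_mul, mul_zero, add_zero,
      show upperGF (idelePow x) 0 * g * (g⁻¹ * upperGF u 0 * g) =
        upperGF (idelePow x) 0 * upperGF u 0 * g by group, Red.upperGF_mul, mul_zero, add_zero]
    congr 2
    show nI * (cutIdele d M e)⁻¹ = idelePow x * (nI * (cutIdele d M e)⁻¹ * (idelePow x)⁻¹)
    rw [mul_comm (idelePow x), inv_mul_cancel_right]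
  have hdiag := coefA_diag_mul hN hψ refMode_kC η (transE d M g e) (delK_ne_zero (d := d))
  rw [show delK d * (η : d.Kf) = (n : d.Kf) * delK d from mul_comm _ _, hup] at hdiag
  rw [cA, ← hdiag]
  show cA ψ _ _ = _
  rw [cA_mul_level hψ _ hk]
  set t := refT (F := d.Kf) (t0 := 1) one_pos delK_ne_zero
  have hpow := wh_idelePow hN hψ.aut hψ.cont (c := cV ψ) (1 : (Af d.Kf)ˣ) (g0 := g)
    delK_ne_zero t x fun v hv => by
      have hM' := hxsupp v hv
      have hN' : (N : 𝓞 d.Kf) ∉ v.asIdeal := fun h => hM' (by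
        obtain ⟨c, rfl⟩ := hNM; push_cast; exact v.asIdeal.mul_mem_right _ h)
      refine ⟨hN', htriv v hM', hecke_cV hfe hN', ?_⟩
      rw [show ((1 : (Af d.Kf)ˣ) : Af d.Kf) v = 1 from rfl, map_one, mul_one,
        valuation_delK (three_notMem_of_dvd h3 hM')]
  have hone : upperGF (1 : (Af d.Kf)ˣ) (0 : Af d.Kf) = 1 := by
    apply Units.ext; ext i j; fin_cases i <;> fin_cases j <;> simp [upperGF]
  rw [one_mul, hone, one_mul] at hpow
  unfold cA coefA
  rw [dif_pos ⟨one_pos, delK_ne_zero⟩, dif_pos ⟨one_pos, delK_ne_zero⟩, ← mul_div_assoc]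
  congr 1
  rw [hpow]
  congr 1
  rw [Finsupp.prod_of_support_subset _ (expo_support m) _ fun v _ => by simp [lamLoc, cheb],
    Finset.prod_biUnion fun p hp q hq hpq => Finset.disjoint_left.2 fun v hv =>
      above_disjoint (Nat.prime_of_mem_primeFactors hp) (Nat.prime_of_mem_primeFactors hq) hpq hv]
  rw [fSer, if_neg hm.ne']
  conv_rhs => enter [1, 2]; rw [← Nat.prod_factorization_pow_eq_self hm.ne']
  rw [Finsupp.prod, Finsupp.prod, Nat.support_factorization]
  push_cast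
  rw [← Finset.prod_div_distrib]
  refine Finset.prod_congr rfl fun p hp => ?_
  rw [Finset.prod_congr rfl fun v hv => by rw [expo_apply hp hv]]
  have := congrArg (fun r : ℝ => (r : ℂ))
    (prod_lamLoc (ψ := ψ) (Nat.prime_of_mem_primeFactors hp) (prime_cases_of_coprime h3 hcop hp).2
      (m.factorization p))
  push_cast at this
  exact this
where
  valued_natCast_mono {a b : ℕ} (h : a ∣ b) (v : HS) :
      Valued.v ((b : Af d.Kf) v) ≤ Valued.v ((a : Af d.Kf) v) := by
    obtain ⟨c, rfl⟩ := h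
    rw [Nat.cast_mul, af_mul_apply, map_mul]
    exact mul_le_of_le_one_right' (Red.valued_natCast_le_one c v)

end FLTAgent.LT.Asai
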