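import Fermat.Agent.LT.Asai.Expand
import Fermat.Agent.LT.Asai.Strip.Bound
import Fermat.Agent.LT.Red.Integral

/-!
# Combinations of translates restricted to the plane
-/

set_option autoImplicit false

noncomputable section

namespace FLTAgent.LT.Asai

open MeasureTheory NumberField Set Complex RS IsDedekindDomain UpperHalfPlane
open scoped Real MatrixGroups

attribute [local instance] countable_SL2Z

variable {d : Octa}

/-- An element of `SL₂(ℤ)` over `K`. -/
def glK (d : Octa) (γ : SL(2, ℤ)) : GL (Fin 2) d.Kf :=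
  Matrix.SpecialLinearGroup.toGL (Matrix.SpecialLinearGroup.map (Int.castRingHom d.Kf) γ)

theorem glK_apply (γ : SL(2, ℤ)) (i j : Fin 2) : glK d γ i j = (γ i j : d.Kf) := rfl

theorem glK_mul (γ δ : SL(2, ℤ)) : glK d (γ * δ) = glK d γ * glK d δ := by
  simp [glK, map_mul]

theorem glK_one : glK d 1 = 1 := by simp [glK]

theorem glK_inv (γ : SL(2, ℤ)) : (glK d γ)⁻¹ = glK d γ⁻¹ :=
  inv_eq_of_mul_eq_one_right (by rw [← glK_mul, mul_inv_cancel, glK_one])

theorem actInf_glK (γ : SL(2, ℤ)) (τ : ℍ) :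
    actInf (glK d γ) (fun _ => planeEmb τ) = fun _ => planeEmb (γ • τ) := by
  funext w
  have hdet : ((γ 0 0 : ℤ) : ℝ) * γ 1 1 - (γ 0 1 : ℤ) * γ 1 0 = 1 := by
    have h := Matrix.det_fin_two (γ : Matrix (Fin 2) (Fin 2) ℤ)
    rw [γ.det_coe] at h
    exact_mod_cast h.symm
  set q : ℝ := ((γ 1 0 : ℤ) * τ.re + γ 1 1) ^ 2 + ((γ 1 0 : ℤ) : ℝ) ^ 2 * τ.im ^ 2
  set g := Matrix.GeneralLinearGroup.map w.embedding (glK d γ)
  have hg : ∀ i j, g i j = ((γ i j : ℤ) : ℂ) := fun i j => by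
    simp [g, Matrix.GeneralLinearGroup.map_apply, glK_apply]
  have hden : den g (planeEmb τ) = q := by
    simp only [den, hg, planeEmb, q]
    simp [Complex.normSq_apply]
    ring
  have hq : Complex.normSq (denom (γ : GL (Fin 2) ℝ) τ) = q := by
    rw [ModularGroup.denom_apply]
    simp [Complex.normSq_apply, q]
    ring
  have hq0 : 0 < q := hden ▸ den_pos _ _
  show act g (planeEmb τ) = planeEmb (γ • τ)
  have hsm : ((γ • τ : ℍ) : ℂ) =
      ((γ 0 0 : ℤ) * (τ : ℂ) + γ 0 1) / ((γ 1 0 : ℤ) * (τ : ℂ) + γ 1 1) := by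
    rw [coe_specialLinearGroup_apply]
    simp [algebraMap_int_eq]
  refine Prod.ext ?_ (Subtype.ext ?_)
  · rw [Hyp.coe_act_fst, hden]
    simp only [hg, planeEmb]
    have hre : (γ • τ : ℍ).re = (((γ 0 0 : ℤ) * τ.re + γ 0 1) * ((γ 1 0 : ℤ) * τ.re + γ 1 1) +
        (γ 0 0 : ℤ) * (γ 1 0 : ℤ) * τ.im ^ 2) / q := by
      show ((γ • τ : ℍ) : ℂ).re = _
      rw [hsm, Complex.div_re]
      simp [Complex.normSq_apply, q]
      ring
    rw [hre]
    push_cast
    simp only [map_add, map_mul, Complex.conj_ofReal, map_intCast]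
  · rw [Hyp.coe_act_snd, hden]
    simp only [planeEmb, ModularGroup.im_smul_eq_div_normSq, hq]
    congr 1
    rw [show (Matrix.GeneralLinearGroup.det g : ℂ) = 1 by
      rw [Matrix.GeneralLinearGroup.val_det_apply, Matrix.det_fin_two]
      simp only [hg]
      exact_mod_cast hdet]
    simp

variable {ψ : Form d.Kf} {N : ℕ}

theorem planeRes_eq (g : GF d.Kf) (τ : ℍ) :
    planeRes ψ g τ = ψ (ptK d (τ.re : ℂ) ⟨τ.im, τ.im_pos⟩) g := rfl

/-- Integral translations of the plane. -/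
theorem planeRes_smul (hψ : CuspZero N ψ) (γ : SL(2, ℤ)) (h : GF d.Kf) (τ : ℍ) :
    planeRes ψ h (γ • τ) = planeRes ψ ((toFin (glK d γ))⁻¹ * h) τ := by
  have e := hψ.aut.left_inv (glK d γ) (fun _ => planeEmb τ) ((toFin (glK d γ))⁻¹ * h)
  rw [actInf_glK, mul_inv_cancel_left] at e
  exact e

theorem continuous_planeRes (hψ : CuspZero N ψ) (g : GF d.Kf) : Continuous (planeRes ψ g) := by
  refine (hψ.cont g).comp (continuous_pi fun _ => ?_)
  exact (Complex.continuous_ofReal.comp UpperHalfPlane.continuous_re).prodMk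
    (UpperHalfPlane.continuous_im.subtype_mk _)

theorem inLevel_glK {m : ℕ} {γ : SL(2, ℤ)} (hγ : γ ∈ CongruenceSubgroup.Gamma m) :
    InLevel m (toFin (glK d γ)) := by
  have key : ∀ δ : SL(2, ℤ), δ ∈ CongruenceSubgroup.Gamma m → ∀ (v : HeightOneSpectrum (𝓞 d.Kf))
      (i j : Fin 2), Valued.v (((toFin (glK d δ) : Matrix (Fin 2) (Fin 2) (Af d.Kf)) - 1) i j v) ≤
        Valued.v ((m : Af d.Kf) v) := fun δ hδ v i j => by
    set e : ℤ := (δ : Matrix (Fin 2) (Fin 2) ℤ) i j - (1 : Matrix (Fin 2) (Fin 2) ℤ) i j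
    obtain ⟨c, hc⟩ : (m : ℤ) ∣ e := by
      rw [← ZMod.intCast_zmod_eq_zero_iff_dvd]
      have h := CongruenceSubgroup.Gamma_mem.mp hδ
      fin_cases i <;> fin_cases j <;> simp [e, h.1, h.2.1, h.2.2.1, h.2.2.2]
    have he : ((toFin (glK d δ) : Matrix (Fin 2) (Fin 2) (Af d.Kf)) - 1) i j =
        algebraMap d.Kf (Af d.Kf) (e : d.Kf) := by
      simp only [e, Matrix.sub_apply, Int.cast_sub, map_sub]
      congr 1
      fin_cases i <;> fin_cases j <;> simp
    rw [he, hc, Int.cast_mul, Int.cast_natCast, map_mul, map_natCast, af_mul_apply, map_mul]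
    refine mul_le_of_le_one_right' ?_
    rw [Red.valued_algebraMap]
    exact v.valuation_le_one (c : 𝓞 d.Kf)
  intro v i j
  refine ⟨key γ hγ v i j, ?_⟩
  rw [← map_inv, glK_inv]
  exact key _ (inv_mem hγ) v i j

/-- The plane restrictions of finitely many translates are invariant under one `Γ(m)`, with
periods. -/
theorem exists_common_level {ι : Type*} [Fintype ι] (hN : 0 < N) (hψ : CuspZero N ψ)
    (hs : ι → GF d.Kf) {D : ℕ} (hD : 0 < D) : ∃ m, 0 < m ∧ D ∣ m ∧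
      (∀ i, HasPeriod ψ (hs i) m) ∧
      ∀ i, ∀ γ ∈ CongruenceSubgroup.Gamma m, ∀ τ : ℍ,
        planeRes ψ (hs i) (γ • τ) = planeRes ψ (hs i) τ := by
  classical
  obtain ⟨n, hn, hden⟩ := Red.exists_den (Set.finite_range hs)
  choose p hp using fun i => exists_hasPeriod hN hψ.aut (hs i)
  have hP : 0 < ∏ i, p i := Finset.prod_pos fun i _ => (hp i).pos
  refine ⟨D * (N * n ^ 2) * ∏ i, p i, Nat.mul_pos (Nat.mul_pos hD (by positivity)) hP,
    ⟨N * n ^ 2 * ∏ i, p i, by ring⟩, fun i => ?_, fun i γ hγ τ => ?_⟩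
  · rw [show D * (N * n ^ 2) * ∏ j, p j = D * (N * n ^ 2) * (∏ j ∈ Finset.univ.erase i, p j) * p i by
      rw [mul_assoc _ _ (p i), Finset.prod_erase_mul _ _ (Finset.mem_univ i)]]
    exact (hp i).mul_left (Nat.mul_pos (Nat.mul_pos hD (by positivity))
      (Finset.prod_pos fun j _ => (hp j).pos))
  · rw [planeRes_smul hψ]
    have hlev : InLevel (N * n ^ 2) (toFin (glK d γ))⁻¹ := by
      rw [← map_inv, glK_inv]
      refine inLevel_glK (inv_mem ?_)
      rw [CongruenceSubgroup.Gamma_mem] at hγ ⊢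
      have hdvd : N * n ^ 2 ∣ D * (N * n ^ 2) * ∏ j, p j := dvd_mul_of_dvd_left (dvd_mul_left _ _) _
      have hc : ∀ a : ℤ, ∀ b : ℤ, (a : ZMod (D * (N * n ^ 2) * ∏ j, p j)) = b →
          (a : ZMod (N * n ^ 2)) = b := fun a b hab => by
        simpa using congrArg (ZMod.castHom hdvd (ZMod (N * n ^ 2))) hab
      refine ⟨?_, ?_, ?_, ?_⟩
      · simpa using hc _ 1 (by simpa using hγ.1)
      · simpa using hc _ 0 (by simpa using hγ.2.1)
      · simpa using hc _ 0 (by simpa using hγ.2.2.1)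
      · simpa using hc _ 1 (by simpa using hγ.2.2.2)
    have hconj := Red.inLevel_conj_den hn (hden _ ⟨i, rfl⟩) hlev
    show ψ _ _ = ψ _ _
    rw [show (toFin (glK d γ))⁻¹ * hs i = hs i * ((hs i)⁻¹ * (toFin (glK d γ))⁻¹ * hs i) by group]
    exact hψ.aut.right_inv _ hconj _ _

theorem exists_plane_decay (hN : 0 < N) (hψ : CuspZero N ψ) (g : GF d.Kf) :
    ∃ C ε : ℝ, 0 < ε ∧ ∀ τ : ℍ, 1 ≤ τ.im → ‖planeRes ψ g τ‖ ≤ C * Real.exp (-(ε * τ.im)) := by
  obtain ⟨m, hm⟩ := exists_hasPeriod hN hψ.aut g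
  obtain ⟨C, ε, hε, h⟩ := exists_decay hψ hm
  exact ⟨C, ε, hε, fun τ hτ => h (τ.re : ℂ) ⟨τ.im, τ.im_pos⟩ hτ⟩

/-- Extension of a function on the upper half plane by zero. -/
def extC (f : ℍ → ℂ) (z : ℂ) : ℂ := if h : 0 < z.im then f ⟨z, h⟩ else 0

theorem extC_coe (f : ℍ → ℂ) (τ : ℍ) : extC f τ = f τ := dif_pos τ.im_pos

/-- The strip integral is the Mellin transform of the constant term. -/
theorem integral_stripFun_eq {m : ℕ} {u : ℍ → ℂ} {s : ℝ} (hi : Integrable (stripFun m u s))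
    (P : ℝ → ℂ) (hP : ∀ y : ℝ, 0 < y → ∫ x in Ico (0 : ℝ) m, extC u ⟨x, y⟩ = P y) :
    ∫ τ, stripFun m u s τ = ∫ y in Ioi (0 : ℝ), ((y ^ (s - 2) : ℝ) : ℂ) * P y := by
  have hi' : Integrable fun τ : ℍ => extC (stripFun m u s) τ := by simpa only [extC_coe] using hi
  have h := integral_uhp_iterated hi'
  simp only [extC_coe] at h
  rw [h]
  refine setIntegral_congr_fun measurableSet_Ioi fun y (hy : 0 < y) => ?_
  have e : ∀ x : ℝ, extC (stripFun m u s) ⟨x, y⟩ =
      (Ico (0 : ℝ) m).indicator (fun x => ((y ^ s : ℝ) : ℂ) * extC u ⟨x, y⟩) x := fun x => by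
    simp only [extC, dif_pos hy, stripFun, stripSet]
    by_cases hx : x ∈ Ico (0 : ℝ) m
    · rw [indicator_of_mem hx, indicator_of_mem
        (show (⟨⟨x, y⟩, hy⟩ : ℍ) ∈ {τ : ℍ | 0 ≤ τ.re ∧ τ.re < m} from hx)]
      exact mul_comm _ _
    · rw [indicator_of_notMem hx, indicator_of_notMem
        (show (⟨⟨x, y⟩, hy⟩ : ℍ) ∉ {τ : ℍ | 0 ≤ τ.re ∧ τ.re < m} from fun h => hx h)]
  show (((y ^ 2)⁻¹ : ℝ) : ℂ) * ∫ x : ℝ, extC (stripFun m u s) ⟨x, y⟩ = _
  simp only [e]
  rw [integral_indicator measurableSet_Ico, integral_const_mul, hP y hy, ← mul_assoc,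
    ← Complex.ofReal_mul]
  congr 2
  rw [Real.rpow_sub hy, Real.rpow_two]
  ring

theorem integrableOn_fd_of_bdd {f : ℍ → ℂ} (hc : Continuous f) {B : ℝ} (hB : ∀ τ, ‖f τ‖ ≤ B) :
    IntegrableOn f ModularGroup.fd := by
  have : IsFiniteMeasure (volume.restrict (ModularGroup.fd : Set ℍ)) :=
    ⟨by rw [Measure.restrict_apply_univ]; exact volume_fd_lt_top⟩
  exact (integrable_const B).mono' hc.aestronglyMeasurable (Filter.Eventually.of_forall hB)

/-- When every period vanishes, the Mellin transforms of the constant terms of combinations of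
translates stay bounded at `1`. -/
theorem exists_axis_bound {ι : Type*} [Fintype ι] (hN : 0 < N) (hψ : CuspZero N ψ)
    (hper : ∀ (g : GF d.Kf) (m : ℕ), 0 < m →
      (∀ γ ∈ CongruenceSubgroup.Gamma m, ∀ τ : ℍ, planeRes ψ g (γ • τ) = planeRes ψ g τ) →
      period m (planeRes ψ g) = 0)
    (hs : ι → GF d.Kf) (w : ι → ℂ) {D : ℕ} (hD : 0 < D) :
    ∃ m, 0 < m ∧ D ∣ m ∧ (∀ i, HasPeriod ψ (hs i) m) ∧ ∃ C, ∀ s ∈ Ioc (1 : ℝ) 2,
      ‖∫ y in Ioi (0 : ℝ), ((y ^ (s - 2) : ℝ) : ℂ) *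
        ∑' k, axisTerm (fun ξ => ∑ i, w i * cA ψ (hs i) ξ) m y k‖ ≤ C := by
  obtain ⟨m, hm, hDm, hp, hinv⟩ := exists_common_level hN hψ hs hD
  refine ⟨m, hm, hDm, hp, ?_⟩
  obtain ⟨B, hB⟩ := hψ.bdd
  set u : ℍ → ℂ := fun τ => ∑ i, w i * planeRes ψ (hs i) τ
  have hcont : Continuous u := continuous_finsetSum _ fun i _ =>
    continuous_const.mul (continuous_planeRes hψ _)
  have hu : ∀ γ ∈ CongruenceSubgroup.Gamma m, ∀ τ : ℍ, u (γ • τ) = u τ := fun γ hγ τ =>
    Finset.sum_congr rfl fun i _ => by rw [hinv i γ hγ τ]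
  have hbdd : ∃ C, ∀ τ, ‖u τ‖ ≤ C := ⟨∑ i, ‖w i‖ * B, fun τ => norm_sum_le_of_le _ fun i _ => by
    rw [norm_mul]; exact mul_le_mul_of_nonneg_left (hB _ _) (norm_nonneg _)⟩
  have hdec : ∀ c : SL(2, ℤ), ∃ C ε : ℝ, 0 < ε ∧
      ∀ τ : ℍ, 1 ≤ τ.im → ‖u (c • τ)‖ ≤ C * Real.exp (-(ε * τ.im)) := fun c => by
    rcases isEmpty_or_nonempty ι with hι | hι
    · exact ⟨0, 1, one_pos, fun τ _ => by simp [u]⟩
    choose C ε hε h using fun i => exists_plane_decay hN hψ ((toFin (glK d c))⁻¹ * hs i)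
    refine ⟨∑ i, ‖w i‖ * C i, Finset.univ.inf' Finset.univ_nonempty ε,
      (Finset.lt_inf'_iff _).2 fun i _ => hε i, fun τ hτ => ?_⟩
    rw [Finset.sum_mul]
    refine norm_sum_le_of_le _ fun i _ => ?_
    rw [norm_mul, planeRes_smul hψ, mul_assoc]
    refine mul_le_mul_of_nonneg_left ((h i τ hτ).trans ?_) (norm_nonneg _)
    have hC : 0 ≤ C i := le_of_mul_le_mul_right
      (by simpa using (norm_nonneg _).trans (h i τ hτ)) (Real.exp_pos (-(ε i * τ.im)))
    gcongr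
    exact Finset.inf'_le _ (Finset.mem_univ i)
  have hper0 : period m u = 0 := by
    have : NeZero m := ⟨hm.ne'⟩
    have : (CongruenceSubgroup.Gamma m).FiniteIndex :=
      inferInstanceAs (CongruenceSubgroup.Gamma m).FiniteIndex
    let _ : Fintype (SL(2, ℤ) ⧸ CongruenceSubgroup.Gamma m) := Fintype.ofFinite _
    have hi : ∀ (c : SL(2, ℤ)) (i : ι),
        IntegrableOn (fun τ => w i * planeRes ψ (hs i) (c • τ)) ModularGroup.fd := fun c i =>
      (integrableOn_fd_of_bdd ((continuous_planeRes hψ _).comp (continuous_smulSL c))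
        fun τ => hB _ _).const_mul _
    have h0 : ∀ i, period m (planeRes ψ (hs i)) = 0 := fun i => hper _ m hm (hinv i)
    simp only [period, finsum_eq_sum_of_fintype] at h0 ⊢
    simp only [u, integral_finsetSum _ fun i _ => hi _ i, integral_const_mul]
    rw [Finset.sum_comm]
    exact Finset.sum_eq_zero fun i _ => by rw [← Finset.mul_sum, h0, mul_zero]
  obtain ⟨hint, C, hC⟩ := exists_strip_bound hm hcont hu hbdd hdec hper0
  refine ⟨C / m, fun s hs' => ?_⟩
  have hP : ∀ y : ℝ, 0 < y → ∫ x in Ico (0 : ℝ) m, extC u ⟨x, y⟩ =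
      (m : ℂ) * ∑' k, axisTerm (fun ξ => ∑ i, w i * cA ψ (hs i) ξ) m y k := fun y hy => by
    have e : ∀ x : ℝ, extC u ⟨x, y⟩ = ∑ i, w i * ψ (ptK d (x : ℂ) ⟨y, hy⟩) (hs i) := fun x => by
      simp only [extC, dif_pos hy, u]
      rfl
    have hci : ∀ i, IntegrableOn (fun x : ℝ => w i * ψ (ptK d (x : ℂ) ⟨y, hy⟩) (hs i))
        (Ico (0 : ℝ) m) := fun i =>
      ((continuous_const.mul ((hψ.cont _).comp (continuous_pi fun _ =>
        Complex.continuous_ofReal.prodMk continuous_const))).integrableOn_Icc).mono_set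
          Ico_subset_Icc_self
    simp only [e]
    rw [integral_finsetSum _ fun i _ => hci i]
    simp only [integral_const_mul, fun i => integral_line hψ (hp i) dvd_rfl (⟨y, hy⟩ : Ioi (0 : ℝ))]
    have hsum : ∀ i, Summable fun k => w i * axisTerm (cA ψ (hs i)) m y k := fun i =>
      (summable_axisTerm hψ hm _ hy).mul_left _
    rw [show (fun k => axisTerm (fun ξ => ∑ i, w i * cA ψ (hs i) ξ) m y k) =
        fun k => ∑ i, w i * axisTerm (cA ψ (hs i)) m y k from funext fun k => by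
      simp only [axisTerm]
      split_ifs with h
      · rw [Finset.sum_mul]
        exact Finset.sum_congr rfl fun i _ => mul_assoc _ _ _
      · simp]
    rw [Summable.tsum_finsetSum fun i _ => hsum i, Finset.mul_sum]
    refine Finset.sum_congr rfl fun i _ => ?_
    rw [tsum_mul_left]
    ring
  have h := hC s hs'
  rw [integral_stripFun_eq (hint s hs'.1) _ hP] at h
  simp only [mul_left_comm _ (m : ℂ), integral_const_mul, norm_mul, Complex.norm_natCast] at h
  rw [le_div_iff₀ (Nat.cast_pos.2 hm), mul_comm]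
  exact h

end FLTAgent.LT.Asai
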