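import Fermat.Agent.LT.Asai.Coef
import Fermat.Agent.LT.Asai.Translates

/-!
# Cutting the frequencies prime to the level
-/

set_option autoImplicit false

noncomputable section

namespace FLTAgent.LT.Asai

open NumberField RS Complex
open scoped Real

variable {d : Octa} {ψ : Form d.Kf} {N : ℕ}

theorem cA_unip (hN : 0 < N) (hψ : CuspZero N ψ) (g : GF d.Kf) (η ξ : d.Kf) :
    cA ψ (upperGF 1 (algebraMap d.Kf (Af d.Kf) η) * g) ξ = trChar ξ (-embF η) * cA ψ g ξ := by
  unfold cA coefA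
  split_ifs with h
  · rw [wh_upperGF_mul hN hψ.aut (hψ.cont g) (η := η) (b := algebraMap d.Kf (Af d.Kf) η),
      mul_div_assoc]
    have e : g⁻¹ * upperGF 1 (algebraMap d.Kf (Af d.Kf) η - algebraMap d.Kf (Af d.Kf) η) * g = 1 := by
      have h1 : upperGF (1 : (Af d.Kf)ˣ) (0 : Af d.Kf) = 1 := by
        apply Units.ext; ext i j; fin_cases i <;> fin_cases j <;> simp [upperGF]
      rw [sub_self, h1]; group
    rw [e]
    exact Red.InLevel.one N
  · rw [mul_zero]

theorem trace_ratCast (q : ℚ) : Algebra.trace ℚ d.Kf (q : d.Kf) = 2 * q := by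
  rw [show (q : d.Kf) = algebraMap ℚ d.Kf q from (eq_ratCast _ q).symm, Algebra.trace_algebraMap,
    finrank_Kf]
  simp

theorem trChar_axis (r q : ℚ) :
    trChar ((r : d.Kf) * delK d) (-embF ((q : d.Kf) * dK d)) =
      cexp (((-(4 * π * r * q) : ℝ) : ℂ) * I) := by
  rw [trChar, trPair_neg, trPair_embF,
    show (r : d.Kf) * delK d * ((q : d.Kf) * dK d) = ((r * q : ℚ) : d.Kf) by
      rw [delK, Rat.cast_mul]
      field_simp [dK_ne_zero d], trace_ratCast]
  push_cast
  ring_nf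

/-- The denominators of the frequencies on the axis. -/
theorem exists_num_of_cA (hψ : CuspZero N ψ) {g : GF d.Kf} {P : ℕ} (hP : HasPeriod ψ g P)
    {r : ℚ} (h : cA ψ g ((r : d.Kf) * delK d) ≠ 0) : ∃ a : ℤ, r * (2 * P : ℕ) = a := by
  have hd : IsDual P ((r : d.Kf) * delK d) := by
    by_contra hnd
    refine h ?_
    unfold cA coefA
    split_ifs
    · rw [wh_eq_zero_of_not_isDual (hψ.cont g) hP hnd, zero_div]
    · rfl
  obtain ⟨v, hv⟩ := exists_intOf (F := d.Kf) (2 * zO d + 1)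
  choose k hk using hd
  refine ⟨∑ i, v i * k i, ?_⟩
  have e : (r : d.Kf) = ∑ i, (v i : d.Kf) *
      ((r : d.Kf) * delK d * (RingOfIntegers.basis d.Kf i : d.Kf)) := by
    have h1 := congrArg (fun x : 𝓞 d.Kf => (r : d.Kf) * delK d * (x : d.Kf)) hv
    simp only [intOf, map_sum] at h1
    have h2 : (r : d.Kf) * delK d * ((2 * zO d + 1 : 𝓞 d.Kf) : d.Kf) = r := by
      rw [show ((2 * zO d + 1 : 𝓞 d.Kf) : d.Kf) = dK d by
        rw [dK]; simp [zO_coe, map_ofNat], delK]
      field_simp [dK_ne_zero d]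
    rw [h2, Finset.mul_sum] at h1
    conv_lhs => rw [← h1]
    refine Finset.sum_congr rfl fun i _ => ?_
    simp [zsmul_eq_mul]
    ring
  have e2 := congrArg (fun x : d.Kf => (P : ℚ) * Algebra.trace ℚ d.Kf x) e
  simp only [trace_ratCast, map_sum, Finset.mul_sum] at e2
  push_cast
  rw [show r * (2 * (P : ℚ)) = (P : ℚ) * (2 * r) by ring, e2]
  refine Finset.sum_congr rfl fun i _ => ?_
  rw [← zsmul_eq_mul, map_zsmul, zsmul_eq_mul, ← hk, freq]
  ring

theorem sum_exp_range {L : ℕ} (hL : 0 < L) (c : ℤ) :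
    ∑ j ∈ Finset.range L, cexp (2 * π * I * c / L) ^ j = if (L : ℤ) ∣ c then (L : ℂ) else 0 := by
  set z := cexp (2 * π * I * c / L)
  have hL0 : (L : ℂ) ≠ 0 := Nat.cast_ne_zero.2 hL.ne'
  have hzL : z ^ L = 1 := by
    rw [← Complex.exp_nat_mul, mul_div_cancel₀ _ hL0, mul_comm]
    exact Complex.exp_int_mul_two_pi_mul_I c
  have hiff : z = 1 ↔ (L : ℤ) ∣ c := by
    rw [Complex.exp_eq_one_iff]
    constructor
    · rintro ⟨n, hn⟩
      refine ⟨n, ?_⟩
      rw [div_eq_iff hL0] at hn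
      have h' : (2 * π * I) * (c : ℂ) = (2 * π * I) * ((L : ℂ) * n) := by rw [hn]; ring
      exact_mod_cast mul_left_cancel₀ Complex.two_pi_I_ne_zero h'
    · rintro ⟨n, rfl⟩
      exact ⟨n, by push_cast; field_simp⟩
  split_ifs with h
  · simp [hiff.2 h]
  · rw [geom_sum_eq (mt hiff.1 h), hzL, sub_self, zero_div]

/-- A residue class. -/
def cutE (d : Octa) (M : ℕ) (g : GF d.Kf) (L : ℕ) (i : Fin M × Fin L) : GF d.Kf :=
  upperGF 1 (algebraMap d.Kf (Af d.Kf) (((i.2 : ℕ) / (2 * M) : ℚ) * dK d)) * transE d M g i.1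

/-- Its weight. -/
def cutW (M L : ℕ) (i : Fin M × Fin L) : ℂ :=
  if (i.1 : ℕ).Coprime M then cexp (2 * π * I * (i.1 : ℕ) * (i.2 : ℕ) / M) / L else 0

/-- **The combined coefficient on the axis.** -/
theorem exists_cut (hN : 0 < N) (hψ : CuspZero N ψ) (hfe : FullEigen N ψ) {g : GF d.Kf}
    {M : ℕ} (hM : 0 < M) (h3 : 3 ∣ M) (hNM : N ∣ M)
    (htriv : ∀ v : IsDedekindDomain.HeightOneSpectrum (𝓞 d.Kf), (M : 𝓞 d.Kf) ∉ v.asIdeal → TrivAt v g)
    {nd : ℕ} (hnd : 0 < nd) (hden : Red.Den nd g) (hlev : N * nd ^ 2 ∣ M) :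
    ∃ (L : ℕ), 0 < L ∧
      (∀ n : ℤ, n.natAbs.Coprime M →
        ∑ i, cutW M L i * cA ψ (cutE d M g L i) ((n : d.Kf) * delK d) =
          ((fSer ψ n.natAbs / n.natAbs : ℝ) : ℂ) * cA ψ g (delK d)) ∧
      ∀ r : ℚ, (∀ n : ℤ, n.natAbs.Coprime M → r ≠ n) →
        ∑ i, cutW M L i * cA ψ (cutE d M g L i) ((r : d.Kf) * delK d) = 0 := by
  classical
  choose p hp using fun e : Fin M => exists_hasPeriod hN hψ.aut (transE d M g e)
  set P := ∏ e, p e
  have hP : 0 < P := Finset.prod_pos fun e _ => (hp e).pos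
  have hPer : ∀ e : Fin M, HasPeriod ψ (transE d M g e) P := fun e => by
    rw [show P = p e * ∏ e' ∈ Finset.univ.erase e, p e' from
      (Finset.mul_prod_erase _ _ (Finset.mem_univ e)).symm]
    exact (hp e).mul (Finset.prod_pos fun e' _ => (hp e').pos)
  set L := 2 * P * M
  have hL : 0 < L := by positivity
  -- one residue class
  have key : ∀ (r : ℚ) (e : Fin M),
      ∑ j : Fin L, cutW M L (e, j) * cA ψ (cutE d M g L (e, j)) ((r : d.Kf) * delK d) =
        if (e : ℕ).Coprime M ∧ ∃ n : ℤ, r = n ∧ (M : ℤ) ∣ n - (e : ℕ) then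
          cA ψ (transE d M g e) ((r : d.Kf) * delK d) else 0 := by
    intro r e
    by_cases hc : (e : ℕ).Coprime M
    swap
    · simp [cutW, hc]
    set A := cA ψ (transE d M g e) ((r : d.Kf) * delK d)
    rcases eq_or_ne A 0 with hA | hA
    · have : ∀ j : Fin L, cA ψ (cutE d M g L (e, j)) ((r : d.Kf) * delK d) = 0 := fun j => by
        rw [cutE, cA_unip hN hψ]
        exact mul_eq_zero_of_right _ hA
      simp [this, hA]
    obtain ⟨a, ha⟩ := exists_num_of_cA hψ (hPer e) hA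
    have hP' : ((2 * P : ℕ) : ℚ) ≠ 0 := Nat.cast_ne_zero.2 (by omega)
    have hr : r = (a : ℚ) / (2 * P : ℕ) := (eq_div_iff hP').2 ha
    have hterm : ∀ j : Fin L, cutW M L (e, j) * cA ψ (cutE d M g L (e, j)) ((r : d.Kf) * delK d) =
        A / L * cexp (2 * π * I * ((e : ℕ) * (2 * P : ℕ) - a : ℤ) / L) ^ (j : ℕ) := fun j => by
      rw [cutW, if_pos hc, cutE, cA_unip hN hψ, trChar_axis, ← Complex.exp_nat_mul]
      rw [div_mul_eq_mul_div, ← mul_assoc, ← Complex.exp_add, mul_comm _ A, mul_div_right_comm]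
      congr 2
      rw [hr]
      have h1 : (P : ℂ) ≠ 0 := Nat.cast_ne_zero.2 hP.ne'
      have h2 : (M : ℂ) ≠ 0 := Nat.cast_ne_zero.2 hM.ne'
      simp only [L]
      push_cast
      field_simp
      ring
    simp only [hterm]
    rw [← Finset.mul_sum, Fin.sum_univ_eq_sum_range
      (fun j => cexp (2 * π * I * ((e : ℕ) * (2 * P : ℕ) - a : ℤ) / L) ^ j), sum_exp_range hL]
    have hiff : (L : ℤ) ∣ ((e : ℕ) : ℤ) * (2 * P : ℕ) - a ↔ ∃ n : ℤ, r = n ∧ (M : ℤ) ∣ n - (e : ℕ) := by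
      constructor
      · rintro ⟨z, hz⟩
        refine ⟨(e : ℕ) - M * z, ?_, ⟨-z, by ring⟩⟩
        rw [hr, div_eq_iff hP']
        have hz' : (a : ℚ) = (e : ℕ) * (2 * P : ℕ) - (L : ℕ) * z := by
          have := congrArg (fun t : ℤ => (t : ℚ)) hz
          push_cast at this ⊢
          linarith
        rw [hz']
        simp only [L]
        push_cast
        ring
      · rintro ⟨n, hn, z, hz⟩
        refine ⟨-z, ?_⟩
        rw [hr, div_eq_iff hP'] at hn
        have ha' : a = n * (2 * P : ℕ) := by exact_mod_cast hn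
        rw [ha']
        simp only [L]
        push_cast
        linear_combination (-(2 * (P : ℤ))) * hz
    by_cases h : (L : ℤ) ∣ ((e : ℕ) : ℤ) * (2 * P : ℕ) - a
    · rw [if_pos h, if_pos ⟨hc, hiff.1 h⟩, div_mul_cancel₀ _ (Nat.cast_ne_zero.2 hL.ne')]
    · rw [if_neg h, if_neg fun h' => h (hiff.2 h'.2), mul_zero]
  refine ⟨L, hL, fun n hn => ?_, fun r hr => ?_⟩
  · have hM1 : M ≠ 1 := fun h => by rw [h] at h3; norm_num at h3
    have hn0 : n ≠ 0 := fun h => hM1 (by simpa [h] using hn)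
    have hMz : (M : ℤ) ≠ 0 := Int.natCast_ne_zero.2 hM.ne'
    set e : ℕ := (n % M).toNat
    have hemod : (e : ℤ) = n % M := Int.toNat_of_nonneg (Int.emod_nonneg n hMz)
    have helt : e < M := by
      have := Int.emod_lt_of_pos n (show (0 : ℤ) < M by exact_mod_cast hM)
      omega
    have hdvd : (M : ℤ) ∣ n - e := ⟨n / M, by rw [hemod, Int.emod_def]; ring⟩
    have hecop : e.Coprime M := by
      have h1 : IsCoprime n (M : ℤ) := Int.isCoprime_iff_nat_coprime.2 (by simpa using hn)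
      obtain ⟨c, hc⟩ := hdvd
      have h2 : IsCoprime (e : ℤ) (M : ℤ) := by
        rw [show (e : ℤ) = n + (-c) * M by linarith]
        exact h1.add_mul_right_left _
      simpa using Int.isCoprime_iff_nat_coprime.1 h2
    have he0 : 0 < e := Nat.pos_of_ne_zero fun h => hM1 (by simpa [h] using hecop)
    have h := fun e' => key n e'
    simp only [Rat.cast_intCast] at h
    rw [Fintype.sum_prod_type, Finset.sum_congr rfl fun e' _ => h e',
      Finset.sum_eq_single (⟨e, helt⟩ : Fin M), if_pos ⟨hecop, n, rfl, hdvd⟩]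
    · exact cA_translate hN hψ hfe h3 hNM htriv hnd hden hlev he0 hn hn0 hdvd
    · intro e' _ hne
      refine if_neg ?_
      rintro ⟨-, n', hn', hd'⟩
      obtain rfl : n = n' := by exact_mod_cast hn'
      have h4 : (M : ℤ) ∣ ((e' : ℕ) : ℤ) - e := by
        rw [show ((e' : ℕ) : ℤ) - e = (n - e) - (n - (e' : ℕ)) by ring]
        exact dvd_sub hdvd hd'
      have h5 := Int.eq_zero_of_abs_lt_dvd h4 (by
        have := e'.2
        rw [abs_lt]; omega)
      exact hne (Fin.ext (by simpa [sub_eq_zero] using h5))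
    · exact fun h => absurd (Finset.mem_univ _) h
  · rw [Fintype.sum_prod_type, Finset.sum_congr rfl fun e' _ => key r e']
    refine Finset.sum_eq_zero fun e _ => if_neg ?_
    rintro ⟨hc, n, rfl, hd⟩
    refine hr n ?_ rfl
    obtain ⟨c, hc'⟩ := hd
    have h2 : IsCoprime n (M : ℤ) := by
      rw [show n = ((e : ℕ) : ℤ) + c * M by linarith]
      exact (Int.isCoprime_iff_nat_coprime.2 (by simpa using hc)).add_mul_right_left _
    simpa using Int.isCoprime_iff_nat_coprime.1 h2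

end FLTAgent.LT.Asai
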