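import Mathlib.Analysis.Normed.Group.Indicator
import Mathlib.Analysis.Normed.Group.Tannery
import Mathlib.Analysis.Complex.Basic

/-!
# Euler products over exponent vectors
-/

set_option autoImplicit false

namespace FLTAgent.LT.Asai

open Filter

variable {ι : Type*}

theorem summable_apply_of_summable_prod (f : ι → ℕ → ℂ) (h0 : ∀ i, f i 0 = 1)
    (hs : Summable fun n : ι →₀ ℕ => n.prod f) (i : ι) : Summable (f i) :=
  (hs.comp_injective (Finsupp.single_injective i)).congr fun k => Finsupp.prod_single_index (h0 i)

/-- The sum over exponent vectors supported in a finite set is the finite Euler product. -/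
theorem hasSum_prod_of_support (f : ι → ℕ → ℂ) (h0 : ∀ i, f i 0 = 1)
    (hs : Summable fun n : ι →₀ ℕ => n.prod f) (T : Finset ι) :
    HasSum (fun n : {n : ι →₀ ℕ // n.support ⊆ T} => n.1.prod f) (∏ i ∈ T, ∑' k, f i k) := by
  classical
  induction T using Finset.induction with
  | empty =>
    simp only [Finset.prod_empty]
    have : Unique {n : ι →₀ ℕ // n.support ⊆ ∅} :=
      { default := ⟨0, by simp⟩
        uniq := fun n => Subtype.ext
          (Finsupp.support_eq_empty.mp (Finset.subset_empty.mp n.2)) }
    convert hasSum_unique (fun n : {n : ι →₀ ℕ // n.support ⊆ ∅} => n.1.prod f) using 1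
    rw [Subtype.ext (Finsupp.support_eq_empty.mp (Finset.subset_empty.mp
      (default : {n : ι →₀ ℕ // n.support ⊆ ∅}).2)) (a1 := default)
      (a2 := ⟨0, by simp⟩)]
    simp
  | insert i T hi ih =>
    have hzero : ∀ m : {n : ι →₀ ℕ // n.support ⊆ T}, m.1 i = 0 := fun m =>
      Finsupp.notMem_support_iff.mp fun h => hi (m.2 h)
    let e : ℕ × {n : ι →₀ ℕ // n.support ⊆ T} ≃ {n : ι →₀ ℕ // n.support ⊆ insert i T} :=
      { toFun := fun p => ⟨p.2.1.update i p.1, fun j hj => by
          rcases eq_or_ne j i with rfl | hji
          · exact Finset.mem_insert_self _ _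
          · rw [Finsupp.mem_support_iff, Finsupp.coe_update, Function.update_of_ne hji,
              ← Finsupp.mem_support_iff] at hj
            exact Finset.mem_insert_of_mem (p.2.2 hj)⟩
        invFun := fun n => (n.1 i, ⟨n.1.erase i, fun j hj => by
          rw [Finsupp.support_erase, Finset.mem_erase] at hj
          exact (Finset.mem_insert.mp (n.2 hj.2)).resolve_left hj.1⟩)
        left_inv := fun p => by
          refine Prod.ext (by simp) (Subtype.ext (Finsupp.ext fun j => ?_))
          rcases eq_or_ne j i with rfl | hji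
          · simp [hzero]
          · simp [hji]
        right_inv := fun n => Subtype.ext (Finsupp.ext fun j => by
          rcases eq_or_ne j i with rfl | hji
          · simp
          · simp [hji]) }
    have hval : ∀ p, (e p).1.prod f = f i p.1 * p.2.1.prod f := fun p => by
      rw [Finsupp.prod_of_support_subset _ (e p).2 _ fun j _ => h0 j,
        Finsupp.prod_of_support_subset _ p.2.2 _ fun j _ => h0 j, Finset.prod_insert hi]
      refine congrArg₂ (· * ·) (by simp [e]) (Finset.prod_congr rfl fun j hj => ?_)
      simp [e, show j ≠ i from fun h => hi (h ▸ hj)]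
    rw [Finset.prod_insert hi]
    have h1 : HasSum (f i) (∑' k, f i k) := (summable_apply_of_summable_prod f h0 hs i).hasSum
    have h2 : Summable fun p : ℕ × {n : ι →₀ ℕ // n.support ⊆ T} => f i p.1 * p.2.1.prod f :=
      (hs.comp_injective (Subtype.val_injective.comp e.injective)).congr hval
    have h3 := HasSum.mul (g := fun n : {n : ι →₀ ℕ // n.support ⊆ T} => n.1.prod f) h1 ih h2
    exact e.hasSum_iff.mp (h3.congr_fun hval)

/-- The finite Euler products converge to the series. -/
theorem tendsto_prod_tsum (f : ι → ℕ → ℂ) (h0 : ∀ i, f i 0 = 1)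
    (hs : Summable fun n : ι →₀ ℕ => ‖n.prod f‖) :
    Tendsto (fun T : Finset ι => ∏ i ∈ T, ∑' k, f i k) atTop
      (nhds (∑' n : ι →₀ ℕ, n.prod f)) := by
  classical
  have h1 : ∀ T : Finset ι, ∑' n : ι →₀ ℕ, {n : ι →₀ ℕ | n.support ⊆ T}.indicator
      (fun n => n.prod f) n = ∏ i ∈ T, ∑' k, f i k := fun T => by
    rw [← tsum_subtype]
    exact (hasSum_prod_of_support f h0 hs.of_norm T).tsum_eq
  simp_rw [← h1]
  refine tendsto_tsum_of_dominated_convergence hs (fun n => ?_)
    (Eventually.of_forall fun T n => norm_indicator_le_norm_self (fun n => n.prod f) n)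
  refine tendsto_const_nhds.congr' ?_
  filter_upwards [eventually_ge_atTop n.support] with T hT
  rw [Set.indicator_of_mem (show n ∈ {n : ι →₀ ℕ | n.support ⊆ T} from hT)]

end FLTAgent.LT.Asai
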