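import Fermat.Agent.LT.Adjoint.Cyclo
import Mathlib.NumberTheory.NumberField.Cyclotomic.PID

/-!
# The field `K = ℚ(√-3)` of an octahedral datum
-/

set_option autoImplicit false

noncomputable section

namespace FLTAgent.LT.Asai

open NumberField IsDedekindDomain WeierstrassCurve

variable (d : Octa)

/-- A primitive cube root of unity. -/
def zQ : Qb := (HasEnoughRootsOfUnity.exists_primitiveRoot Qb 3).choose

theorem zQ_spec : IsPrimitiveRoot zQ 3 := (HasEnoughRootsOfUnity.exists_primitiveRoot Qb 3).choose_spec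

theorem mem_GK_iff (σ : Gam) : σ ∈ d.GK ↔ σ zQ = zQ := by
  have h : σ ∈ d.GK ↔ cycMod 3 σ = 1 := by
    show Matrix.GeneralLinearGroup.det (d.rbar σ) = 1 ↔ _
    rw [d.det_eq]
    rfl
  rw [h]
  refine ⟨fun h => (cycMod_eq_one_iff σ).mp h zQ zQ_spec.pow_eq_one, fun h => Units.ext ?_⟩
  rw [cycMod_eq_of_apply zQ_spec (j := 1) (by rw [pow_one]; exact h)]
  simp

theorem Kf_eq : d.Kf = IntermediateField.adjoin ℚ {zQ} := by
  have := Octa.isGalois_Qb
  rw [← InfiniteGalois.fixedField_fixingSubgroup (IntermediateField.adjoin ℚ {zQ})]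
  show IntermediateField.fixedField d.GK = _
  congr 1
  ext σ
  rw [mem_GK_iff, IntermediateField.mem_fixingSubgroup_iff]
  refine ⟨fun h x hx => ?_, fun h => h zQ (IntermediateField.mem_adjoin_simple_self ℚ zQ)⟩
  have hle : IntermediateField.adjoin ℚ {zQ} ≤ IntermediateField.fixedField (Subgroup.zpowers σ) := by
    rw [IntermediateField.adjoin_simple_le_iff, IntermediateField.mem_fixedField_iff]
    intro f hf
    exact MulAction.mem_stabilizer_iff.mp
      (Subgroup.zpowers_le.mpr (show σ ∈ MulAction.stabilizer Gam zQ from h) hf)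
  exact IntermediateField.mem_fixedField_iff _ _ |>.mp (hle hx) σ (Subgroup.mem_zpowers σ)

theorem isCyclotomicExtension_Kf : IsCyclotomicExtension {3} ℚ d.Kf := by
  have : IsGalois ℚ Qb := Octa.isGalois_Qb
  have : Algebra.IsIntegral ℚ Qb := ⟨fun x => Normal.isIntegral inferInstance x⟩
  rw [Kf_eq]
  exact zQ_spec.intermediateField_adjoin_isCyclotomicExtension ℚ

attribute [local instance] isCyclotomicExtension_Kf

theorem pid_Kf : IsPrincipalIdealRing (𝓞 d.Kf) := IsCyclotomicExtension.Rat.three_pid d.Kf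

theorem isTotallyComplex_Kf : IsTotallyComplex d.Kf :=
  IsCyclotomicExtension.Rat.isTotallyComplex (n := 3) d.Kf (by norm_num)

theorem finrank_Kf : Module.finrank ℚ d.Kf = 2 := by
  rw [IsCyclotomicExtension.finrank (n := 3) d.Kf
    (Polynomial.cyclotomic.irreducible_rat (by norm_num))]
  rfl

theorem subsingleton_places : Subsingleton (InfinitePlace d.Kf) := by
  classical
  have h1 : InfinitePlace.nrRealPlaces d.Kf = 0 :=
    IsCyclotomicExtension.Rat.nrRealPlaces_eq_zero (n := 3) d.Kf (by norm_num)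
  have h2 := InfinitePlace.card_add_two_mul_card_eq_rank d.Kf
  have h3 := InfinitePlace.card_eq_nrRealPlaces_add_nrComplexPlaces d.Kf
  rw [finrank_Kf] at h2
  exact Fintype.card_le_one_iff_subsingleton.mp (by omega)

/-- The place at infinity. -/
def wInf : InfinitePlace d.Kf := Classical.arbitrary _

/-- The cube root of unity in `K`. -/
def zK : d.Kf := IsCyclotomicExtension.zeta 3 ℚ d.Kf

theorem zK_spec : IsPrimitiveRoot (zK d) 3 := IsCyclotomicExtension.zeta_spec 3 ℚ d.Kf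

theorem zK_eq : zK d ^ 2 + zK d + 1 = 0 := by
  have h := (zK_spec d).geom_sum_eq_zero (by norm_num)
  simp only [Finset.sum_range_succ, Finset.sum_range_zero, pow_zero, pow_one, zero_add] at h
  linear_combination h

/-- `√-3`. -/
def dK : d.Kf := 2 * zK d + 1

theorem dK_sq : dK d ^ 2 = -3 := by
  rw [dK]; linear_combination 4 * zK_eq d

theorem dK_ne_zero : dK d ≠ 0 := fun h => by
  have := dK_sq d
  rw [h] at this
  norm_num at this

/-- The cube root of unity as an integer. -/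
def zO : 𝓞 d.Kf := (zK_spec d).toInteger

theorem zO_coe : (zO d : d.Kf) = zK d := rfl

theorem zO_eq : zO d ^ 2 + zO d + 1 = 0 := RingOfIntegers.ext (by simpa [zO_coe] using zK_eq d)

/-- Coordinates of an integer. -/
theorem exists_coords (x : 𝓞 d.Kf) : ∃ a b : ℤ, x = a + b * zO d := by
  have hz := zK_spec d
  set pb := hz.integralPowerBasis
  have hdim : pb.dim ≤ 2 := by
    rw [IsPrimitiveRoot.integralPowerBasis_dim]
    rfl
  obtain ⟨f, hf, hfx⟩ := pb.exists_eq_aeval x
  refine ⟨f.coeff 0, f.coeff 1, ?_⟩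
  rw [hfx, IsPrimitiveRoot.integralPowerBasis_gen, Polynomial.aeval_eq_sum_range'
    (n := 2) (lt_of_lt_of_le hf hdim)]
  simp [Finset.sum_range_succ, zO]

theorem embedding_zK (w : InfinitePlace d.Kf) : (w.embedding (zK d)).re = -1 / 2 := by
  have h := congrArg w.embedding (zK_eq d)
  simp only [map_add, map_pow, map_one, map_zero] at h
  have hre := congrArg Complex.re h
  have him := congrArg Complex.im h
  simp [sq, Complex.mul_re, Complex.mul_im] at hre him
  rcases mul_eq_zero.mp (show (w.embedding (zK d)).im * (2 * (w.embedding (zK d)).re + 1) = 0 by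
    linarith) with h0 | h0
  · nlinarith [sq_nonneg (2 * (w.embedding (zK d)).re + 1)]
  · linarith

theorem embedding_dK_re (w : InfinitePlace d.Kf) : (w.embedding (dK d)).re = 0 := by
  simp [dK, map_add, map_mul, map_ofNat, embedding_zK]; norm_num

theorem exists_rat_coords (ξ : d.Kf) : ∃ a b : ℚ, ξ = (a : d.Kf) + (b : d.Kf) * zK d := by
  have hz := zK_spec d
  set pb := hz.powerBasis ℚ
  have hdim : pb.dim ≤ 2 := by
    rw [← pb.finrank, finrank_Kf]
  obtain ⟨f, hf, hfx⟩ := pb.exists_eq_aeval ξ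
  refine ⟨f.coeff 0, f.coeff 1, ?_⟩
  rw [hfx, IsPrimitiveRoot.powerBasis_gen, Polynomial.aeval_eq_sum_range'
    (n := 2) (lt_of_lt_of_le hf hdim)]
  simp [Finset.sum_range_succ, Algebra.smul_def]

/-- The elements with purely imaginary image are the rational multiples of `1 / √-3`. -/
theorem exists_rat_of_re_zero (w : InfinitePlace d.Kf) {ξ : d.Kf} (h : (w.embedding ξ).re = 0) :
    ∃ r : ℚ, ξ = (r : d.Kf) * (dK d)⁻¹ := by
  obtain ⟨a, b, rfl⟩ := exists_rat_coords d ξ
  have hab : a = b / 2 := by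
    have e : (a : ℝ) + b * (-1 / 2) = 0 := by
      simpa [embedding_zK] using h
    have : (a : ℝ) = ((b / 2 : ℚ) : ℝ) := by push_cast; linarith
    exact_mod_cast this
  refine ⟨-3 * b / 2, ?_⟩
  rw [hab, eq_mul_inv_iff_mul_eq₀ (dK_ne_zero d), dK]
  push_cast
  linear_combination (2 * (b : d.Kf)) * zK_eq d

theorem re_rat_mul_dK_inv (w : InfinitePlace d.Kf) (r : ℚ) :
    (w.embedding ((r : d.Kf) * (dK d)⁻¹)).re = 0 := by
  simp [map_mul, map_inv₀, embedding_dK_re, Complex.mul_re, Complex.inv_re]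

/-! ### The conjugation -/

/-- The conjugate of an integer. -/
def conjO (x : 𝓞 d.Kf) : 𝓞 d.Kf :=
  ((exists_coords d x).choose : 𝓞 d.Kf) + ((exists_coords d x).choose_spec.choose : ℤ) * zO d ^ 2

theorem conjO_spec (x : 𝓞 d.Kf) : ∃ a b : ℤ, x = a + b * zO d ∧ conjO d x = a + b * zO d ^ 2 :=
  ⟨_, _, (exists_coords d x).choose_spec.choose_spec, rfl⟩

/-- An automorphism outside `G_K` restricts to the conjugation. -/
theorem smul_eq_conjO {τ : Gam} (hτ : τ ∉ d.GK) (x : 𝓞 d.Kf) :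
    τ ((x : d.Kf) : Qb) = ((conjO d x : d.Kf) : Qb) := by
  obtain ⟨a, b, hx, hc⟩ := conjO_spec d x
  have hz : (((zK d : d.Kf) : Qb)) ^ 3 = 1 := by
    rw [← IntermediateField.coe_pow, (zK_spec d).pow_eq_one, IntermediateField.coe_one]
  have hprim : IsPrimitiveRoot ((zK d : d.Kf) : Qb) 3 :=
    (zK_spec d).map_of_injective (f := d.Kf.val) d.Kf.val.injective
  have hne : τ ((zK d : d.Kf) : Qb) ≠ ((zK d : d.Kf) : Qb) := fun he => hτ (by
    rw [mem_GK_iff]
    obtain ⟨i, -, hi⟩ := hprim.eq_pow_of_pow_eq_one (ξ := zQ) zQ_spec.pow_eq_one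
    rw [← hi, map_pow, he])
  have hz2 : τ ((zK d : d.Kf) : Qb) = ((zK d : d.Kf) : Qb) ^ 2 := by
    obtain ⟨i, hi, hi'⟩ := hprim.eq_pow_of_pow_eq_one (ξ := τ ((zK d : d.Kf) : Qb))
      (by rw [← map_pow, hz, map_one])
    rw [← hi']
    interval_cases i
    · exact absurd (τ.injective (by rw [← hi', pow_zero, map_one])) (hprim.ne_one (by norm_num))
    · exact absurd (by rw [← hi', pow_one]) hne
    · rfl
  rw [hc, hx]
  push_cast [zO_coe]
  simp [hz2]

/-! ### The places above a rational prime -/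

variable {p : ℕ}

/-- The place of `K` below a place of `ℚ̄`. -/
def idealOf (A : ValuationSubring Qb) : Ideal (𝓞 d.Kf) :=
  (IsLocalRing.maximalIdeal A).comap
    ({ toFun := fun x => ⟨((x : d.Kf) : Qb), by
        have hint : IsIntegral ℤ ((x : d.Kf) : Qb) :=
          (RingOfIntegers.isIntegral_coe x).map (d.Kf.val.restrictScalars ℤ)
        obtain ⟨y, hy⟩ := IsIntegrallyClosed.isIntegral_iff.mp
          (hint.tower_top (A := A))
        exact hy ▸ y.2⟩
       map_one' := rfl, map_mul' := fun _ _ => rfl, map_zero' := rfl,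
       map_add' := fun _ _ => rfl } : 𝓞 d.Kf →+* A)

theorem mem_idealOf (A : ValuationSubring Qb) (x : 𝓞 d.Kf) :
    x ∈ idealOf d A ↔ ((x : d.Kf) : Qb) ∈ A.nonunits := by
  rw [idealOf, Ideal.mem_comap]
  exact (ValuationSubring.coe_mem_nonunits_iff).symm

theorem idealOf_isPrime (A : ValuationSubring Qb) : (idealOf d A).IsPrime := Ideal.IsPrime.comap _

theorem natCast_mem_idealOf {A : ValuationSubring Qb} (hA : A.LiesOverPrime p) :
    (p : 𝓞 d.Kf) ∈ idealOf d A := by
  rw [mem_idealOf]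
  simpa [ValuationSubring.LiesOverPrime] using hA

/-- The place of `K` below `A`. -/
def placeOf {A : ValuationSubring Qb} (hp : p.Prime) (hA : A.LiesOverPrime p) :
    HeightOneSpectrum (𝓞 d.Kf) where
  asIdeal := idealOf d A
  isPrime := idealOf_isPrime d A
  ne_bot := fun h => by
    have := natCast_mem_idealOf d hA
    rw [h, Ideal.mem_bot, Nat.cast_eq_zero] at this
    exact hp.ne_zero this

theorem coe_coords_inj {a b a' b' : ℤ} (h : (a : 𝓞 d.Kf) + b * zO d = a' + b' * zO d) :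
    a = a' ∧ b = b' := by
  have hK := congrArg (fun x : 𝓞 d.Kf => (x : d.Kf)) h
  push_cast [zO_coe] at hK
  have hw := congrArg (Classical.arbitrary (InfinitePlace d.Kf)).embedding hK
  simp only [map_add, map_mul, map_intCast] at hw
  have him := congrArg Complex.im hw
  have hre := congrArg Complex.re hw
  simp [embedding_zK] at him hre
  set w := (Classical.arbitrary (InfinitePlace d.Kf))
  have hne : (w.embedding (zK d)).im ≠ 0 := fun h0 => by
    have he := congrArg Complex.re (congrArg w.embedding (zK_eq d))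
    simp only [map_add, map_pow, map_one, map_zero] at he
    simp [sq, Complex.mul_re, embedding_zK, h0] at he
    norm_num at he
  have hb : b = b' := by
    have : (b : ℝ) = b' := by
      rcases him with h1 | h1
      · exact_mod_cast h1
      · exact absurd h1 hne
    exact_mod_cast this
  refine ⟨?_, hb⟩
  have : (a : ℝ) = a' := by rw [hb] at hre; linarith
  exact_mod_cast this

theorem natCast_dvd_coords {n : ℕ} {a b : ℤ} (h : (n : 𝓞 d.Kf) ∣ a + b * zO d) :
    (n : ℤ) ∣ a ∧ (n : ℤ) ∣ b := by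
  obtain ⟨c, hc⟩ := h
  obtain ⟨a', b', rfl⟩ := exists_coords d c
  have := coe_coords_inj d (a := a) (b := b) (a' := n * a') (b' := n * b')
    (by rw [hc]; push_cast; ring)
  exact ⟨⟨a', this.1⟩, ⟨b', this.2⟩⟩

theorem mul_conjO (a b : ℤ) :
    ((a : 𝓞 d.Kf) + b * zO d) * (a + b * zO d ^ 2) = ((a ^ 2 - a * b + b ^ 2 : ℤ) : 𝓞 d.Kf) := by
  push_cast
  linear_combination ((a : 𝓞 d.Kf) * b + (b : 𝓞 d.Kf) ^ 2 * (zO d - 1)) * zO_eq d

theorem card_quotient_natCast (p : ℕ) :
    Nat.card (𝓞 d.Kf ⧸ Ideal.span {(p : 𝓞 d.Kf)}) = p ^ 2 := by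
  have h : Nat.card (𝓞 d.Kf ⧸ Ideal.span {(p : 𝓞 d.Kf)}) =
      Ideal.absNorm (Ideal.span {(p : 𝓞 d.Kf)}) := rfl
  rw [h, Ideal.absNorm_span_singleton, show (p : 𝓞 d.Kf) = algebraMap ℤ (𝓞 d.Kf) p by simp,
    Algebra.norm_algebraMap, RingOfIntegers.rank, finrank_Kf, Int.natAbs_pow, Int.natAbs_natCast]

/-- `p ≡ 2 mod 3` is inert. -/
theorem eq_span_of_mod_two (hp : p.Prime) (hp2 : p % 3 = 2) (v : HeightOneSpectrum (𝓞 d.Kf))
    (hv : (p : 𝓞 d.Kf) ∈ v.asIdeal) : v.asIdeal = Ideal.span {(p : 𝓞 d.Kf)} := by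
  have : Fact p.Prime := ⟨hp⟩
  refine le_antisymm (fun x hx => ?_) ((Ideal.span_singleton_le_iff_mem _).mpr hv)
  rw [Ideal.mem_span_singleton]
  obtain ⟨a, b, rfl⟩ := exists_coords d x
  suffices h : (p : ℤ) ∣ a ∧ (p : ℤ) ∣ b by
    obtain ⟨⟨a', rfl⟩, ⟨b', rfl⟩⟩ := h
    exact ⟨a' + b' * zO d, by push_cast; ring⟩
  have hN : (p : ℤ) ∣ a ^ 2 - a * b + b ^ 2 := by
    have hm : ((a ^ 2 - a * b + b ^ 2 : ℤ) : 𝓞 d.Kf) ∈ v.asIdeal := by
      rw [← mul_conjO]; exact v.asIdeal.mul_mem_right _ hx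
    by_contra hnd
    obtain ⟨u, w, huw⟩ := (Nat.prime_iff_prime_int.mp hp).coprime_iff_not_dvd.mpr hnd
    refine v.isPrime.ne_top ((Ideal.eq_top_iff_one _).mpr ?_)
    have h1 := v.asIdeal.add_mem (v.asIdeal.mul_mem_left (u : 𝓞 d.Kf) hv)
      (v.asIdeal.mul_mem_left (w : 𝓞 d.Kf) hm)
    have h2 : ((u * (p : ℤ) + w * (a ^ 2 - a * b + b ^ 2) : ℤ) : 𝓞 d.Kf) = 1 := by
      rw [huw, Int.cast_one]
    rw [← h2]
    push_cast at h1 ⊢
    exact h1
  simp only [← ZMod.intCast_zmod_eq_zero_iff_dvd] at hN ⊢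
  push_cast at hN
  have hcube : ((a : ZMod p)) ^ 3 = (-(b : ZMod p)) ^ 3 := by
    linear_combination ((a : ZMod p) + b) * hN
  obtain ⟨j, hj⟩ : ∃ j, 1 + 2 * (p - 1) = 3 * j := ⟨(1 + 2 * (p - 1)) / 3, by omega⟩
  have hroot : ∀ y : ZMod p, y ^ (3 * j) = y := fun y => by
    rcases eq_or_ne y 0 with rfl | hy
    · exact zero_pow (by omega)
    · rw [← hj, pow_add, pow_one, mul_comm 2, pow_mul, ZMod.pow_card_sub_one_eq_one hy, one_pow,
        mul_one]
  have hab : (a : ZMod p) = -(b : ZMod p) := by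
    rw [← hroot (a : ZMod p), ← hroot (-(b : ZMod p)), pow_mul, pow_mul, hcube]
  rw [hab] at hN
  have h3 : (3 : ZMod p) ≠ 0 := fun h => by
    have : p ∣ 3 := (ZMod.natCast_eq_zero_iff 3 p).mp (by simpa using h)
    have := (Nat.prime_dvd_prime_iff_eq hp Nat.prime_three).mp this
    omega
  have hb : (b : ZMod p) = 0 := by
    have : (3 : ZMod p) * (b : ZMod p) ^ 2 = 0 := by linear_combination hN
    exact pow_eq_zero_iff two_ne_zero |>.mp ((mul_eq_zero.mp this).resolve_left h3)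
  exact ⟨by rw [hab, hb, neg_zero], hb⟩

theorem card_quotient_of_mod_two (hp : p.Prime) (hp2 : p % 3 = 2) (v : HeightOneSpectrum (𝓞 d.Kf))
    (hv : (p : 𝓞 d.Kf) ∈ v.asIdeal) : Nat.card (𝓞 d.Kf ⧸ v.asIdeal) = p ^ 2 := by
  rw [eq_span_of_mod_two d hp hp2 v hv]
  exact card_quotient_natCast d p

/-- Generators and residue fields at `p ≡ 1 mod 3`. -/
theorem split_data (hp : p.Prime) (hp1 : p % 3 = 1) (v : HeightOneSpectrum (𝓞 d.Kf))
    (hv : (p : 𝓞 d.Kf) ∈ v.asIdeal) :
    Nat.card (𝓞 d.Kf ⧸ v.asIdeal) = p ∧ ∃ π : 𝓞 d.Kf,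
      v.asIdeal = Ideal.span {π} ∧ π * conjO d π = p ∧ conjO d π ∉ v.asIdeal := by
  have := pid_Kf d
  have : Fact p.Prime := ⟨hp⟩
  set π := Submodule.IsPrincipal.generator v.asIdeal
  have hπ : v.asIdeal = Ideal.span {π} := (Ideal.span_singleton_generator _).symm
  have hz : (p : 𝓞 d.Kf) ∈ v.asIdeal := hv
  -- the residue field is the prime field
  set k := 𝓞 d.Kf ⧸ v.asIdeal
  have hmax := v.isMaximal
  let _ : Field k := Ideal.Quotient.field _
  have hchar : CharP k p := by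
    have h0 : (p : k) = 0 := by
      rw [← map_natCast (Ideal.Quotient.mk v.asIdeal)]
      exact Ideal.Quotient.eq_zero_iff_mem.mpr hz
    exact (CharP.charP_iff_prime_eq_zero hp).mpr h0
  have : CharP k p := hchar
  have hzp : (Ideal.Quotient.mk v.asIdeal (zO d)) ^ p = Ideal.Quotient.mk v.asIdeal (zO d) := by
    obtain ⟨m, hm⟩ : ∃ m, p = 3 * m + 1 := ⟨p / 3, by omega⟩
    have h3 : zO d ^ 3 = 1 := by linear_combination (zO d - 1) * zO_eq d
    rw [← map_pow, hm, pow_succ, pow_mul, h3, one_pow, one_mul]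
  have hfix : ∀ y : k, y ^ p = y := fun y => by
    obtain ⟨x, rfl⟩ := Ideal.Quotient.mk_surjective y
    obtain ⟨a, b, rfl⟩ := exists_coords d x
    rw [map_add, map_mul, map_intCast, map_intCast, add_pow_char, mul_pow, hzp]
    have hint : ∀ n : ℤ, ((n : k)) ^ p = (n : k) := fun n => by
      have := congrArg (ZMod.castHom (dvd_refl p) k) (ZMod.pow_card (n : ZMod p))
      rwa [map_pow, map_intCast] at this
    rw [hint, hint]
  have hbij : Function.Bijective (ZMod.castHom (dvd_refl p) k) := by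
    refine ⟨(ZMod.castHom (dvd_refl p) k).injective, ?_⟩
    intro y
    by_contra hy
    push Not at hy
    classical
    have hroots : (Finset.univ.image (ZMod.castHom (dvd_refl p) k) ∪ {y}).card ≤ p := by
      have hP : (Polynomial.X ^ p - Polynomial.X : Polynomial k) ≠ 0 :=
        FiniteField.X_pow_card_sub_X_ne_zero k hp.one_lt
      refine le_trans (Finset.card_le_card (t := (Polynomial.X ^ p - Polynomial.X : Polynomial k).roots.toFinset)
        fun z _ => ?_) ((Multiset.toFinset_card_le _).trans ((Polynomial.card_roots' _).trans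
          (le_of_eq (FiniteField.X_pow_card_sub_X_natDegree_eq k hp.one_lt))))
      simp [hP, hfix z]
    rw [Finset.card_union_of_disjoint (by simpa using hy),
      Finset.card_image_of_injective _ (ZMod.castHom (dvd_refl p) k).injective, Finset.card_univ,
      ZMod.card, Finset.card_singleton] at hroots
    omega
  have hcard : Nat.card k = p := by
    rw [← Nat.card_eq_of_bijective _ hbij, Nat.card_eq_fintype_card, ZMod.card]
  refine ⟨hcard, π, hπ, ?_⟩
  obtain ⟨a, b, hab, hcb⟩ := conjO_spec d π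
  -- the norm
  have hnorm : (Algebra.norm ℤ π).natAbs = p := by
    rw [← Ideal.absNorm_span_singleton, ← hπ]
    exact hcard
  have hmul : π * conjO d π = ((a ^ 2 - a * b + b ^ 2 : ℤ) : 𝓞 d.Kf) := by
    rw [hcb, ← mul_conjO, ← hab]
  have hN : a ^ 2 - a * b + b ^ 2 = p := by
    have e1 : ((Algebra.norm ℤ π : ℤ) : ℚ) = Algebra.norm ℚ (π : d.Kf) := Algebra.coe_norm_int π
    have e2 := InfinitePlace.prod_eq_abs_norm (π : d.Kf)
    have := subsingleton_places d
    have := isTotallyComplex_Kf d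
    have hu : (Finset.univ : Finset (InfinitePlace d.Kf)) = {wInf d} :=
      Finset.eq_singleton_iff_unique_mem.mpr ⟨Finset.mem_univ _, fun _ _ => Subsingleton.elim _ _⟩
    have hmult : (wInf d).mult = 2 :=
      InfinitePlace.mult_isComplex ⟨_, IsTotallyComplex.isComplex (wInf d)⟩
    rw [hu, Finset.prod_singleton, hmult, ← InfinitePlace.norm_embedding_eq,
      ← Complex.normSq_eq_norm_sq, ← e1, ← Int.cast_abs, Int.abs_eq_natAbs, hnorm] at e2
    have hns : Complex.normSq ((wInf d).embedding (π : d.Kf)) =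
        ((a ^ 2 - a * b + b ^ 2 : ℤ) : ℝ) := by
      rw [hab]
      push_cast [zO_coe]
      simp only [map_add, map_mul, map_intCast]
      have h := congrArg (wInf d).embedding (zK_eq d)
      simp only [map_add, map_pow, map_one, map_zero] at h
      have hre := congrArg Complex.re h
      simp [sq, Complex.mul_re, embedding_zK] at hre
      rw [Complex.normSq_apply]
      simp [embedding_zK]
      linear_combination (-(b : ℝ) ^ 2) * hre
    rw [hns] at e2
    push_cast at e2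
    exact_mod_cast e2
  refine ⟨by rw [hmul, hN, Int.cast_natCast], fun hc => ?_⟩
  -- the two places are different
  rw [hπ, Ideal.mem_span_singleton] at hc
  have hsq : (p : 𝓞 d.Kf) ∣ conjO d π ^ 2 := by
    rw [sq, ← Int.cast_natCast p, ← hN, ← hmul]
    exact mul_dvd_mul_right hc _
  rw [hcb] at hsq
  have e : ((a : 𝓞 d.Kf) + b * zO d ^ 2) ^ 2 =
      (((a - b) ^ 2 : ℤ) : 𝓞 d.Kf) * 1 + ((-(2 * b * (a - b)) : ℤ) : 𝓞 d.Kf) * zO d +
        ((b ^ 2 : ℤ) : 𝓞 d.Kf) * zO d ^ 2 := by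
    push_cast
    linear_combination (b : 𝓞 d.Kf) * (2 * (a : 𝓞 d.Kf) + (b : 𝓞 d.Kf) * (zO d ^ 2 - zO d - 1)) * zO_eq d
  have e2 : ((a : 𝓞 d.Kf) + b * zO d ^ 2) ^ 2 =
      (((a - b) ^ 2 - b ^ 2 : ℤ) : 𝓞 d.Kf) + ((-(2 * b * (a - b)) - b ^ 2 : ℤ) : 𝓞 d.Kf) * zO d := by
    rw [e]; push_cast
    linear_combination (b : 𝓞 d.Kf) ^ 2 * zO_eq d
  rw [e2] at hsq
  obtain ⟨h1, h2⟩ := natCast_dvd_coords d hsq
  have hp' := Nat.prime_iff_prime_int.mp hp
  -- `p ∣ a (a - 2b)` and `p ∣ b (2a - b)`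
  have hba : (p : ℤ) ∣ b ∧ (p : ℤ) ∣ a := by
    rcases hp'.dvd_or_dvd (show (p : ℤ) ∣ b * (2 * a - b) by
      rw [show b * (2 * a - b) = -(-(2 * b * (a - b)) - b ^ 2) by ring]; exact h2.neg_right) with hb | hb
    · refine ⟨hb, hp'.dvd_of_dvd_pow (n := 2) ?_⟩
      have : a ^ 2 = ((a - b) ^ 2 - b ^ 2) + b * (2 * a) := by ring
      rw [this]
      exact h1.add (hb.mul_right _)
    · have h3 : (p : ℤ) ∣ 3 * a ^ 2 := by
        have : 3 * a ^ 2 = -((a - b) ^ 2 - b ^ 2) + (2 * a - b) * (2 * a) := by ring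
        rw [this]
        exact h1.neg_right.add (hb.mul_right _)
      rcases hp'.dvd_or_dvd h3 with h3 | h3
      · have := Int.le_of_dvd (by norm_num) h3
        have := hp.two_le
        omega
      · have ha := hp'.dvd_of_dvd_pow h3
        refine ⟨?_, ha⟩
        rw [show b = 2 * a - (2 * a - b) by ring]
        exact (ha.mul_left 2).sub hb
  have hpp : (p : ℤ) * p ∣ p := by
    obtain ⟨⟨b', hb'⟩, ⟨a', ha'⟩⟩ := hba
    refine ⟨a' ^ 2 - a' * b' + b' ^ 2, ?_⟩
    conv_lhs => rw [← hN, ha', hb']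
    ring
  have := Int.le_of_dvd (by exact_mod_cast hp.pos) hpp
  nlinarith [hp.two_le]

end FLTAgent.LT.Asai
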