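import Fermat.Agent.LT.Asai.Mode
import Fermat.Agent.LT.Asai.Kfield
import Fermat.Agent.EisIndex.Theta.Poisson

/-!
# The Fourier expansion on upper half space and its restriction to horizontal lines
-/

set_option autoImplicit false

noncomputable section

namespace FLTAgent.LT.Asai

open MeasureTheory NumberField Set Complex RS
open scoped Real

theorem summable_exp_abs {ι : Type*} [Fintype ι] {a : ℝ} (ha : 0 < a) :
    Summable fun k : ι → ℤ => Real.exp (-(a * ∑ i, |(k i : ℝ)|)) := by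
  have h1 : Summable fun j : ℤ => Real.exp (-(a * |(j : ℝ)|)) := by
    have hn : Summable fun j : ℕ => Real.exp (-(a * j)) :=
      (Real.summable_exp_nat_mul_iff.2 (neg_neg_of_pos ha)).congr fun j => by ring_nf
    refine Summable.of_nat_of_neg ?_ ?_ <;>
    · refine hn.congr fun j => ?_
      simp
  have h2 := EisIndex.Theta.summable_prod_fn (n := Fintype.card ι)
    (f := fun _ j => Real.exp (-(a * |(j : ℝ)|))) (fun _ _ => (Real.exp_pos _).le) fun _ => h1
  set e := Fintype.equivFin ι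
  rw [← (Equiv.arrowCongr e (Equiv.refl ℤ)).summable_iff] at h2
  refine h2.congr fun k => ?_
  simp only [Function.comp_apply, ← Real.exp_sum, Finset.mul_sum, Finset.sum_neg_distrib]
  congr 1
  rw [← e.sum_comp]
  simp [Equiv.arrowCongr]

/-- Periodic functions with summable coefficients are their Fourier series. -/
theorem hasSum_fc {ι : Type*} [Fintype ι] {f : (ι → ℝ) → ℂ} (hf : ZPeriodic f)
    (hs : Summable (fc f)) (y : ι → ℝ) :
    HasSum (fun k => fc f k * Theta31.echar k y) (f y) := by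
  have hc : fc f = UnitAddTorus.mFourierCoeff (torusMap hf) := funext (fc_eq_mFourierCoeff hf)
  rw [hc] at hs ⊢
  have h := (UnitAddTorus.hasSum_mFourier_series_of_summable hs).map
    (ContinuousMap.evalCLM ℂ (Theta31.toTorus y)) (ContinuousMap.evalCLM ℂ _).continuous
  convert h using 1
  · funext k
    simp [Theta31.mFourier_toTorus]
  · exact (torusFun_toTorus hf y).symm

variable {d : Octa}

instance isTotallyComplexKf (d : Octa) : IsTotallyComplex d.Kf := isTotallyComplex_Kf d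

/-- The coefficient for the explicit mode. -/
abbrev cA (ψ : Form d.Kf) (g : GF d.Kf) (ξ : d.Kf) : ℂ := coefA ψ kC 1 g ξ

/-- The absolute value of an element. -/
abbrev absK (ξ : d.Kf) : ℝ := wInf d ξ

theorem place_eq (w : InfinitePlace d.Kf) : w = wInf d :=
  (subsingleton_places d).elim _ _

theorem univ_places : (Finset.univ : Finset (InfinitePlace d.Kf)) = {wInf d} :=
  Finset.eq_singleton_iff_unique_mem.2 ⟨Finset.mem_univ _, fun w _ => place_eq w⟩

theorem trPair_eq (ξ : d.Kf) (z : InfinitePlace d.Kf → ℂ) :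
    trPair ξ z = 2 * ((wInf d).embedding ξ * z (wInf d)).re := by
  rw [trPair, univ_places, Finset.sum_singleton]

theorem trace_eq_re (ξ : d.Kf) :
    ((Algebra.trace ℚ d.Kf ξ : ℚ) : ℝ) = 2 * ((wInf d).embedding ξ).re := by
  rw [trace_eq_sum_places, univ_places, Finset.sum_singleton]

theorem modeProd_eq (ξ : d.Kf) (t : Tinf d.Kf) :
    modeProd kC ξ t = kC (absK ξ * t (wInf d)) := by
  rw [modeProd, univ_places, Finset.prod_singleton]

/-- The lattice points are not too small. -/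
theorem exists_lattice_le {m : ℕ} (hm : 0 < m) :
    ∃ c : ℝ, 0 < c ∧ ∀ k : Idx d.Kf → ℤ, c * ∑ i, |(k i : ℝ)| ≤ absK (xiOf (F := d.Kf) m k) := by
  set S : ℝ := ∑ i : Idx d.Kf, 2 * m * absK (d := d) (RingOfIntegers.basis d.Kf i : d.Kf)
  have hS : 0 ≤ S := Finset.sum_nonneg fun i _ => by positivity
  refine ⟨(S + 1)⁻¹, by positivity, fun k => ?_⟩
  rw [inv_mul_le_iff₀ (by positivity)]
  set ξ := xiOf (F := d.Kf) m k
  have h : ∀ i, |(k i : ℝ)| ≤ absK ξ * (2 * m * absK (RingOfIntegers.basis d.Kf i : d.Kf)) :=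
    fun i => by
    have e := congrArg (fun q : ℚ => (q : ℝ)) (freq_xiOf (F := d.Kf) hm k i)
    simp only [freq, Rat.cast_mul, Rat.cast_natCast, Rat.cast_intCast, trace_eq_re] at e
    rw [← e, abs_mul, Nat.abs_cast, abs_mul, abs_two]
    calc (m : ℝ) * (2 * |((wInf d).embedding (ξ * _)).re|)
        ≤ (m : ℝ) * (2 * absK (ξ * (RingOfIntegers.basis d.Kf i : d.Kf))) := by
          gcongr
          exact (Complex.abs_re_le_norm _).trans_eq (InfinitePlace.norm_embedding_eq _ _)
      _ = _ := by simp only [absK, map_mul]; ring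
  refine (Finset.sum_le_sum fun i _ => h i).trans ?_
  rw [← Finset.mul_sum]
  calc absK ξ * S ≤ absK ξ * (S + 1) := by gcongr; linarith
    _ = (S + 1) * absK ξ := mul_comm _ _

/-- The point of the plane `z + y j`. -/
def ptK (d : Octa) (z : ℂ) (y : Ioi (0 : ℝ)) : Xinf d.Kf := fun _ => (z, y)

variable {ψ : Form d.Kf} {N : ℕ} {g : GF d.Kf} {m : ℕ}

theorem wh_eq (hψ : CuspZero N ψ) (k : Idx d.Kf → ℤ) (y : Ioi (0 : ℝ)) :
    wh ψ g (xiOf m k) (fun _ => y) = cA ψ g (xiOf m k) * kC (absK (xiOf (F := d.Kf) m k) * y) := by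
  by_cases h : xiOf (F := d.Kf) m k = 0
  · rw [h, wh_zero (hψ.cont g) hψ.cusp]
    simp [cA, coefA]
  · rw [wh_eq_coefA_mul (hψ.cont g) hψ.bdd hψ.eigen refMode_kC h, modeProd_eq]

/-- Bound for the terms of the expansion. -/
theorem exists_term_le (hψ : CuspZero N ψ) (hm : 0 < m) :
    ∃ C c : ℝ, 0 ≤ C ∧ 0 < c ∧ ∀ (g : GF d.Kf) (k : Idx d.Kf → ℤ) (y : ℝ), 0 < y →
      ‖cA ψ g (xiOf m k) * kC (absK (xiOf (F := d.Kf) m k) * y)‖ ≤
        if k = 0 then 0 else C * Real.exp (-(c * y * ∑ i, |(k i : ℝ)|)) := by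
  obtain ⟨A, hA0, hA⟩ := exists_coefA_bound hψ.cont hψ.bdd kC 1
  obtain ⟨B, hB0, hB⟩ := exists_kR_le
  obtain ⟨c, hc, hlat⟩ := exists_lattice_le (d := d) hm
  refine ⟨A * B, c, by positivity, hc, fun g k y hy => ?_⟩
  split_ifs with hk
  · subst hk
    simp [xiOf_zero, cA, coefA]
  · have hξ : xiOf (F := d.Kf) m k ≠ 0 := fun h => hk (by
      rw [← kvec_xiOf (F := d.Kf) hm k, h, ← xiOf_zero m, kvec_xiOf hm])
    have ha : 0 < absK (xiOf (F := d.Kf) m k) := (wInf d).pos_iff.2 hξ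
    rw [norm_mul, norm_kC (mul_pos ha hy).le, mul_assoc A]
    refine mul_le_mul (hA _ _) ((hB _ (mul_pos ha hy)).trans ?_)
      (kR_nonneg (mul_pos ha hy).le) hA0
    refine mul_le_mul_of_nonneg_left (Real.exp_le_exp.2 (neg_le_neg ?_)) hB0
    calc c * y * ∑ i, |(k i : ℝ)| = (c * ∑ i, |(k i : ℝ)|) * y := by ring
      _ ≤ _ := mul_le_mul_of_nonneg_right (hlat k) hy.le

theorem summable_term (hψ : CuspZero N ψ) (hm : 0 < m) (g : GF d.Kf) {y : ℝ} (hy : 0 < y) :
    Summable fun k : Idx d.Kf → ℤ => ‖cA ψ g (xiOf m k) * kC (absK (xiOf (F := d.Kf) m k) * y)‖ := by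
  obtain ⟨C, c, hC, hc, h⟩ := exists_term_le hψ hm
  refine ((summable_exp_abs (ι := Idx d.Kf) (mul_pos hc hy)).mul_left C).of_nonneg_of_le
    (fun k => norm_nonneg _) fun k => (h g k y hy).trans ?_
  split_ifs <;> [positivity; exact le_rfl]

/-- The expansion. -/
theorem hasSum_expansion (hψ : CuspZero N ψ) (hp : HasPeriod ψ g m) (z : ℂ) (y : Ioi (0 : ℝ)) :
    HasSum (fun k => cA ψ g (xiOf m k) * kC (absK (xiOf (F := d.Kf) m k) * y) *
      trChar (xiOf m k) fun _ => z) (ψ (ptK d z y) g) := by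
  set t : Tinf d.Kf := fun _ => y
  have hz := zperiodic_periodFun (hψ.cont g) hp t
  have hfc : ∀ k, fc (periodFun ψ g m t) k =
      cA ψ g (xiOf m k) * kC (absK (xiOf (F := d.Kf) m k) * y) := fun k => by
    rw [fc_periodFun_eq_wh (hψ.cont g) hp, wh_eq hψ]
  set y0 := (boxEquiv d.Kf).symm fun _ => z / (m : ℂ)
  have hb : boxVec m y0 = fun _ => z := by
    rw [boxVec_eq_smul, ← boxEquiv_apply, LinearEquiv.apply_symm_apply]
    funext w
    simp only [Pi.smul_apply, Complex.real_smul, Complex.ofReal_natCast]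
    rw [mul_div_cancel₀ _ (Nat.cast_ne_zero.2 hp.pos.ne')]
  have hs : Summable (fc (periodFun ψ g m t)) :=
    (summable_term hψ hp.pos g y.2).of_norm.congr fun k => (hfc k).symm
  have h := hasSum_fc hz hs y0
  have e : periodFun ψ g m t y0 = ψ (ptK d z y) g := by
    rw [periodFun, hb]
    rfl
  rw [e] at h
  refine h.congr_fun fun k => ?_
  rw [hfc, ← hb, ← echar_kvec (isDual_xiOf hp.pos k), kvec_xiOf hp.pos]

/-- Rapid decay in the height. -/
theorem exists_decay (hψ : CuspZero N ψ) (hp : HasPeriod ψ g m) :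
    ∃ C ε : ℝ, 0 < ε ∧ ∀ (z : ℂ) (y : Ioi (0 : ℝ)), 1 ≤ (y : ℝ) →
      ‖ψ (ptK d z y) g‖ ≤ C * Real.exp (-(ε * y)) := by
  obtain ⟨C, c, hC, hc, hb⟩ := exists_term_le hψ hp.pos
  set G : (Idx d.Kf → ℤ) → ℝ := fun k => Real.exp (-(c / 2 * ∑ i, |(k i : ℝ)|))
  have hG : Summable G := summable_exp_abs (by positivity)
  refine ⟨C * ∑' k, G k, c / 2, by positivity, fun z y hy => ?_⟩
  have hle : ∀ k, ‖cA ψ g (xiOf m k) * kC (absK (xiOf (F := d.Kf) m k) * y) *
      trChar (xiOf m k) fun _ => z‖ ≤ C * Real.exp (-(c / 2 * y)) * G k := fun k => by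
    rw [norm_mul, norm_trChar, mul_one]
    refine (hb g k y y.2).trans ?_
    split_ifs with hk
    · positivity
    · simp only [G]
      rw [mul_assoc C, ← Real.exp_add]
      gcongr
      obtain ⟨i, hi⟩ := Function.ne_iff.1 hk
      have h1 : 1 ≤ ∑ i, |(k i : ℝ)| :=
        le_trans (by exact_mod_cast Int.one_le_abs hi)
          (Finset.single_le_sum (fun i _ => abs_nonneg (k i : ℝ)) (Finset.mem_univ i))
      nlinarith [mul_nonneg (sub_nonneg.2 h1) (sub_nonneg.2 hy)]
  rw [← (hasSum_expansion hψ hp z y).tsum_eq]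
  refine (tsum_of_norm_bounded (hG.hasSum.mul_left _) hle).trans_eq ?_
  ring

/-- A full period kills the frequencies off the imaginary axis. -/
theorem integral_trChar_line {M : ℕ} (hm : 0 < m) (hmM : m ∣ M) (k : Idx d.Kf → ℤ) :
    ∫ x in Ico (0 : ℝ) M, trChar (xiOf (F := d.Kf) m k) (fun _ => (x : ℂ)) =
      if ((wInf d).embedding (xiOf m k)).re = 0 then (M : ℂ) else 0 := by
  set ξ := xiOf (F := d.Kf) m k
  set a : ℝ := 4 * π * ((wInf d).embedding ξ).re
  have he : ∀ x : ℝ, trChar ξ (fun _ => (x : ℂ)) = cexp (((a : ℂ) * I) * x) := fun x => by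
    rw [trChar, trPair_eq, Complex.re_mul_ofReal]
    simp only [a]
    push_cast
    ring_nf
  simp only [he]
  rw [integral_Ico_eq_integral_Ioc, ← intervalIntegral.integral_of_le (Nat.cast_nonneg M)]
  split_ifs with h
  · simp [a, h]
  · have ha : (a : ℂ) * I ≠ 0 :=
      mul_ne_zero (ofReal_ne_zero.2 (mul_ne_zero (by positivity) h)) I_ne_zero
    obtain ⟨v, hv⟩ := exists_intOf (F := d.Kf) 1
    obtain ⟨q, rfl⟩ := hmM
    have hint : (m : ℝ) * (2 * ((wInf d).embedding ξ).re) = ((∑ i, v i * k i : ℤ) : ℝ) := by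
      rw [← trace_eq_re]
      have e : ξ = ∑ i, (v i : d.Kf) * (ξ * (RingOfIntegers.basis d.Kf i : d.Kf)) := by
        have h1 := congrArg (fun x : 𝓞 d.Kf => ξ * (x : d.Kf)) hv
        simp only [intOf, map_sum, map_one, mul_one] at h1
        conv_lhs => rw [← h1, Finset.mul_sum]
        refine Finset.sum_congr rfl fun i _ => ?_
        simp [zsmul_eq_mul]
        ring
      have e2 : (m : ℚ) * Algebra.trace ℚ d.Kf ξ = ((∑ i, v i * k i : ℤ) : ℚ) := by
        conv_lhs => rw [e, map_sum, Finset.mul_sum]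
        push_cast
        refine Finset.sum_congr rfl fun i _ => ?_
        rw [← zsmul_eq_mul, map_zsmul, zsmul_eq_mul, ← freq_xiOf (F := d.Kf) hm k i, freq]
        ring
      exact_mod_cast e2
    rw [integral_exp_mul_complex ha, Complex.ofReal_zero, mul_zero, Complex.exp_zero, div_eq_zero_iff]
    left
    rw [sub_eq_zero, Complex.exp_eq_one_iff]
    refine ⟨q * ∑ i, v i * k i, ?_⟩
    have e3 : a * ((m * q : ℕ) : ℝ) = ((q * ∑ i, v i * k i : ℤ) : ℝ) * (2 * π) := by
      simp only [a]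
      push_cast at hint ⊢
      rw [← hint]
      ring
    have e4 := congrArg (fun r : ℝ => (r : ℂ) * I) e3
    push_cast at e4 ⊢
    linear_combination e4

/-- The frequencies on the imaginary axis. -/
def axisTerm (c : d.Kf → ℂ) (m : ℕ) (y : ℝ) (k : Idx d.Kf → ℤ) : ℂ :=
  if ((wInf d).embedding (xiOf m k)).re = 0 then
    c (xiOf m k) * kC (absK (xiOf (F := d.Kf) m k) * y) else 0

theorem summable_axisTerm (hψ : CuspZero N ψ) (hm : 0 < m) (g : GF d.Kf) {y : ℝ} (hy : 0 < y) :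
    Summable (axisTerm (cA ψ g) m y) := by
  refine .of_norm ((summable_term hψ hm g hy).of_nonneg_of_le (fun k => norm_nonneg _) fun k => ?_)
  rw [axisTerm]
  split_ifs
  · exact le_rfl
  · simpa using mul_nonneg (norm_nonneg _) (norm_nonneg _)

/-- The constant term of the restriction to the plane. -/
theorem integral_line {M : ℕ} (hψ : CuspZero N ψ) (hp : HasPeriod ψ g m) (hmM : m ∣ M)
    (y : Ioi (0 : ℝ)) :
    ∫ x in Ico (0 : ℝ) M, ψ (ptK d (x : ℂ) y) g = (M : ℂ) * ∑' k, axisTerm (cA ψ g) m y k := by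
  set T : (Idx d.Kf → ℤ) → ℝ → ℂ := fun k x =>
    cA ψ g (xiOf m k) * kC (absK (xiOf (F := d.Kf) m k) * y) * trChar (xiOf m k) fun _ => (x : ℂ)
  have hc : ∀ k, Continuous (T k) := fun k =>
    continuous_const.mul ((continuous_trChar _).comp (by fun_prop))
  have hfin : volume (Ico (0 : ℝ) M) ≠ ⊤ := by simp
  have hnorm : ∀ k, ∫ x in Ico (0 : ℝ) M, ‖T k x‖ =
      (M : ℝ) * ‖cA ψ g (xiOf m k) * kC (absK (xiOf (F := d.Kf) m k) * y)‖ := fun k => by
    simp [T, norm_trChar]
  rw [← tsum_mul_left, setIntegral_congr_fun measurableSet_Ico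
      (g := fun x => ∑' k, T k x) fun x _ => (hasSum_expansion hψ hp x y).tsum_eq.symm,
    ← integral_tsum_of_summable_integral_norm (fun k => (hc k).integrableOn_Icc.mono_set Ico_subset_Icc_self)
      (((summable_term hψ hp.pos g y.2).mul_left (M : ℝ)).congr fun k => (hnorm k).symm)]
  refine tsum_congr fun k => ?_
  simp only [T, integral_const_mul, integral_trChar_line hp.pos hmM, axisTerm]
  split_ifs <;> ring

end FLTAgent.LT.Asai
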