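import Fermat.Agent.LT.Asai.Places
import Fermat.Agent.LT.Asai.EulerFinsupp
import Fermat.Agent.LT.RS.SelfBound

/-!
# The mean square bound at the good places of `ℚ(√-3)`
-/

set_option autoImplicit false

noncomputable section

namespace FLTAgent.LT.Asai

open NumberField IsDedekindDomain RS

variable {d : Octa} {ψ : Form d.Kf} {N : ℕ}

local notation "HS" => HeightOneSpectrum (𝓞 d.Kf)

/-- The mean squares of the normalised eigenvalues satisfy `SelfBound`. -/
theorem selfBound_holds [IsTotallyComplex d.Kf] (hN : 0 < N) (hψ : CuspZero N ψ)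
    (hfe : FullEigen N ψ) (hne : ψ ≠ 0) : SelfBound d N ψ := by
  classical
  obtain ⟨x, hx⟩ := Function.ne_iff.1 hne
  obtain ⟨g, hg⟩ := Function.ne_iff.1 hx
  obtain ⟨C, hC, hb⟩ :=
    exists_selfBound_tsum hN hψ (c := cV ψ) (fun v hv => hecke_cV hfe hv) hg
  let G : Set (HS →₀ ℕ) := {n | ∀ v ∈ n.support, (N : 𝓞 d.Kf) ∉ v.asIdeal}
  have hsingle : ∀ (v : HS), (N : 𝓞 d.Kf) ∉ v.asIdeal → ∀ k, Finsupp.single v k ∈ G :=
    fun v hv k w hw => by
      rwa [Finset.mem_singleton.1 (Finsupp.support_single_subset hw)]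
  refine ⟨fun s hs v hv => ?_, C, hC, fun s hs T hT => ?_⟩
  · refine (((hb s hs.1 hs.2).1).comp_injective
      (i := fun k => (⟨Finsupp.single v k, hsingle v hv k⟩ : G))
      fun a b h => Finsupp.single_injective v (congrArg Subtype.val h)).congr fun k => ?_
    show selfTerm (cV ψ) s (Finsupp.single v k) = _
    rw [selfTerm, Finsupp.prod_single_index (by simp [cheb])]
    rfl
  · let f : HS → ℕ → ℂ := fun v k => if (N : 𝓞 d.Kf) ∈ v.asIdeal then (if k = 0 then 1 else 0)
      else ((cheb (aN ψ v) k ^ 2 * ((qv v : ℝ) ^ (-s)) ^ k : ℝ) : ℂ)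
    have h0 : ∀ v, f v 0 = 1 := fun v => by simp [f, cheb]
    let tR : (HS →₀ ℕ) → ℝ := G.indicator (selfTerm (cV ψ) s)
    have hval : ∀ n, n.prod f = (tR n : ℂ) := fun n => by
      by_cases h : n ∈ G
      · simp only [tR, Set.indicator_of_mem h, selfTerm, Finsupp.prod, Complex.ofReal_prod]
        exact Finset.prod_congr rfl fun v hv => by simp only [f, if_neg (h v hv)]; rfl
      · simp only [tR, Set.indicator_of_notMem h]
        simp only [G, Set.mem_ofPred_eq, not_forall, not_not, exists_prop] at h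
        obtain ⟨v, hv, hvN⟩ := h
        rw [Finsupp.prod, Finset.prod_eq_zero hv (by
          simp [f, hvN, Finsupp.mem_support_iff.1 hv]), Complex.ofReal_zero]
    have htR : Summable tR := summable_subtype_iff_indicator.1 (hb s hs.1 hs.2).1
    have htR0 : ∀ n, 0 ≤ tR n := fun n => Set.indicator_nonneg (fun m _ =>
      Finset.prod_nonneg fun v _ => mul_nonneg (sq_nonneg _) (by positivity)) n
    have hsf : Summable fun n : HS →₀ ℕ => n.prod f :=
      (Complex.summable_ofReal.2 htR).congr fun n => (hval n).symm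
    have h := hasSum_prod_of_support f h0 hsf T
    have hprod : ∏ v ∈ T, ∑' k, f v k =
        ((∏ v ∈ T, rsReal (aN ψ v) (aN ψ v) ((qv v : ℝ) ^ (-s)) : ℝ) : ℂ) := by
      rw [Complex.ofReal_prod]
      refine Finset.prod_congr rfl fun v hv => ?_
      rw [rsReal, Complex.ofReal_tsum]
      exact tsum_congr fun k => by simp only [f, if_neg (hT v hv)]; push_cast; ring
    rw [hprod] at h
    simp only [hval] at h
    rw [Complex.hasSum_ofReal] at h
    rw [← h.tsum_eq]
    refine (h.summable.tsum_le_tsum_of_inj Subtype.val Subtype.val_injective (fun n _ => htR0 n)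
      (fun n => le_rfl) htR).trans ?_
    rw [← tsum_subtype G (selfTerm (cV ψ) s)]
    exact (hb s hs.1 hs.2).2

end FLTAgent.LT.Asai
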