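import Fermat.Agent.LT.Asai.Coef
import Fermat.Agent.LT.Asai.Euler

/-!
# The series over numbers prime to the bad primes

The multiplicative series of the products of the eigenvalues at the places over each prime is
summable to the right of `1` and cannot stay bounded at `1`.
-/

set_option autoImplicit false

noncomputable section

namespace FLTAgent.LT.Asai

open NumberField IsDedekindDomain

variable {d : Octa} {ψ : Form d.Kf} {N M : ℕ}

local notation "HS" => HeightOneSpectrum (𝓞 d.Kf)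

/-- The coefficients of the series, cut to the numbers prime to `M`. -/
def serF (ψ : Form d.Kf) (M n : ℕ) : ℝ := if n.Coprime M then fSer ψ n else 0

theorem eulerF_zero (p : ℕ) : eulerF (d := d) ψ p 0 = 1 := by simp [eulerF, cheb]

theorem fSer_prime_pow {p : ℕ} (hp : p.Prime) (k : ℕ) :
    fSer ψ (p ^ k) = eulerF ψ p k := by
  rw [fSer, if_neg (pow_ne_zero k hp.ne_zero), hp.factorization_pow,
    Finsupp.prod_single_index (eulerF_zero p)]

theorem fSer_mul {m n : ℕ} (h : m.Coprime n) : fSer ψ (m * n) = fSer ψ m * fSer ψ n := by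
  rcases eq_or_ne m 0 with rfl | hm
  · simp [fSer]
  rcases eq_or_ne n 0 with rfl | hn
  · simp [fSer]
  rw [fSer, fSer, fSer, if_neg (mul_ne_zero hm hn), if_neg hm, if_neg hn,
    Nat.factorization_mul_of_coprime h]
  exact Finsupp.prod_add_index_of_disjoint
    (by simpa [Nat.support_factorization] using h.disjoint_primeFactors) _

theorem serF_zero : serF ψ M 0 = 0 := by simp [serF, fSer]

theorem serF_one : serF ψ M 1 = 1 := by simp [serF, fSer]

theorem serF_mul {m n : ℕ} (h : m.Coprime n) :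
    serF ψ M (m * n) = serF ψ M m * serF ψ M n := by
  simp only [serF, Nat.coprime_mul_iff_left, fSer_mul h, ite_mul, mul_ite, zero_mul, mul_zero]
  by_cases hm : m.Coprime M <;> by_cases hn : n.Coprime M
  · rw [if_pos ⟨hm, hn⟩, if_pos hn, if_pos hm]
  · rw [if_neg fun e => hn e.2, if_neg hn]
  · rw [if_neg fun e => hm e.1, if_pos hn, if_neg hm]
  · rw [if_neg fun e => hn e.2, if_neg hn]

theorem serF_prime_pow {p : ℕ} (hp : p.Prime) (k : ℕ) :
    serF ψ M (p ^ k) = if k = 0 then 1 else if p ∣ M then 0 else eulerF ψ p k := by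
  rcases eq_or_ne k 0 with rfl | hk
  · rw [pow_zero, if_pos rfl, serF_one]
  · rw [if_neg hk, serF, fSer_prime_pow hp]
    simp only [Nat.coprime_pow_left_iff (Nat.pos_of_ne_zero hk), hp.coprime_iff_not_dvd]
    by_cases h : p ∣ M <;> simp [h]

theorem serF_prime_pow_of_not_dvd {p : ℕ} (hp : p.Prime) (hpM : ¬ p ∣ M) (k : ℕ) :
    serF ψ M (p ^ k) = eulerF ψ p k := by
  rw [serF_prime_pow hp, if_neg hpM]
  rcases eq_or_ne k 0 with rfl | hk
  · rw [if_pos rfl, eulerF_zero]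
  · rw [if_neg hk]

theorem cast_pow_rpow (p k : ℕ) (s : ℝ) :
    ((p ^ k : ℕ) : ℝ) ^ (-s) = ((p : ℝ) ^ (-s)) ^ k := by
  push_cast
  rw [← Real.rpow_natCast (p : ℝ) k, ← Real.rpow_mul (Nat.cast_nonneg p),
    ← Real.rpow_natCast ((p : ℝ) ^ (-s)) k, ← Real.rpow_mul (Nat.cast_nonneg p), mul_comm (k : ℝ)]

/-- The mean square factor, `1` at the bad primes. -/
def eulerE' (ψ : Form d.Kf) (M p : ℕ) (s : ℝ) : ℝ := if p ∣ M then 1 else eulerE ψ p s

theorem not_dvd_level (hNM : N ∣ M) {p : ℕ} (h : ¬ p ∣ M) : ¬ p ∣ N := fun h' => h (h'.trans hNM)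

theorem eulerE'_nonneg (hself : SelfBound d N ψ) (hNM : N ∣ M) {p : ℕ} (hp : p.Prime) {s : ℝ}
    (hs : s ∈ Set.Ioc (1 : ℝ) 2) : 0 ≤ eulerE' ψ M p s := by
  rw [eulerE']
  split_ifs with h
  · exact zero_le_one
  · refine Finset.prod_nonneg fun v hv => zero_le_one.trans ?_
    exact one_le_rsReal_self (Real.rpow_nonneg (Nat.cast_nonneg _) _)
      (hself.1 s hs v (notMem_of_above (not_dvd_level hNM h) hp hv))

/-- The products of the mean square factors. -/
theorem exists_prod_eulerE'_le (hself : SelfBound d N ψ) (hNM : N ∣ M) :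
    ∃ C : ℝ, 0 < C ∧ ∀ s ∈ Set.Ioc (1 : ℝ) 2, ∀ T : Finset ℕ, (∀ p ∈ T, p.Prime) →
      ∏ p ∈ T, eulerE' ψ M p s ≤ C / (s - 1) := by
  classical
  obtain ⟨C, hC, hb⟩ := hself.2
  refine ⟨C, hC, fun s hs T hT => ?_⟩
  have h1 : ∏ p ∈ T, eulerE' ψ M p s = ∏ p ∈ T.filter fun p => ¬ p ∣ M, eulerE ψ p s := by
    rw [Finset.prod_filter]
    refine Finset.prod_congr rfl fun p _ => ?_
    by_cases h : p ∣ M <;> simp [eulerE', h]
  rw [h1]
  simp only [eulerE]
  rw [← Finset.prod_biUnion fun p hp q hq hpq => Finset.disjoint_left.2 fun v hv =>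
    above_disjoint (hT p (Finset.mem_filter.1 hp).1) (hT q (Finset.mem_filter.1 hq).1) hpq hv]
  refine hb s hs _ fun v hv => ?_
  obtain ⟨p, hp, hv⟩ := Finset.mem_biUnion.1 hv
  exact notMem_of_above (not_dvd_level hNM (Finset.mem_filter.1 hp).2)
    (hT p (Finset.mem_filter.1 hp).1) hv

/-- The local series of absolute values. -/
theorem local_abs (hne : ψ ≠ 0) (her : EigenRho d d.Kf N ψ) (hN : d.Good N)
    (hself : SelfBound d N ψ) (hNM : N ∣ M) {p : ℕ} (hp : p.Prime) {s : ℝ}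
    (hs : s ∈ Set.Ioc (1 : ℝ) 2) :
    Summable (fun k => |serF ψ M (p ^ k)| * ((p : ℝ) ^ (-s)) ^ k) ∧
      ∑' k, |serF ψ M (p ^ k)| * ((p : ℝ) ^ (-s)) ^ k ≤
        eulerE' ψ M p s * Real.exp (4 * (p : ℝ) ^ (-s)) := by
  by_cases h : p ∣ M
  · have hz : ∀ k, k ≠ 0 → |serF ψ M (p ^ k)| * ((p : ℝ) ^ (-s)) ^ k = 0 := fun k hk => by
      simp [serF_prime_pow hp, hk, h]
    refine ⟨(hasSum_single 0 hz).summable, ?_⟩
    rw [tsum_eq_single 0 hz, eulerE', if_pos h]
    simpa [serF_one] using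
      (show 0 ≤ 4 * (p : ℝ) ^ (-s) by positivity)
  · obtain ⟨h1, h2, -⟩ := local_data hne her hN hself hp (not_dvd_level hNM h) hs
    simp only [serF_prime_pow_of_not_dvd hp h, eulerE', if_neg h]
    exact ⟨h1, h2⟩

/-- Absolute convergence. -/
theorem summable_serF (hne : ψ ≠ 0) (her : EigenRho d d.Kf N ψ) (hN : d.Good N)
    (hself : SelfBound d N ψ) (hNM : N ∣ M) :
    ∀ s : ℝ, 1 < s → Summable fun n : ℕ => |serF ψ M n| * (n : ℝ) ^ (-s) := by
  classical
  have key : ∀ s ∈ Set.Ioc (1 : ℝ) 2, Summable fun n : ℕ => |serF ψ M n| * (n : ℝ) ^ (-s) := by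
    intro s hs
    set g : ℕ → ℝ := fun n => |serF ψ M n| * (n : ℝ) ^ (-s)
    have hg0 : ∀ n, 0 ≤ g n := fun n => by positivity
    have hg1 : g 1 = 1 := by simp [g, serF_one]
    have hgm : ∀ {m n : ℕ}, m.Coprime n → g (m * n) = g m * g n := fun {m n} h => by
      simp only [g, serF_mul h, abs_mul]
      push_cast
      rw [Real.mul_rpow (Nat.cast_nonneg m) (Nat.cast_nonneg n)]
      ring
    have hgp : ∀ p k, g (p ^ k) = |serF ψ M (p ^ k)| * ((p : ℝ) ^ (-s)) ^ k := fun p k => by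
      simp only [g]
      rw [cast_pow_rpow]
    have hnorm : ∀ {p : ℕ}, p.Prime → Summable fun k : ℕ => ‖g (p ^ k)‖ := fun {p} hp =>
      ((local_abs hne her hN hself hNM hp hs).1).congr fun k => by
        rw [Real.norm_of_nonneg (hg0 _), hgp]
    obtain ⟨C, hC, hCb⟩ := exists_prod_eulerE'_le hself hNM
    have hps : Summable fun p : Nat.Primes => ((p : ℕ) : ℝ) ^ (-s) :=
      Nat.Primes.summable_rpow.mpr (by linarith [hs.1])
    refine summable_of_sum_le hg0
      (c := C / (s - 1) * Real.exp (4 * ∑' p : Nat.Primes, ((p : ℕ) : ℝ) ^ (-s))) fun U => ?_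
    set P := U.biUnion Nat.primeFactors
    have hP : ∀ p ∈ P, p.Prime := fun p hp => by
      obtain ⟨n, -, hn⟩ := Finset.mem_biUnion.1 hp
      exact Nat.prime_of_mem_primeFactors hn
    have hU : ∀ n ∈ U.filter (· ≠ 0), n ∈ Nat.factoredNumbers P := fun n hn => by
      rw [Finset.mem_filter] at hn
      exact (Nat.mem_factoredNumbers_iff_primeFactors_subset).2
        ⟨hn.2, Finset.subset_biUnion_of_mem Nat.primeFactors hn.1⟩
    obtain ⟨hs1, hs2⟩ :=
      EulerProduct.summable_and_hasSum_factoredNumbers_prod_filter_prime_tsum hg1 hgm hnorm P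
    calc ∑ n ∈ U, g n = ∑ n ∈ U.filter (· ≠ 0), g n := by
          refine (Finset.sum_filter_of_ne (p := fun n => n ≠ 0) fun n _ hn h0 => hn ?_).symm
          simp [g, h0, serF_zero]
      _ = ∑ n ∈ (U.filter (· ≠ 0)).subtype (· ∈ Nat.factoredNumbers P), g n :=
          (Finset.sum_subtype_of_mem g hU).symm
      _ ≤ ∏ p ∈ P with p.Prime, ∑' k : ℕ, g (p ^ k) :=
          sum_le_hasSum _ (fun n _ => hg0 _) hs2
      _ ≤ ∏ p ∈ P, eulerE' ψ M p s * Real.exp (4 * (p : ℝ) ^ (-s)) := by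
          rw [Finset.filter_true_of_mem hP]
          refine Finset.prod_le_prod (fun p _ => tsum_nonneg fun k => hg0 _) fun p hp => ?_
          simp only [hgp]
          exact (local_abs hne her hN hself hNM (hP p hp) hs).2
      _ ≤ _ := by
          rw [Finset.prod_mul_distrib, ← Real.exp_sum, ← Finset.mul_sum]
          refine mul_le_mul (hCb s hs P hP) (Real.exp_le_exp.2 ?_) (Real.exp_pos _).le
            (div_nonneg hC.le (by linarith [hs.1]))
          refine mul_le_mul_of_nonneg_left ?_ (by norm_num)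
          rw [← Finset.sum_subtype_of_mem (fun p : ℕ => (p : ℝ) ^ (-s)) hP]
          exact sum_le_hasSum (ι := Nat.Primes) _ (fun p _ => by positivity) hps.hasSum
  intro s hs
  rcases le_or_gt s 2 with h | h
  · exact key s ⟨hs, h⟩
  · refine (key 2 ⟨one_lt_two, le_rfl⟩).of_nonneg_of_le (fun n => by positivity) fun n => ?_
    rcases Nat.eq_zero_or_pos n with rfl | hn
    · simp [serF_zero]
    · exact mul_le_mul_of_nonneg_left
        (Real.rpow_le_rpow_of_exponent_le (by exact_mod_cast hn) (by linarith)) (abs_nonneg _)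

variable (d) in
/-- The weight of a prime. -/
def wtPrime (M p : ℕ) : ℕ :=
  if p ∣ M then 0 else
    sSup {k | ∃ A : ValuationSubring Qb, A.LiesOverPrime p ∧
      ∃ σ : Gam, A.IsFrobeniusAt σ p ∧ wtGam d σ = k}

theorem wtGam_le_sum (σ : Gam) :
    wtGam d σ ≤ ∑ A : Matrix (Fin 2) (Fin 2) (ZMod 3), wtMat A :=
  Finset.single_le_sum (f := wtMat) (fun _ _ => Nat.zero_le _) (Finset.mem_univ _)

theorem wtPrime_le (p : ℕ) : wtPrime d M p ≤ ∑ A : Matrix (Fin 2) (Fin 2) (ZMod 3), wtMat A := by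
  rw [wtPrime]
  split_ifs
  · exact Nat.zero_le _
  · refine csSup_le' ?_
    rintro k ⟨A, -, σ, -, rfl⟩
    exact wtGam_le_sum σ

/-- **The series is unbounded at `1`.** -/
theorem false_of_serF_bounded (hne : ψ ≠ 0) (her : EigenRho d d.Kf N ψ) (hN : d.Good N)
    (hself : SelfBound d N ψ) (hM : 0 < M) (hNM : N ∣ M)
    (hF : ∃ C, ∀ s ∈ Set.Ioc (1 : ℝ) 2, |∑' n : ℕ, serF ψ M n * (n : ℝ) ^ (-s)| ≤ C) : False := by
  classical
  obtain ⟨C₁, hC₁, hE⟩ := exists_prod_eulerE'_le hself hNM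
  obtain ⟨C₂, hC₂⟩ := hF
  obtain ⟨B, hB⟩ := exists_wt_density d M.primeFactors (fun p => (wtPrime d M p : ℝ))
    (fun p => Nat.cast_nonneg _) ⟨_, fun p _ => Nat.cast_le.2 (wtPrime_le p)⟩
    fun p hp hpS A hA σ hσ => by
      have hpM : ¬ p ∣ M := fun h => hpS (Nat.mem_primeFactors.2 ⟨hp, h, hM.ne'⟩)
      rw [wtPrime, if_neg hpM, Nat.cast_le]
      refine le_csSup ⟨∑ X : Matrix (Fin 2) (Fin 2) (ZMod 3), wtMat X, ?_⟩ ⟨A, hA, σ, hσ, rfl⟩
      rintro k ⟨-, -, τ, -, rfl⟩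
      exact wtGam_le_sum τ
  refine false_of_euler (serF ψ M) serF_zero serF_one (fun h => serF_mul h)
    (summable_serF hne her hN hself hNM) (fun p s => eulerE' ψ M p s)
    (fun p => (wtPrime d M p : ℝ))
    ⟨_, fun p => by rw [Nat.abs_cast]; exact Nat.cast_le.2 (wtPrime_le p)⟩ 32
    (show (1 : ℝ) < 4 / 3 by norm_num) (lt_max_of_lt_left hC₁ : 0 < max C₁ C₂) hB
    (fun s hs p => ?_) (fun s hs T => ?_) fun s hs => (hC₂ s hs).trans (le_max_right _ _)
  · by_cases h : (p : ℕ) ∣ M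
    · rw [tsum_eq_single 0 fun k hk => by simp [serF_prime_pow p.2, hk, h], wtPrime, if_pos h,
        eulerE', if_pos h]
      simp only [pow_zero, serF_one, one_pow, mul_one, Nat.cast_zero, zero_mul, zero_sub]
      exact Real.exp_le_one_iff.2 (by nlinarith [sq_nonneg (((p : ℕ) : ℝ) ^ (-s))])
    · obtain ⟨A₀, σ₀, hA₀, hσ₀⟩ := Frobenius.exists_liesOverPrime_isFrobeniusAt p.2
      obtain ⟨A, hA, σ, hσ, hk⟩ := Nat.sSup_mem (s := {k | ∃ A : ValuationSubring Qb,
          A.LiesOverPrime (p : ℕ) ∧ ∃ σ : Gam, A.IsFrobeniusAt σ p ∧ wtGam d σ = k})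
        ⟨_, A₀, hA₀, σ₀, hσ₀, rfl⟩ ⟨∑ X : Matrix (Fin 2) (Fin 2) (ZMod 3), wtMat X, by rintro k ⟨-, -, τ, -, rfl⟩; exact wtGam_le_sum τ⟩
      rw [wtPrime, if_neg h, eulerE', if_neg h, ← hk]
      simp only [serF_prime_pow_of_not_dvd p.2 h]
      exact (local_data hne her hN hself p.2 (not_dvd_level hNM h) hs).2.2 A σ hA hσ
  · refine le_trans ?_ ((hE s hs (T.map ⟨Subtype.val, Subtype.val_injective⟩) fun q hq => ?_).trans
      (div_le_div_of_nonneg_right (le_max_left _ _) (by linarith [hs.1])))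
    · exact (Finset.prod_map T ⟨Subtype.val, Subtype.val_injective⟩
        (fun q => eulerE' ψ M q s)).ge
    · obtain ⟨r, -, rfl⟩ := Finset.mem_map.1 hq
      exact r.2

end FLTAgent.LT.Asai
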