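import Fermat.Agent.LT.Asai.Mellin
import Fermat.Agent.LT.Asai.Series
import Fermat.Agent.LT.Asai.SelfBoundInst

/-!
# A translate has a nonzero period
-/

set_option autoImplicit false

noncomputable section

namespace FLTAgent.LT

open NumberField

/-- Piece C: the pole of the Asai series gives a nonzero period. -/
theorem asaiPeriod (d : Octa) : AsaiPeriod d := by
  intro N ψ hN hne hψ hfe her
  by_contra hcon
  simp only [not_exists, not_and, not_not] at hcon
  have := Asai.isTotallyComplex_Kf d
  have hself := Asai.selfBound_holds hN.1 hψ hfe hne
  obtain ⟨M, hM, hNM, hbd⟩ := Asai.exists_series_bound hN.1 hψ hfe hne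
    fun g m hm hinv => hcon g m hm hinv
  exact Asai.false_of_serF_bounded hne her hN hself hM hNM
    (hbd (Asai.summable_serF hne her hN hself hNM))

end FLTAgent.LT
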