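import Fermat.Agent.LT.Asai.Cut

/-!
# Vanishing periods bound the series at `1`
-/

set_option autoImplicit false

noncomputable section

namespace FLTAgent.LT.Asai

open MeasureTheory NumberField Set RS
open scoped Real

variable {d : Octa} {ψ : Form d.Kf} {N : ℕ}

theorem isDual_int_delK {m : ℕ} (h3 : 3 ∣ m) (n : ℤ) :
    IsDual m ((n : d.Kf) * delK d) := fun i => by
  obtain ⟨c, rfl⟩ := h3
  have hd : IsDual 1 ((-(2 * zO d + 1) : 𝓞 d.Kf) : d.Kf) := isDual_one_coe _
  obtain ⟨k, hk⟩ := hd i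
  refine ⟨c * n * k, ?_⟩
  simp only [freq, Nat.cast_one, one_mul] at hk ⊢
  have e : (n : d.Kf) * delK d * (RingOfIntegers.basis d.Kf i : d.Kf) =
      ((n : ℚ) / 3) • (((-(2 * zO d + 1) : 𝓞 d.Kf) : d.Kf) *
        (RingOfIntegers.basis d.Kf i : d.Kf)) := by
    rw [Algebra.smul_def, eq_ratCast, delK,
      show ((-(2 * zO d + 1) : 𝓞 d.Kf) : d.Kf) = -dK d by rw [dK]; simp [zO_coe, map_ofNat]]
    have hdK := dK_ne_zero d
    push_cast
    field_simp
    linear_combination ((n : d.Kf) * (RingOfIntegers.basis d.Kf i : d.Kf)) * dK_sq d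
  rw [e, map_smul, hk, smul_eq_mul]
  push_cast
  ring

theorem absK_int_delK (n : ℤ) :
    absK ((n : d.Kf) * delK d) = (n.natAbs : ℝ) * absK (delK d) := by
  rw [absK, map_mul, ← InfinitePlace.norm_embedding_eq _ (n : d.Kf), map_intCast, Complex.norm_intCast,
    Nat.cast_natAbs, Int.cast_abs]

theorem absK_delK_pos : 0 < absK (delK d) := (wInf d).pos_iff.2 delK_ne_zero

/-- When every period vanishes, the series of the coefficients prime to some multiple `M` of the
level is bounded at `1`. -/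
theorem exists_series_bound (hN : 0 < N) (hψ : CuspZero N ψ) (hfe : FullEigen N ψ) (hne : ψ ≠ 0)
    (hper : ∀ (g : GF d.Kf) (m : ℕ), 0 < m →
      (∀ γ ∈ CongruenceSubgroup.Gamma m, ∀ τ : UpperHalfPlane,
        planeRes ψ g (γ • τ) = planeRes ψ g τ) →
      period m (planeRes ψ g) = 0) :
    ∃ M : ℕ, 0 < M ∧ N ∣ M ∧
      ((∀ s : ℝ, 1 < s →
          Summable fun n : ℕ => |if n.Coprime M then fSer ψ n else 0| * (n : ℝ) ^ (-s)) →
        ∃ C, ∀ s ∈ Ioc (1 : ℝ) 2,
          |∑' n : ℕ, (if n.Coprime M then fSer ψ n else 0) * (n : ℝ) ^ (-s)| ≤ C) := by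
  classical
  obtain ⟨g, M0, hM0, hNM0, hA, htriv0⟩ := exists_cA_ne_zero hN hψ hne
  obtain ⟨nd, hnd, hden0⟩ := Red.exists_den (Set.finite_singleton g)
  have hden := hden0 g rfl
  set M := 3 * M0 * (N * nd ^ 2)
  have hM : 0 < M := by positivity
  have hNM : N ∣ M := (hNM0.mul_left 3).mul_right _
  have htriv : ∀ v : IsDedekindDomain.HeightOneSpectrum (𝓞 d.Kf),
      (M : 𝓞 d.Kf) ∉ v.asIdeal → TrivAt v g := fun v hv => htriv0 v fun h => hv (by
    simp only [M, Nat.cast_mul]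
    exact v.asIdeal.mul_mem_right _ (v.asIdeal.mul_mem_left _ h))
  obtain ⟨L, hL, hcut1, hcut2⟩ := exists_cut hN hψ hfe hM
    (dvd_mul_of_dvd_left (dvd_mul_right 3 M0) _) hNM htriv hnd hden (dvd_mul_left _ _)
  refine ⟨M, hM, hNM, fun hsum => ?_⟩
  obtain ⟨m, hm, h3m, -, C, hC⟩ :=
    exists_axis_bound hN hψ hper (cutE d M g L) (cutW M L) (D := 3) (by norm_num)
  set f : ℕ → ℝ := fun n => if n.Coprime M then fSer ψ n else 0
  set A0 := cA ψ g (delK d)
  set c := absK (delK d)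
  have hc : 0 < c := absK_delK_pos
  set comb : d.Kf → ℂ := fun ξ => ∑ i, cutW M L i * cA ψ (cutE d M g L i) ξ
  set κ : ℤ → (Idx d.Kf → ℤ) := fun n => kvec m ((n : d.Kf) * delK d)
  have hxi : ∀ n : ℤ, xiOf m (κ n) = (n : d.Kf) * delK d := fun n =>
    xiOf_kvec hm (isDual_int_delK h3m n)
  have hinj : Function.Injective κ := fun a b h => by
    have := congrArg (xiOf (F := d.Kf) m) h
    rw [hxi, hxi] at this
    exact_mod_cast mul_right_cancel₀ delK_ne_zero this
  -- the terms on the axis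
  let G : ℝ → ℕ → ℂ := fun y n => A0 * ((f n / n * kR (c * n * y) : ℝ) : ℂ)
  have hG : ∀ (y : ℝ) (n : ℤ), axisTerm comb m y (κ n) = G y n.natAbs := fun y n => by
    rw [axisTerm, hxi, if_pos (by simpa [delK] using re_rat_mul_dK_inv d (wInf d) n)]
    have e : comb ((n : d.Kf) * delK d) = ((f n.natAbs / n.natAbs : ℝ) : ℂ) * A0 := by
      by_cases h : n.natAbs.Coprime M
      · simp only [comb, hcut1 n h, f, if_pos h, A0]
      · have h0 := hcut2 (n : ℚ) fun n' hn' he => h (by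
          obtain rfl : n = n' := by exact_mod_cast he
          exact hn')
        simp only [Rat.cast_intCast] at h0
        simp only [comb, h0, f, if_neg h]
        simp
    rw [e, absK_int_delK]
    simp only [G, kC]
    rw [mul_comm (n.natAbs : ℝ) c]
    push_cast
    ring
  have hsupp : ∀ y : ℝ, Function.support (axisTerm comb m y) ⊆ Set.range κ := fun y k hk => by
    simp only [Function.mem_support, axisTerm, ne_eq, ite_eq_right_iff, not_forall] at hk
    obtain ⟨hre, hk⟩ := hk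
    obtain ⟨r, hr⟩ := exists_rat_of_re_zero d (wInf d) hre
    have hcomb : comb ((r : d.Kf) * delK d) ≠ 0 := fun h => hk (by
      rw [hr, show (r : d.Kf) * (dK d)⁻¹ = (r : d.Kf) * delK d from rfl, h, zero_mul])
    obtain ⟨n, -, hn⟩ : ∃ n : ℤ, n.natAbs.Coprime M ∧ r = n := by
      by_contra hall
      push Not at hall
      exact hcomb (hcut2 r hall)
    refine ⟨n, ?_⟩
    show kvec m ((n : d.Kf) * delK d) = k
    rw [← kvec_xiOf (F := d.Kf) hm k, hr, hn, Rat.cast_intCast]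
    rfl
  have hG0 : ∀ y, G y 0 = 0 := fun y => by simp [G]
  obtain ⟨B, hB0, hB⟩ := exists_kR_le
  have hGs : ∀ y : ℝ, 0 < y → Summable (G y) := fun y hy => by
    refine Summable.of_norm_bounded (((hsum 2 one_lt_two)).mul_left (‖A0‖ * (B / (c * y))))
      fun n => ?_
    rcases Nat.eq_zero_or_pos n with rfl | hn
    · rw [hG0, norm_zero]; positivity
    have hn' : (0 : ℝ) < n := Nat.cast_pos.2 hn
    have hk : kR (c * n * y) ≤ B / (c * n * y) := by
      refine (hB _ (by positivity)).trans ?_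
      rw [Real.exp_neg, ← div_eq_mul_inv]
      exact div_le_div_of_nonneg_left hB0 (by positivity) (by linarith [Real.add_one_le_exp (c * n * y)])
    simp only [G, norm_mul, Complex.norm_real, Real.norm_eq_abs]
    rw [abs_div, Nat.abs_cast, abs_of_nonneg (kR_nonneg (by positivity))]
    calc ‖A0‖ * (|f n| / n * kR (c * n * y)) ≤ ‖A0‖ * (|f n| / n * (B / (c * n * y))) := by gcongr
      _ = ‖A0‖ * (B / (c * y)) * (|f n| * (n : ℝ) ^ (-2 : ℝ)) := by
          rw [Real.rpow_neg hn'.le, Real.rpow_two]; field_simp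
  have hline : ∀ y : ℝ, 0 < y → ∑' k, axisTerm comb m y k = 2 * ∑' n, G y n := fun y hy => by
    rw [← hinj.tsum_eq (hsupp y)]
    simp only [hG]
    have h1 : HasSum (fun n : ℕ => G y ((n : ℤ).natAbs)) (∑' n, G y n) := by
      simpa using (hGs y hy).hasSum
    have h2 : HasSum (fun n : ℕ => G y ((-((n : ℤ) + 1)).natAbs)) (∑' n, G y n) := by
      have h := ((hasSum_nat_add_iff' 1).2 (hGs y hy).hasSum)
      simp only [Finset.sum_range_one, hG0, sub_zero] at h
      refine h.congr_fun fun n => ?_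
      congr 1
    have h3 := HasSum.of_nat_of_neg_add_one (f := fun n : ℤ => G y n.natAbs) h1 h2
    rw [h3.tsum_eq]
    ring
  refine ⟨C / (2 * ‖A0‖ * min 1 c⁻¹ * ThetaM.bK 2), fun s hs => ?_⟩
  have hkM : 0 < kMellin s := lt_of_lt_of_le bK_two_pos (bK_two_le_kMellin hs.1)
  -- the exchange
  let T : ℕ → ℝ → ℂ := fun n y => A0 * ((f n / n * (kR (c * n * y) * y ^ (s - 2)) : ℝ) : ℂ)
  have hTi : ∀ n, IntegrableOn (T n) (Ioi (0 : ℝ)) := fun n => by
    rcases Nat.eq_zero_or_pos n with rfl | hn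
    · simp [T]
    exact (((integrableOn_kR_scale (mul_pos hc (Nat.cast_pos.2 hn)) hs.1).const_mul
      (f n / n)).ofReal).const_mul A0
  have hpow : ∀ n : ℕ, ∀ u : ℝ, u / n * ((c * n) ^ (1 - s)) = u * (n : ℝ) ^ (-s) * c ^ (1 - s) :=
    fun n u => by
      rcases Nat.eq_zero_or_pos n with rfl | hn
      · have : (0 : ℝ) ^ (-s) = 0 := Real.zero_rpow (by linarith [hs.1])
        simp [this]
      have hn' : (0 : ℝ) < n := Nat.cast_pos.2 hn
      rw [Real.mul_rpow hc.le hn'.le, show (1 : ℝ) - s = -s + 1 by ring, Real.rpow_add hn' (-s) 1,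
        Real.rpow_one]
      field_simp
  have hval : ∀ n, ∫ y in Ioi (0 : ℝ), T n y =
      A0 * ((f n * (n : ℝ) ^ (-s) * c ^ (1 - s) * kMellin s : ℝ) : ℂ) := fun n => by
    simp only [T]
    rw [integral_const_mul, integral_complex_ofReal, integral_const_mul]
    congr 2
    rcases Nat.eq_zero_or_pos n with rfl | hn
    · rw [← hpow]; simp
    rw [integral_kR_scale (mul_pos hc (Nat.cast_pos.2 hn)), ← mul_assoc, hpow]
  have hnorm : ∀ n, ∫ y in Ioi (0 : ℝ), ‖T n y‖ =
      ‖A0‖ * (|f n| * (n : ℝ) ^ (-s) * c ^ (1 - s) * kMellin s) := fun n => by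
    have e : EqOn (fun y => ‖T n y‖) (fun y => ‖A0‖ * (|f n| / n * (kR (c * n * y) * y ^ (s - 2))))
        (Ioi 0) := fun y (hy : 0 < y) => by
      simp only [T, norm_mul, Complex.norm_real, Real.norm_eq_abs]
      rw [abs_div, Nat.abs_cast, abs_of_nonneg (kR_nonneg (by positivity)),
        abs_of_nonneg (Real.rpow_nonneg hy.le _)]
    rw [setIntegral_congr_fun measurableSet_Ioi e, integral_const_mul, integral_const_mul]
    congr 1
    rcases Nat.eq_zero_or_pos n with rfl | hn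
    · rw [← hpow]; simp
    rw [integral_kR_scale (mul_pos hc (Nat.cast_pos.2 hn)), ← mul_assoc, hpow]
  have hex : ∫ y in Ioi (0 : ℝ), ∑' n, T n y =
      A0 * (((∑' n, f n * (n : ℝ) ^ (-s)) * c ^ (1 - s) * kMellin s : ℝ) : ℂ) := by
    rw [← integral_tsum_of_summable_integral_norm hTi
      (((((hsum s hs.1).mul_right _).mul_right _).mul_left _).congr fun n => (hnorm n).symm)]
    simp only [hval]
    rw [tsum_mul_left, ← Complex.ofReal_tsum, tsum_mul_right, tsum_mul_right]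
  have hb := hC s hs
  have e : EqOn (fun y => ((y ^ (s - 2) : ℝ) : ℂ) * ∑' k, axisTerm comb m y k)
      (fun y => 2 * ∑' n, T n y) (Ioi 0) := fun y (hy : 0 < y) => by
    show _ * _ = _
    rw [hline y hy, ← mul_assoc, mul_comm (_ : ℂ) (2 : ℂ), mul_assoc, ← tsum_mul_left]
    congr 1
    refine tsum_congr fun n => ?_
    simp only [G, T]
    push_cast
    ring
  rw [setIntegral_congr_fun measurableSet_Ioi e, integral_const_mul, hex, norm_mul, norm_mul,
    Complex.norm_real, Real.norm_eq_abs, abs_mul, abs_mul, abs_of_pos hkM,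
    abs_of_pos (Real.rpow_pos_of_pos hc _), Complex.norm_ofNat] at hb
  rw [le_div_iff₀ (mul_pos (mul_pos (mul_pos two_pos (norm_pos_iff.2 hA))
    (lt_min one_pos (inv_pos.2 hc))) bK_two_pos)]
  have hlow : min 1 c⁻¹ * ThetaM.bK 2 ≤ c ^ (1 - s) * kMellin s := by
    refine mul_le_mul ?_ (bK_two_le_kMellin hs.1) (ThetaM.bK_nonneg 2) (Real.rpow_nonneg hc.le _)
    rcases le_total c 1 with h | h
    · exact (min_le_left _ _).trans (Real.one_le_rpow_of_pos_of_le_one_of_nonpos hc h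
        (by linarith [hs.1]))
    · refine (min_le_right _ _).trans ?_
      rw [← Real.rpow_neg_one]
      exact Real.rpow_le_rpow_of_exponent_le h (by linarith [hs.2])
  show |∑' n : ℕ, f n * (n : ℝ) ^ (-s)| * _ ≤ C
  calc |∑' n : ℕ, f n * (n : ℝ) ^ (-s)| * (2 * ‖A0‖ * min 1 c⁻¹ * ThetaM.bK 2)
      = 2 * ‖A0‖ * |∑' n : ℕ, f n * (n : ℝ) ^ (-s)| * (min 1 c⁻¹ * ThetaM.bK 2) := by ring
    _ ≤ 2 * ‖A0‖ * |∑' n : ℕ, f n * (n : ℝ) ^ (-s)| * (c ^ (1 - s) * kMellin s) :=
        mul_le_mul_of_nonneg_left hlow (by positivity)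
    _ ≤ C := le_of_eq_of_le (by ring) hb

end FLTAgent.LT.Asai
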