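import Fermat.Agent.LT.RS.Mode
import Fermat.Agent.LT.ThetaM.Bessel

/-!
# The explicit radial mode and its Mellin transform
-/

set_option autoImplicit false

noncomputable section

namespace FLTAgent.LT.Asai

open MeasureTheory Set
open scoped Real

/-- The radial mode `t · ∫ exp (-4π t cosh 2s) ds`. -/
def kR (t : ℝ) : ℝ := t * ThetaM.bK t

/-- The radial mode, complex valued. -/
def kC (t : ℝ) : ℂ := (kR t : ℂ)

theorem kR_nonneg {t : ℝ} (ht : 0 ≤ t) : 0 ≤ kR t := mul_nonneg ht (ThetaM.bK_nonneg t)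

theorem kR_pos {t : ℝ} (ht : 0 < t) : 0 < kR t := mul_pos ht (ThetaM.bK_pos ht)

theorem continuousOn_kR : ContinuousOn kR (Ioi 0) := continuousOn_id.mul ThetaM.continuousOn_bK

theorem bK_le {y : ℝ} (hy : 0 < y) :
    ThetaM.bK y ≤ Real.exp (-(4 * π * y)) * Real.sqrt (π / (8 * π * y)) := by
  rw [← integral_gaussian, ← integral_const_mul]
  refine integral_mono (ThetaM.integrable_bK hy)
    ((integrable_exp_neg_mul_sq (by positivity)).const_mul _) fun s => ?_
  rw [← Real.exp_add, Real.exp_le_exp]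
  have h := mul_le_mul_of_nonneg_left (ThetaM.one_add_sq_half_le_cosh (2 * s))
    (by positivity : (0 : ℝ) ≤ 4 * π * y)
  nlinarith

theorem exists_kR_le : ∃ C, 0 ≤ C ∧ ∀ t, 0 < t → kR t ≤ C * Real.exp (-t) := by
  refine ⟨1, zero_le_one, fun t ht => ?_⟩
  rw [one_mul]
  refine (mul_le_mul_of_nonneg_left (bK_le ht) ht.le).trans ?_
  have h2 : t * Real.sqrt (π / (8 * π * t)) ≤ 1 + t := by
    have h8 : π / (8 * π * t) ≤ 1 / t := by
      rw [div_le_div_iff₀ (by positivity) ht]
      nlinarith [Real.pi_pos, mul_pos Real.pi_pos ht]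
    calc t * Real.sqrt (π / (8 * π * t)) ≤ t * Real.sqrt (1 / t) :=
          mul_le_mul_of_nonneg_left (Real.sqrt_le_sqrt h8) ht.le
      _ = Real.sqrt (t * t) * Real.sqrt (1 / t) := by rw [Real.sqrt_mul_self ht.le]
      _ = Real.sqrt t := by
          rw [← Real.sqrt_mul (mul_self_nonneg t)]
          congr 1
          field_simp
      _ ≤ 1 + t := by nlinarith [Real.sq_sqrt ht.le, Real.sqrt_nonneg t, sq_nonneg (Real.sqrt t - 1)]
  calc t * (Real.exp (-(4 * π * t)) * Real.sqrt (π / (8 * π * t)))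
      = Real.exp (-(4 * π * t)) * (t * Real.sqrt (π / (8 * π * t))) := by ring
    _ ≤ Real.exp (-(4 * π * t)) * Real.exp t :=
        mul_le_mul_of_nonneg_left (h2.trans (by linarith [Real.add_one_le_exp t]))
          (Real.exp_pos _).le
    _ ≤ Real.exp (-t) := by
        rw [← Real.exp_add, Real.exp_le_exp]
        nlinarith [Real.pi_gt_three]

theorem norm_kC {t : ℝ} (ht : 0 ≤ t) : ‖kC t‖ = kR t := by
  rw [kC, Complex.norm_real, Real.norm_eq_abs, abs_of_nonneg (kR_nonneg ht)]

/-- The explicit mode is a reference mode. -/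
theorem refMode_kC : RS.RefMode kC 1 where
  pos := one_pos
  ne := Complex.ofReal_ne_zero.2 (kR_pos one_pos).ne'
  mode :=
    { cont := Complex.continuous_ofReal.comp_continuousOn continuousOn_kR
      bdd := by
        obtain ⟨C, hC, h⟩ := exists_kR_le
        exact ⟨C, fun t ht => by
          rw [norm_kC ht.le]
          exact (h t ht).trans (mul_le_of_le_one_right hC (Real.exp_le_one_iff.2 (by linarith)))⟩
      mean := fun p H hH hHs => by
        have e : ∀ q : H3, RS.waveChar (4 * π) 0 q.1 * kC q.2 = ThetaM.wTerm q 1 := fun q => by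
          simp only [RS.waveChar, kC, kR, ThetaM.wTerm, norm_one, mul_one, zero_mul, add_zero]
          exact mul_comm _ _
        simp only [e]
        exact ThetaM.mean_value H hH hHs p one_ne_zero }

/-- The Mellin transform of the mode. -/
def kMellin (s : ℝ) : ℝ := ∫ y in Ioi (0 : ℝ), kR y * y ^ (s - 2)

theorem integrableOn_kR_rpow {s : ℝ} (hs : 1 < s) :
    IntegrableOn (fun y => kR y * y ^ (s - 2)) (Ioi 0) := by
  obtain ⟨C, hC, h⟩ := exists_kR_le
  have hg : IntegrableOn (fun y => y ^ (s - 2) * Real.exp (-(1 * y))) (Ioi 0) := by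
    simpa [neg_mul] using integrableOn_rpow_mul_exp_neg_mul_rpow (s := s - 2) (p := 1)
      (by linarith) one_pos one_pos
  refine Integrable.mono' (hg.const_mul C) ?_ ?_
  · exact (continuousOn_kR.mul (continuousOn_id.rpow_const fun y hy =>
      Or.inl (ne_of_gt hy))).aestronglyMeasurable measurableSet_Ioi
  · filter_upwards [self_mem_ae_restrict measurableSet_Ioi] with y (hy : 0 < y)
    rw [Real.norm_eq_abs, abs_of_nonneg (mul_nonneg (kR_nonneg hy.le) (Real.rpow_nonneg hy.le _)),
      one_mul]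
    nlinarith [mul_le_mul_of_nonneg_right (h y hy) (Real.rpow_nonneg hy.le (s - 2))]

theorem bK_two_le_kMellin {s : ℝ} (hs : 1 < s) : ThetaM.bK 2 ≤ kMellin s := by
  have hsub : Icc (1 : ℝ) 2 ⊆ Ioi 0 := fun y hy => lt_of_lt_of_le one_pos hy.1
  calc ThetaM.bK 2 = ∫ _ in Icc (1 : ℝ) 2, ThetaM.bK 2 := by simp; norm_num
    _ ≤ ∫ y in Icc (1 : ℝ) 2, kR y * y ^ (s - 2) := by
        refine setIntegral_mono_on (integrableOn_const (by simp))
          ((integrableOn_kR_rpow hs).mono_set hsub) measurableSet_Icc fun y hy => ?_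
        have hy0 : (0 : ℝ) < y := hsub hy
        have h1 : 1 ≤ y ^ (s - 1) := Real.one_le_rpow hy.1 (by linarith)
        rw [show kR y * y ^ (s - 2) = ThetaM.bK y * y ^ (s - 1) by
          rw [kR, show s - 1 = (s - 2) + 1 by ring, Real.rpow_add hy0, Real.rpow_one]; ring]
        exact (ThetaM.bK_anti hy0 hy.2).trans (le_mul_of_one_le_right (ThetaM.bK_nonneg y) h1)
    _ ≤ kMellin s :=
        setIntegral_mono_set (integrableOn_kR_rpow hs)
          (by filter_upwards [self_mem_ae_restrict measurableSet_Ioi] with y hy using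
            mul_nonneg (kR_nonneg (le_of_lt hy)) (Real.rpow_nonneg (le_of_lt hy) _))
          hsub.eventuallyLE

theorem bK_two_pos : 0 < ThetaM.bK 2 := ThetaM.bK_pos two_pos

theorem integral_kR_scale {a : ℝ} (ha : 0 < a) (s : ℝ) :
    ∫ y in Ioi (0 : ℝ), kR (a * y) * y ^ (s - 2) = a ^ (1 - s) * kMellin s := by
  have h := integral_comp_mul_left_Ioi (fun y => kR y * y ^ (s - 2)) 0 ha
  rw [mul_zero, smul_eq_mul] at h
  have e : EqOn (fun y => kR (a * y) * (a * y) ^ (s - 2))
      (fun y => a ^ (s - 2) * (kR (a * y) * y ^ (s - 2))) (Ioi 0) := fun y hy => by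
    simp only [Real.mul_rpow ha.le (le_of_lt hy)]
    ring
  rw [setIntegral_congr_fun measurableSet_Ioi e, integral_const_mul] at h
  have h2 : a ^ (s - 2) ≠ 0 := (Real.rpow_pos_of_pos ha _).ne'
  rw [kMellin, ← mul_right_inj' h2, h, ← mul_assoc, ← Real.rpow_add ha,
    show s - 2 + (1 - s) = -1 by ring, Real.rpow_neg_one]

theorem integrableOn_kR_scale {a : ℝ} (ha : 0 < a) {s : ℝ} (hs : 1 < s) :
    IntegrableOn (fun y => kR (a * y) * y ^ (s - 2)) (Ioi 0) := by
  have h : IntegrableOn (fun y => kR (a * y) * (a * y) ^ (s - 2)) (Ioi 0) := by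
    have h0 := integrableOn_kR_rpow hs
    rw [← mul_zero a] at h0
    exact (integrableOn_Ioi_comp_mul_left_iff (fun y => kR y * y ^ (s - 2)) 0 ha).2 h0
  refine IntegrableOn.congr_fun (h.const_mul (a ^ (s - 2))⁻¹) (fun y hy => ?_) measurableSet_Ioi
  simp only [Real.mul_rpow ha.le (le_of_lt hy)]
  field_simp

end FLTAgent.LT.Asai
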