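import Fermat.Agent.Chebotarev.Main
import Fermat.Agent.Frobenius.Places

/-!
# Prime sums weighted by a class function of Frobenius
-/

set_option autoImplicit false
set_option maxSynthPendingDepth 3

namespace FLTAgent.LT.Asai

open FLTAgent.Frobenius FLTAgent.Chebotarev
open scoped Pointwise

local notation "Qbar" => AlgebraicClosure ℚ
local notation "Γℚ" => AlgebraicClosure ℚ ≃ₐ[ℚ] AlgebraicClosure ℚ

variable (F : IntermediateField ℚ Qbar) [FiniteDimensional ℚ F] [Normal ℚ F]

omit [FiniteDimensional ℚ F] in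
/-- Frobenius elements at an unramified prime restrict to one conjugacy class. -/
theorem isConj_restrict_frobenius {p : ℕ} (hp : p.Prime) {A A' : ValuationSubring Qbar}
    (hA : A.LiesOverPrime p) (hA' : A'.LiesOverPrime p)
    (hI' : A'.inertiaSubgroupIn ℚ ≤ F.fixingSubgroup) {φ φ' : Γℚ} (hφ : A.IsFrobeniusAt φ p)
    (hφ' : A'.IsFrobeniusAt φ' p) :
    IsConj (AlgEquiv.restrictNormalHom F φ) (AlgEquiv.restrictNormalHom F φ') := by
  have := normal_qbar
  obtain ⟨τ, rfl⟩ := Frobenius.exists_smul_eq hp hA hA'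
  have h := inv_mul_mem_inertiaSubgroupIn hp.pos (Frobenius.isFrobeniusAt_conj hp.pos hφ τ) hφ'
  have h1 : AlgEquiv.restrictNormalHom F ((τ * φ * τ⁻¹)⁻¹ * φ') = 1 := by
    have hk := @IntermediateField.restrictNormalHom_ker ℚ Qbar _ _ _ F ‹Normal ℚ F›
    exact (SetLike.ext_iff.mp hk _).mpr (hI' h)
  rw [map_mul, map_inv, inv_mul_eq_one] at h1
  exact isConj_iff.mpr ⟨AlgEquiv.restrictNormalHom F τ, by rw [← h1, map_mul, map_mul, map_inv]⟩

/-- A coefficient function which dominates a class function of Frobenius has prime sum at least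
its mean times `log (1 / (s - 1))`. -/
theorem exists_weighted_density (w : (F ≃ₐ[ℚ] F) → ℝ) (hw : ∀ g, 0 ≤ w g)
    (hconj : ∀ g h, w (h * g * h⁻¹) = w g) (S : Finset ℕ) (c : ℕ → ℝ) (hc0 : ∀ p, 0 ≤ c p)
    (hcb : ∃ C, ∀ p : ℕ, p.Prime → c p ≤ C)
    (hc : ∀ p : ℕ, p.Prime → p ∉ S → ∀ A : ValuationSubring Qbar, A.LiesOverPrime p →
      A.inertiaSubgroupIn ℚ ≤ F.fixingSubgroup → ∀ φ : Γℚ, A.IsFrobeniusAt φ p →
        w (AlgEquiv.restrictNormalHom F φ) ≤ c p)
    {ε : ℝ} (hε : 0 < ε) :
    ∃ B : ℝ, ∀ s ∈ Set.Ioc (1 : ℝ) 2,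
      ((∑ g, w g) / Nat.card (F ≃ₐ[ℚ] F) - ε) * -Real.log (s - 1) - B ≤
        ∑' p : Nat.Primes, c p * ((p : ℕ) : ℝ) ^ (-s) := by
  classical
  set n : ℕ := Nat.card (F ≃ₐ[ℚ] F)
  let cl : (F ≃ₐ[ℚ] F) → Set (F ≃ₐ[ℚ] F) := fun g => {h | IsConj g h}
  have hcl : ∀ g, ∀ x ∈ cl g, ∀ y, y * x * y⁻¹ ∈ cl g := fun g x hx y =>
    IsConj.trans hx (isConj_iff.mpr ⟨y, rfl⟩)
  have hcl0 : ∀ g, (0 : ℝ) < (cl g).ncard := fun g =>
    Nat.cast_pos.mpr ((Set.ncard_pos (Set.toFinite _)).mpr ⟨g, IsConj.refl g⟩)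
  let T : ℝ := ∑ g, w g / (cl g).ncard
  have hT : 0 ≤ T := Finset.sum_nonneg fun g _ => div_nonneg (hw g) (hcl0 g).le
  let P : (F ≃ₐ[ℚ] F) → Set Nat.Primes := fun g =>
    frobSet F {σ | AlgEquiv.restrictNormalHom F σ ∈ cl g} S
  choose B hB using fun g => exists_frobSet_density F (cl g) (hcl g) S
    (δ := ε / (T + 1)) (div_pos hε (by linarith))
  refine ⟨∑ g, w g / (cl g).ncard * B g, fun s hs => ?_⟩
  have hlog : 0 ≤ -Real.log (s - 1) :=
    neg_nonneg.mpr (Real.log_nonpos (by linarith [hs.1]) (by linarith [hs.2]))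
  have hbase : Summable (fun p : Nat.Primes => ((p : ℕ) : ℝ) ^ (-s)) :=
    Nat.Primes.summable_rpow.mpr (by linarith [hs.1])
  obtain ⟨C, hC⟩ := hcb
  have hcs : Summable (fun p : Nat.Primes => c p * ((p : ℕ) : ℝ) ^ (-s)) :=
    Summable.of_nonneg_of_le (fun p => mul_nonneg (hc0 _) (by positivity))
      (fun p => mul_le_mul_of_nonneg_right (hC p p.2) (by positivity)) (hbase.mul_left C)
  have hsum : ∀ g, Summable (fun p : Nat.Primes => (w g / (cl g).ncard) *
      (P g).indicator (fun p => ((p : ℕ) : ℝ) ^ (-s)) p) := fun g =>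
    (hbase.indicator _).mul_left _
  calc ((∑ g, w g) / n - ε) * -Real.log (s - 1) - ∑ g, w g / (cl g).ncard * B g
      ≤ ∑ g, w g / (cl g).ncard *
          (((cl g).ncard / n - ε / (T + 1)) * -Real.log (s - 1) - B g) := by
        have h1 : ∀ g, w g / (cl g).ncard *
            (((cl g).ncard / n - ε / (T + 1)) * -Real.log (s - 1) - B g) =
            (w g / n) * -Real.log (s - 1) -
              w g / (cl g).ncard * (ε / (T + 1) * -Real.log (s - 1)) -
              w g / (cl g).ncard * B g := fun g => by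
          have := (hcl0 g).ne'
          field_simp
          ring
        simp only [h1, Finset.sum_sub_distrib, ← Finset.sum_mul, ← Finset.sum_div]
        have h2 : T * (ε / (T + 1) * -Real.log (s - 1)) ≤ ε * -Real.log (s - 1) := by
          rw [← mul_assoc]
          refine mul_le_mul_of_nonneg_right ?_ hlog
          rw [mul_div_assoc', div_le_iff₀ (by linarith)]
          nlinarith
        linarith
    _ ≤ ∑ g, w g / (cl g).ncard * ∑' p : P g, ((p.1 : ℕ) : ℝ) ^ (-s) := by
        refine Finset.sum_le_sum fun g _ => mul_le_mul_of_nonneg_left (hB g s hs) ?_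
        exact div_nonneg (hw g) (hcl0 g).le
    _ = ∑' p : Nat.Primes, ∑ g, w g / (cl g).ncard *
          (P g).indicator (fun p => ((p : ℕ) : ℝ) ^ (-s)) p := by
        rw [Summable.tsum_finsetSum fun g _ => hsum g]
        refine Finset.sum_congr rfl fun g _ => ?_
        rw [tsum_mul_left, ← tsum_subtype (P g) fun p : Nat.Primes => ((p : ℕ) : ℝ) ^ (-s)]
    _ ≤ ∑' p : Nat.Primes, c p * ((p : ℕ) : ℝ) ^ (-s) := by
        refine (summable_sum fun g _ => hsum g).tsum_le_tsum (fun p => ?_) hcs
        by_cases hp : ∃ g, p ∈ P g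
        · obtain ⟨g₀, hpS, A, hA, hI, φ, hφ, -⟩ := hp
          set r := AlgEquiv.restrictNormalHom F φ with hr
          have hmem : ∀ g, p ∈ P g → g ∈ cl r := by
            rintro g ⟨-, A', hA', hI', φ', hφ', hg⟩
            exact (isConj_restrict_frobenius F p.2 hA hA' hI' hφ hφ').trans
              (IsConj.symm hg)
          have hval : ∀ g ∈ cl r, w g / (cl g).ncard = w r / (cl r).ncard := by
            intro g hg
            obtain ⟨y, hy⟩ := isConj_iff.mp (show IsConj r g from hg)
            have : cl g = cl r := Set.ext fun x =>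
              ⟨fun hx => IsConj.trans hg hx, fun hx => IsConj.trans (IsConj.symm hg) hx⟩
            rw [this, ← hy, hconj]
          calc ∑ g, w g / (cl g).ncard * (P g).indicator (fun p => ((p : ℕ) : ℝ) ^ (-s)) p
              ≤ ∑ g, (cl r).indicator
                  (fun _ => w r / (cl r).ncard * ((p : ℕ) : ℝ) ^ (-s)) g := by
                refine Finset.sum_le_sum fun g _ => ?_
                by_cases hg : p ∈ P g
                · rw [Set.indicator_of_mem hg, Set.indicator_of_mem (hmem g hg),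
                    hval g (hmem g hg)]
                · rw [Set.indicator_of_notMem hg, mul_zero]
                  exact Set.indicator_nonneg (fun x _ => mul_nonneg
                    (div_nonneg (hw r) (hcl0 r).le) (by positivity)) g
            _ = w r * ((p : ℕ) : ℝ) ^ (-s) := by
                have hfin : Finset.univ.filter (fun g => g ∈ cl r) = (cl r).toFinset := by
                  ext g; simp
                rw [Finset.sum_congr rfl fun g _ => Set.indicator_apply (cl r) _ g,
                  ← Finset.sum_filter, hfin, Finset.sum_const, ← Set.ncard_eq_toFinset_card',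
                  nsmul_eq_mul, ← mul_assoc, mul_div_assoc',
                  mul_div_cancel_left₀ _ (hcl0 r).ne']
            _ ≤ c p * ((p : ℕ) : ℝ) ^ (-s) :=
                mul_le_mul_of_nonneg_right (hc p p.2 hpS A hA hI φ hφ) (by positivity)
        · push Not at hp
          rw [Finset.sum_eq_zero fun g _ => by rw [Set.indicator_of_notMem (hp g), mul_zero]]
          exact mul_nonneg (hc0 _) (by positivity)

end FLTAgent.LT.Asai
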